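import Fermat.Agent.Corollaries.LS.BVDefs

/-!
# Vaughan's identity
-/

set_option autoImplicit false

open Finset ArithmeticFunction
open scoped ArithmeticFunction.zeta ArithmeticFunction.Moebius

namespace Fermat.Agent.Cor.LS.BV

/-- the arithmetic function equal to `α` on `s` and zero outside -/
noncomputable def cut (s : Finset ℕ) (α : ℕ → ℝ) : ArithmeticFunction ℝ :=
  ⟨fun n => if n ∈ s ∧ n ≠ 0 then α n else 0, by simp⟩

theorem cut_apply (s : Finset ℕ) (α : ℕ → ℝ) (n : ℕ) :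
    cut s α n = if n ∈ s ∧ n ≠ 0 then α n else 0 := rfl

theorem af_sub (f g : ArithmeticFunction ℝ) (n : ℕ) : (f - g) n = f n - g n := by
  rw [sub_eq_add_neg, ArithmeticFunction.add_apply, sub_eq_add_neg]
  rfl

theorem conv_eq (s t : Finset ℕ) (α β : ℕ → ℝ) (n : ℕ) :
    conv s t α β n = (cut s α * cut t β) n := by
  rw [conv, mul_apply, Finset.sum_filter]
  refine Finset.sum_congr rfl fun p hp => ?_
  obtain ⟨h1, h2⟩ := Nat.mem_divisorsAntidiagonal.mp hp
  have h3 : p.1 ≠ 0 := by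
    intro h
    rw [h, zero_mul] at h1
    exact h2 h1.symm
  have h4 : p.2 ≠ 0 := by
    intro h
    rw [h, mul_zero] at h1
    exact h2 h1.symm
  rw [cut_apply, cut_apply]
  by_cases ha : p.1 ∈ s <;> by_cases hb : p.2 ∈ t <;> simp [ha, hb, h3, h4]

/-- **(T0) Vaughan's identity** -/
theorem vaughanStmt : VaughanStmt := by
  intro U V N n hU hV hn hnN
  set A : ArithmeticFunction ℝ := cut (Icc 1 U) mu with hA
  set B : ArithmeticFunction ℝ := cut (Icc 1 V) La with hB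
  have hring : (vonMangoldt : ArithmeticFunction ℝ) = B + A * log - (A * B) * (ζ : ArithmeticFunction ℝ) +
      ((1 : ArithmeticFunction ℝ) - A * (ζ : ArithmeticFunction ℝ)) * (vonMangoldt - B) := by
    have h1 : (vonMangoldt : ArithmeticFunction ℝ) * ζ = log := vonMangoldt_mul_zeta
    rw [← h1]
    ring
  have hpos : ∀ p ∈ n.divisorsAntidiagonal, p.1 ≠ 0 ∧ p.2 ≠ 0 ∧ p.1 ≤ N ∧ p.2 ≤ N := by
    intro p hp
    obtain ⟨h1, h2⟩ := Nat.mem_divisorsAntidiagonal.mp hp
    have h3 : p.1 ≠ 0 := by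
      intro h
      rw [h, zero_mul] at h1
      exact h2 h1.symm
    have h4 : p.2 ≠ 0 := by
      intro h
      rw [h, mul_zero] at h1
      exact h2 h1.symm
    refine ⟨h3, h4, ?_, ?_⟩
    · calc p.1 ≤ p.1 * p.2 := Nat.le_mul_of_pos_right _ (Nat.pos_of_ne_zero h4)
        _ ≤ N := h1.trans_le hnN
    · calc p.2 ≤ p.1 * p.2 := Nat.le_mul_of_pos_left _ (Nat.pos_of_ne_zero h3)
        _ ≤ N := h1.trans_le hnN
  have h1 : B n = if n ≤ V then La n else 0 := by
    rw [hB, cut_apply]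
    have : (n ∈ Icc 1 V ∧ n ≠ 0) ↔ n ≤ V := by
      rw [Finset.mem_Icc]
      omega
    simp only [this]
  have h2 : (A * log) n = conv (Icc 1 U) (Icc 1 N) mu (fun l => Real.log l) n := by
    rw [conv_eq, mul_apply, mul_apply]
    refine Finset.sum_congr rfl fun p hp => ?_
    obtain ⟨h3, h4, h5, h6⟩ := hpos p hp
    rw [log_apply, cut_apply (Icc 1 N), if_pos ⟨Finset.mem_Icc.mpr ⟨by omega, h6⟩, h4⟩]
  have hζ : ∀ m : ℕ, m ≠ 0 → (ζ : ArithmeticFunction ℝ) m = 1 := by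
    intro m hm
    rw [natCoe_apply, zeta_apply_ne hm, Nat.cast_one]
  have hAB : ∀ m, (A * B) m = cc U V m := by
    intro m
    rw [cc, conv_eq]
  have hAB0 : ∀ m, m ≠ 0 → ¬ m ≤ U * V → cc U V m = 0 := by
    intro m hm h
    rw [cc, conv]
    refine Finset.sum_eq_zero fun p hp => ?_
    exfalso
    rw [Finset.mem_filter, Nat.mem_divisorsAntidiagonal, Finset.mem_Icc, Finset.mem_Icc] at hp
    apply h
    rw [← hp.1.1]
    exact Nat.mul_le_mul hp.2.1.2 hp.2.2.2
  have h3 : ((A * B) * (ζ : ArithmeticFunction ℝ)) n =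
      conv (Icc 1 (U * V)) (Icc 1 N) (cc U V) (fun _ => 1) n := by
    rw [conv_eq, mul_apply, mul_apply]
    refine Finset.sum_congr rfl fun p hp => ?_
    obtain ⟨h3, h4, h5, h6⟩ := hpos p hp
    rw [hAB, hζ _ h4, cut_apply (Icc 1 N), if_pos ⟨Finset.mem_Icc.mpr ⟨by omega, h6⟩, h4⟩,
      cut_apply]
    by_cases h7 : p.1 ≤ U * V
    · rw [if_pos ⟨Finset.mem_Icc.mpr ⟨by omega, h7⟩, h3⟩]
    · rw [hAB0 _ h3 h7, if_neg fun h => h7 (Finset.mem_Icc.mp h.1).2]
  have hal : ∀ k, k ≠ 0 → (A * (ζ : ArithmeticFunction ℝ)) k = al U k := by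
    intro k hk
    rw [mul_apply, al, Finset.sum_filter, ← Nat.sum_divisorsAntidiagonal
      (fun d _ => if d ≤ U then mu d else 0)]
    refine Finset.sum_congr rfl fun p hp => ?_
    obtain ⟨h1, h2⟩ := Nat.mem_divisorsAntidiagonal.mp hp
    have h3 : p.1 ≠ 0 := by
      intro h
      rw [h, zero_mul] at h1
      exact h2 h1.symm
    have h4 : p.2 ≠ 0 := by
      intro h
      rw [h, mul_zero] at h1
      exact h2 h1.symm
    rw [hζ _ h4, mul_one, hA, cut_apply]
    have : (p.1 ∈ Icc 1 U ∧ p.1 ≠ 0) ↔ p.1 ≤ U := by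
      rw [Finset.mem_Icc]
      omega
    simp only [this]
  have hal1 : ∀ k, k ≠ 0 → k ≤ U → al U k = if k = 1 then 1 else 0 := by
    intro k hk hkU
    have h5 : (((μ : ArithmeticFunction ℤ) : ArithmeticFunction ℝ) * (ζ : ArithmeticFunction ℝ)) k =
        (1 : ArithmeticFunction ℝ) k := by rw [coe_moebius_mul_coe_zeta]
    rw [one_apply] at h5
    rw [← h5, coe_mul_zeta_apply, al]
    refine Finset.sum_congr ?_ fun d _ => rfl
    refine Finset.filter_true_of_mem fun d hd => ?_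
    exact (Nat.divisor_le hd).trans hkU
  have h4 : (((1 : ArithmeticFunction ℝ) - A * (ζ : ArithmeticFunction ℝ)) * (vonMangoldt - B)) n =
      -conv (Ioc U N) (Ioc V N) (al U) La n := by
    rw [conv_eq, mul_apply, mul_apply, ← Finset.sum_neg_distrib]
    refine Finset.sum_congr rfl fun p hp => ?_
    obtain ⟨h3, h4, h5, h6⟩ := hpos p hp
    have h7 : ((1 : ArithmeticFunction ℝ) - A * (ζ : ArithmeticFunction ℝ)) p.1 =
        (if p.1 = 1 then 1 else 0) - al U p.1 := by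
      rw [af_sub, one_apply, hal _ h3]
    have h8 : (vonMangoldt - B) p.2 = if V < p.2 then La p.2 else 0 := by
      rw [af_sub, hB, cut_apply]
      by_cases h9 : V < p.2
      · rw [if_pos h9, if_neg fun h => absurd (Finset.mem_Icc.mp h.1).2 (not_le.mpr h9), sub_zero]
        rfl
      · rw [if_neg h9, if_pos ⟨Finset.mem_Icc.mpr ⟨by omega, not_lt.mp h9⟩, h4⟩]
        exact sub_self _
    rw [h7, h8, cut_apply, cut_apply]
    by_cases h9 : U < p.1
    · by_cases h10 : V < p.2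
      · have h12 : ¬ p.1 = 1 := by omega
        have h13 : p.1 ∈ Ioc U N ∧ p.1 ≠ 0 := ⟨Finset.mem_Ioc.mpr ⟨h9, h5⟩, h3⟩
        have h14 : p.2 ∈ Ioc V N ∧ p.2 ≠ 0 := ⟨Finset.mem_Ioc.mpr ⟨h10, h6⟩, h4⟩
        rw [if_pos h10, if_pos h13, if_pos h14, if_neg h12]
        ring
      · have h11 : ¬ (p.2 ∈ Ioc V N ∧ p.2 ≠ 0) := fun h => h10 (Finset.mem_Ioc.mp h.1).1
        rw [if_neg h10, if_neg h11, mul_zero, mul_zero, neg_zero]
    · have h11 : ¬ (p.1 ∈ Ioc U N ∧ p.1 ≠ 0) := fun h => h9 (Finset.mem_Ioc.mp h.1).1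
      rw [hal1 _ h3 (not_lt.mp h9), sub_self, zero_mul, if_neg h11, zero_mul, neg_zero]
  have h5 : La n = (B + A * log - (A * B) * (ζ : ArithmeticFunction ℝ) +
      ((1 : ArithmeticFunction ℝ) - A * (ζ : ArithmeticFunction ℝ)) * (vonMangoldt - B)) n := by
    rw [← hring]
    rfl
  rw [ArithmeticFunction.add_apply, af_sub, ArithmeticFunction.add_apply, h1, h2, h3, h4] at h5
  refine h5.trans ?_
  ring

end Fermat.Agent.Cor.LS.BV
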