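import Fermat.Agent.Corollaries.LS.BVDefs

/-!
# Sums of type I in arithmetic progressions

`typeIStmt`: two classes modulo `q` contain numbers of elements of an interval which differ by at
most one; Abel summation for monotone weights.
-/

set_option autoImplicit false

open Finset

namespace Fermat.Agent.Cor.LS.BV

/-- Two classes have almost the same number of elements in an interval. -/
theorem count_le {a b q : ℕ} [NeZero q] (hab : a ≤ b) (x y : ZMod q) :
    (#((Ioc a b).filter fun n : ℕ => (n : ZMod q) = x) : ℝ) ≤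
      #((Ioc a b).filter fun n : ℕ => (n : ZMod q) = y) + 1 := by
  have hq : 0 < q := Nat.pos_of_ne_zero (NeZero.ne q)
  have hq' : (0 : ℚ) < q := by exact_mod_cast hq
  have key : ∀ z : ZMod q, ((#((Ioc a b).filter fun n : ℕ => (n : ZMod q) = z) : ℕ) : ℤ) =
      ⌊((b : ℚ) - z.val) / q⌋ - ⌊((a : ℚ) - z.val) / q⌋ := by
    intro z
    have h1 : ((Ioc a b).filter fun n : ℕ => (n : ZMod q) = z) =
        (Ioc a b).filter fun n : ℕ => n ≡ z.val [MOD q] := by
      refine Finset.filter_congr fun n _ => ?_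
      rw [← ZMod.natCast_eq_natCast_iff, ZMod.natCast_zmod_val]
    rw [h1, Nat.Ioc_filter_modEq_card a b hq z.val, max_eq_left]
    rw [sub_nonneg]
    refine Int.floor_le_floor ?_
    have : (a : ℚ) ≤ b := by exact_mod_cast hab
    gcongr
  have h2 := key x
  have h3 := key y
  have h4 : ((#((Ioc a b).filter fun n : ℕ => (n : ZMod q) = x) : ℕ) : ℤ) ≤
      ((#((Ioc a b).filter fun n : ℕ => (n : ZMod q) = y) : ℕ) : ℤ) + 1 := by
    rw [h2, h3, ← Int.lt_add_one_iff]
    have e1 : ((b : ℚ) - x.val) / q - ((a : ℚ) - x.val) / q =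
        ((b : ℚ) - y.val) / q - ((a : ℚ) - y.val) / q := by
      field_simp
      ring
    have f1 := Int.floor_le (((b : ℚ) - x.val) / q)
    have f2 := Int.lt_floor_add_one (((a : ℚ) - x.val) / q)
    have f3 := Int.lt_floor_add_one (((b : ℚ) - y.val) / q)
    have f4 := Int.floor_le (((a : ℚ) - y.val) / q)
    have f5 : ((⌊((b : ℚ) - x.val) / q⌋ - ⌊((a : ℚ) - x.val) / q⌋ : ℤ) : ℚ) <
        ((⌊((b : ℚ) - y.val) / q⌋ - ⌊((a : ℚ) - y.val) / q⌋ + 1 + 1 : ℤ) : ℚ) := by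
      push_cast
      linarith
    exact_mod_cast f5
  exact_mod_cast h4

/-- Abel summation. -/
theorem ap_eq {g : ℕ → ℝ} (L q : ℕ) (x : ZMod q) :
    ap g L q x = g 0 * #((Ioc 0 L).filter fun n : ℕ => (n : ZMod q) = x) +
      ∑ j ∈ range L, (g (j + 1) - g j) * #((Ioc j L).filter fun n : ℕ => (n : ZMod q) = x) := by
  have e0 : Icc 1 L = Ioc 0 L := rfl
  rw [ap, e0]
  have h1 : ∀ n ∈ (Ioc 0 L).filter (fun n : ℕ => (n : ZMod q) = x),
      g n = g 0 + ∑ j ∈ range L, if j < n then g (j + 1) - g j else 0 := by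
    intro n hn
    rw [mem_filter, mem_Ioc] at hn
    have h2 : ∑ j ∈ range L, (if j < n then g (j + 1) - g j else 0) =
        ∑ j ∈ range n, (g (j + 1) - g j) := by
      rw [← sum_filter]
      refine sum_congr ?_ fun _ _ => rfl
      ext j
      rw [mem_filter, mem_range, mem_range]
      omega
    rw [h2, sum_range_sub]
    ring
  rw [sum_congr rfl h1, sum_add_distrib, sum_const, nsmul_eq_mul, mul_comm, sum_comm]
  congr 1
  refine sum_congr rfl fun j hj => ?_
  rw [← sum_filter, sum_const, nsmul_eq_mul, mul_comm, filter_filter]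
  congr 3
  ext n
  rw [mem_filter, mem_filter, mem_Ioc, mem_Ioc]
  constructor
  · rintro ⟨⟨-, h3⟩, h4, h5⟩
    exact ⟨⟨h5, h3⟩, h4⟩
  · rintro ⟨⟨h3, h4⟩, h5⟩
    exact ⟨⟨by omega, h4⟩, h5, h3⟩

theorem ap_le {g : ℕ → ℝ} (hg : Monotone g) (h0 : 0 ≤ g 0) (L q : ℕ) [NeZero q] (x y : ZMod q) :
    ap g L q x ≤ ap g L q y + g L := by
  rw [ap_eq, ap_eq]
  have h1 : g L = g 0 + ∑ j ∈ range L, (g (j + 1) - g j) := by
    rw [sum_range_sub]
    ring
  have h2 : g 0 * (#((Ioc 0 L).filter fun n : ℕ => (n : ZMod q) = x) : ℝ) ≤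
      g 0 * (#((Ioc 0 L).filter fun n : ℕ => (n : ZMod q) = y) + 1) :=
    mul_le_mul_of_nonneg_left (count_le (Nat.zero_le _) x y) h0
  have h3 : ∑ j ∈ range L, (g (j + 1) - g j) *
        (#((Ioc j L).filter fun n : ℕ => (n : ZMod q) = x) : ℝ) ≤
      ∑ j ∈ range L, (g (j + 1) - g j) *
        (#((Ioc j L).filter fun n : ℕ => (n : ZMod q) = y) + 1) := by
    refine sum_le_sum fun j hj => ?_
    exact mul_le_mul_of_nonneg_left (count_le (mem_range.mp hj).le x y)
      (sub_nonneg.mpr (hg (Nat.le_succ j)))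
  have h4 : ∑ j ∈ range L, (g (j + 1) - g j) *
        ((#((Ioc j L).filter fun n : ℕ => (n : ZMod q) = y) : ℝ) + 1) =
      ∑ j ∈ range L, (g (j + 1) - g j) *
        (#((Ioc j L).filter fun n : ℕ => (n : ZMod q) = y) : ℝ) +
        ∑ j ∈ range L, (g (j + 1) - g j) := by
    rw [← sum_add_distrib]
    exact sum_congr rfl fun j _ => by ring
  rw [h4] at h3
  linarith

/-- the weight of the discrepancy -/
noncomputable def wt (q : ℕ) (a : ZMod q) (n : ℕ) : ℝ :=
  (if (n : ZMod q) = a then 1 else 0) - (if n.Coprime q then 1 else 0) / q.totient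

theorem disc_eq (f : ℕ → ℝ) (N q : ℕ) (a : ZMod q) :
    disc f N q a = ∑ n ∈ Icc 1 N, wt q a n * f n := by
  rw [disc, ap, cop, sum_filter, sum_filter, sum_div, ← sum_sub_distrib]
  refine sum_congr rfl fun n _ => ?_
  rw [wt]
  split_ifs <;> ring

theorem cop_eq (f : ℕ → ℝ) (N q : ℕ) [NeZero q] :
    cop f N q = ∑ b : (ZMod q)ˣ, ap f N q b := by
  classical
  rw [cop]
  simp only [ap, sum_filter]
  rw [sum_comm]
  refine sum_congr rfl fun n _ => ?_
  by_cases hn : n.Coprime q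
  · rw [if_pos hn]
    have h1 : ∀ b : (ZMod q)ˣ, ((n : ZMod q) = b) ↔ b = ZMod.unitOfCoprime n hn := by
      intro b
      rw [Units.ext_iff, ZMod.coe_unitOfCoprime, eq_comm]
    simp only [h1]
    rw [sum_ite_eq' univ (ZMod.unitOfCoprime n hn) fun _ => f n, if_pos (mem_univ _)]
  · rw [if_neg hn]
    refine (sum_eq_zero fun b _ => if_neg fun h => hn ?_).symm
    rw [← ZMod.isUnit_iff_coprime, h]
    exact b.isUnit

theorem abs_disc_le {g : ℕ → ℝ} (hg : Monotone g) (h0 : 0 ≤ g 0) (L q : ℕ) [NeZero q]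
    (a : (ZMod q)ˣ) : |disc g L q a| ≤ g L := by
  classical
  have hq : 0 < q := Nat.pos_of_ne_zero (NeZero.ne q)
  have hφ : (0 : ℝ) < q.totient := by exact_mod_cast Nat.totient_pos.mpr hq
  have h1 : disc g L q a = (∑ b : (ZMod q)ˣ, (ap g L q a - ap g L q b)) / q.totient := by
    rw [disc, cop_eq, sum_sub_distrib, sum_const, card_univ, ZMod.card_units_eq_totient,
      nsmul_eq_mul, sub_div, mul_div_cancel_left₀ _ hφ.ne']
  rw [h1, abs_div, abs_of_pos hφ, div_le_iff₀ hφ]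
  refine (abs_sum_le_sum_abs _ _).trans ?_
  have h2 : ∀ b : (ZMod q)ˣ, |ap g L q (a : ZMod q) - ap g L q (b : ZMod q)| ≤ g L := fun b =>
    abs_sub_le_iff.mpr ⟨sub_le_iff_le_add'.mpr (ap_le hg h0 L q a b),
      sub_le_iff_le_add'.mpr (ap_le hg h0 L q b a)⟩
  refine (sum_le_sum fun b _ => h2 b).trans (le_of_eq ?_)
  rw [sum_const, card_univ, ZMod.card_units_eq_totient, nsmul_eq_mul, mul_comm]

theorem sum_conv (N : ℕ) (s t : Finset ℕ) (α β w : ℕ → ℝ) :
    ∑ n ∈ Icc 1 N, w n * conv s t α β n =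
      ∑ p ∈ (s ×ˢ t).filter (fun p => p.1 * p.2 ∈ Icc 1 N),
        w (p.1 * p.2) * (α p.1 * β p.2) := by
  classical
  rw [← sum_fiberwise_of_maps_to (s := (s ×ˢ t).filter (fun p => p.1 * p.2 ∈ Icc 1 N))
    (t := Icc 1 N) (g := fun p => p.1 * p.2) fun p hp => (mem_filter.mp hp).2]
  refine sum_congr rfl fun n hn => ?_
  rw [conv, mul_sum]
  refine sum_congr ?_ fun p hp => ?_
  · ext p
    rw [mem_filter, mem_filter, mem_filter, Nat.mem_divisorsAntidiagonal, mem_product]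
    have hn' := mem_Icc.mp hn
    constructor
    · rintro ⟨⟨h1, -⟩, h2⟩
      exact ⟨⟨h2, h1 ▸ hn⟩, h1⟩
    · rintro ⟨⟨h1, -⟩, h2⟩
      exact ⟨⟨h2, by omega⟩, h1⟩
  · rw [(mem_filter.mp hp).2]

theorem disc_conv (M N q : ℕ) [NeZero q] (c g : ℕ → ℝ) (a : (ZMod q)ˣ) :
    disc (conv (Icc 1 M) (Icc 1 N) c g) N q a =
      ∑ m ∈ Icc 1 M, c m * ∑ l ∈ Icc 1 (N / m), wt q a (m * l) * g l := by
  classical
  rw [disc_eq, sum_conv, sum_filter, sum_product]
  refine sum_congr rfl fun m hm => ?_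
  have hm1 : 1 ≤ m := (mem_Icc.mp hm).1
  rw [mul_sum, ← sum_filter]
  refine sum_congr ?_ fun l _ => by ring
  ext l
  rw [mem_filter, mem_Icc, mem_Icc, mem_Icc, Nat.le_div_iff_mul_le hm1]
  constructor
  · rintro ⟨⟨h1, -⟩, -, h2⟩
    exact ⟨h1, by rwa [mul_comm] at h2⟩
  · rintro ⟨h1, h2⟩
    refine ⟨⟨h1, ?_⟩, ?_, by rwa [mul_comm]⟩
    · exact (Nat.le_mul_of_pos_right l hm1).trans h2
    · exact Nat.mul_pos hm1 h1

theorem inner_le {g : ℕ → ℝ} (hg : Monotone g) (h0 : 0 ≤ g 0) (m L q : ℕ) [NeZero q]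
    (a : (ZMod q)ˣ) : |∑ l ∈ Icc 1 L, wt q a (m * l) * g l| ≤ g L := by
  by_cases hm : m.Coprime q
  · have h1 : ∑ l ∈ Icc 1 L, wt q a (m * l) * g l =
        disc g L q ((a * (ZMod.unitOfCoprime m hm)⁻¹ : (ZMod q)ˣ) : ZMod q) := by
      rw [disc_eq]
      refine sum_congr rfl fun l _ => ?_
      congr 1
      rw [wt, wt]
      have e1 : (((m * l : ℕ) : ZMod q) = a) ↔
          ((l : ZMod q) = ((a * (ZMod.unitOfCoprime m hm)⁻¹ : (ZMod q)ˣ) : ZMod q)) := by
        rw [Units.val_mul, Units.eq_mul_inv_iff_mul_eq, ZMod.coe_unitOfCoprime, Nat.cast_mul,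
          mul_comm]
      have e2 : (m * l).Coprime q ↔ l.Coprime q := by
        rw [Nat.coprime_mul_iff_left, and_iff_right hm]
      simp only [e1, e2]
    rw [h1]
    exact abs_disc_le hg h0 L q _
  · have h1 : ∀ l : ℕ, wt q a (m * l) = 0 := by
      intro l
      have e2 : ¬ (m * l).Coprime q := fun h => hm (Nat.Coprime.coprime_mul_right h)
      have e1 : ¬ (((m * l : ℕ) : ZMod q) = a) := fun h => e2 (by
        rw [← ZMod.isUnit_iff_coprime, h]
        exact a.isUnit)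
      rw [wt, if_neg e1, if_neg e2]
      simp
    simp only [h1, zero_mul, sum_const_zero, abs_zero]
    exact h0.trans (hg (Nat.zero_le L))

theorem disc_conv_le {g : ℕ → ℝ} (hg : Monotone g) (h0 : 0 ≤ g 0) (M N q : ℕ) [NeZero q]
    (c : ℕ → ℝ) (a : (ZMod q)ˣ) :
    |disc (conv (Icc 1 M) (Icc 1 N) c g) N q a| ≤ (∑ m ∈ Icc 1 M, |c m|) * g N := by
  rw [disc_conv, sum_mul]
  refine (abs_sum_le_sum_abs _ _).trans (sum_le_sum fun m _ => ?_)
  rw [abs_mul]
  exact mul_le_mul_of_nonneg_left ((inner_le hg h0 m (N / m) q a).trans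
    (hg (Nat.div_le_self N m))) (abs_nonneg _)

theorem monotone_log : Monotone fun l : ℕ => Real.log (l : ℝ) := by
  intro m n hmn
  rcases Nat.eq_zero_or_pos m with rfl | hm
  · simp only [Nat.cast_zero, Real.log_zero]
    exact Real.log_natCast_nonneg n
  · exact Real.log_le_log (by exact_mod_cast hm) (by exact_mod_cast hmn)

/-- **Sums of type I.** -/
theorem typeIStmt : TypeIStmt := by
  intro M N q _ c a _
  constructor
  · have h1 := disc_conv_le (g := fun _ => 1) monotone_const zero_le_one M N q c a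
    rwa [mul_one] at h1
  · exact disc_conv_le monotone_log (by simp) M N q c a

end Fermat.Agent.Cor.LS.BV
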