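import Fermat.Agent.Corollaries.LS.BVDefs
import Mathlib

/-!
# The divisor function in short arithmetic progressions
-/

set_option autoImplicit false

open Finset

namespace Fermat.Agent.Cor.LS.BV

namespace Short

/-- the number of `n ≡ v` modulo `r` in an interval -/
theorem card_modEq_le {N' N r : ℕ} (hr : 0 < r) (v : ℕ) (h : N' ≤ N) :
    (#((Ioc N' N).filter fun n => n ≡ v [MOD r]) : ℝ) ≤ ((N : ℝ) - N') / r + 1 := by
  have h1 := Nat.Ioc_filter_modEq_card N' N hr v
  have hr' : (0 : ℚ) < r := by exact_mod_cast hr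
  have h' : (N' : ℚ) ≤ N := by exact_mod_cast h
  have h2 : (#((Ioc N' N).filter fun n => n ≡ v [MOD r]) : ℚ) ≤ ((N : ℚ) - N') / r + 1 := by
    have h3 : ((#((Ioc N' N).filter fun n => n ≡ v [MOD r]) : ℤ) : ℚ) =
        ((max (⌊((N : ℚ) - v) / (r : ℚ)⌋ - ⌊((N' : ℚ) - v) / (r : ℚ)⌋) 0 : ℤ) : ℚ) := by
      rw [h1]
    rw [Int.cast_natCast] at h3
    rw [h3]
    push_cast
    refine max_le ?_ ?_
    · have h4 := Int.floor_le (((N : ℚ) - v) / (r : ℚ))
      have h5 := Int.lt_floor_add_one (((N' : ℚ) - v) / (r : ℚ))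
      have h6 : ((N : ℚ) - v) / r - ((N' : ℚ) - v) / r = ((N : ℚ) - N') / r := by ring
      linarith
    · have h7 : 0 ≤ ((N : ℚ) - N') / r := div_nonneg (by linarith) hr'.le
      linarith
  have h8 : (((#((Ioc N' N).filter fun n => n ≡ v [MOD r]) : ℚ)) : ℝ) ≤
      ((((N : ℚ) - N') / r + 1 : ℚ) : ℝ) := by exact_mod_cast h2
  push_cast at h8
  exact h8

/-- every divisor has a small partner -/
theorem card_divisors_le {n N : ℕ} (hn : 1 ≤ n) (hN : n ≤ N) :
    #n.divisors ≤ 2 * #((Icc 1 (Nat.sqrt N)).filter fun d => d ∣ n) := by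
  set A : Finset ℕ := (Icc 1 (Nat.sqrt N)).filter fun d => d ∣ n with hA
  have hsub : n.divisors ⊆ A ∪ A.image fun d => n / d := by
    intro d hd
    rw [Nat.mem_divisors] at hd
    have hd0 : 1 ≤ d := Nat.pos_of_dvd_of_pos hd.1 hn
    rw [Finset.mem_union]
    by_cases h : d ≤ Nat.sqrt N
    · left
      rw [hA, Finset.mem_filter, Finset.mem_Icc]
      exact ⟨⟨hd0, h⟩, hd.1⟩
    · right
      rw [Finset.mem_image]
      obtain ⟨c, hc⟩ := hd.1
      have hc0 : 1 ≤ c := Nat.pos_of_ne_zero fun h0 => by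
        rw [h0, mul_zero] at hc
        omega
      refine ⟨c, ?_, ?_⟩
      · rw [hA, Finset.mem_filter, Finset.mem_Icc]
        refine ⟨⟨hc0, ?_⟩, ⟨d, by rw [hc, mul_comm]⟩⟩
        by_contra hcs
        have h1 : Nat.sqrt N + 1 ≤ d := by omega
        have h2 : Nat.sqrt N + 1 ≤ c := by omega
        have h3 := Nat.mul_le_mul h1 h2
        have h4 := Nat.lt_succ_sqrt N
        rw [Nat.succ_eq_add_one] at h4
        omega
      · rw [hc]
        exact Nat.mul_div_cancel _ hc0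
  calc #n.divisors ≤ #(A ∪ A.image fun d => n / d) := Finset.card_le_card hsub
    _ ≤ #A + #(A.image fun d => n / d) := Finset.card_union_le _ _
    _ ≤ #A + #A := by
        have := Finset.card_image_le (s := A) (f := fun d => n / d)
        omega
    _ = 2 * #A := by ring

/-- the multiples of `d` in a class prime to the modulus -/
theorem card_class_le {N' N q : ℕ} [NeZero q] (a : (ZMod q)ˣ) (h : N' ≤ N) {d : ℕ} (hd : 1 ≤ d) :
    (#(((Ioc N' N).filter fun n : ℕ => (n : ZMod q) = a).filter fun n => d ∣ n) : ℝ) ≤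
      ((N : ℝ) - N') / q * (1 / d) + 1 := by
  have hq : 0 < q := NeZero.pos q
  set S := ((Ioc N' N).filter fun n : ℕ => (n : ZMod q) = a).filter fun n => d ∣ n with hS
  have hNN : (0 : ℝ) ≤ (N : ℝ) - N' := by
    have : (N' : ℝ) ≤ N := by exact_mod_cast h
    linarith
  rcases S.eq_empty_or_nonempty with h0 | ⟨v, hv⟩
  · rw [h0, Finset.card_empty, Nat.cast_zero]
    positivity
  · have hmem : ∀ n ∈ S, n ∈ Ioc N' N ∧ (n : ZMod q) = a ∧ d ∣ n := by
      intro n hn
      rw [hS, Finset.mem_filter, Finset.mem_filter] at hn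
      exact ⟨hn.1.1, hn.1.2, hn.2⟩
    obtain ⟨_, hv2, hv3⟩ := hmem v hv
    have hcop : Nat.Coprime d q := by
      have h1 : IsUnit ((v : ℕ) : ZMod q) := by
        rw [hv2]
        exact a.isUnit
      exact Nat.Coprime.coprime_dvd_left hv3 ((ZMod.isUnit_iff_coprime v q).mp h1)
    have hsub : S ⊆ (Ioc N' N).filter fun n => n ≡ v [MOD (d * q)] := by
      intro n hn
      obtain ⟨h1, h2, h3⟩ := hmem n hn
      rw [Finset.mem_filter]
      refine ⟨h1, ?_⟩
      refine (Nat.modEq_and_modEq_iff_modEq_mul hcop).mp ⟨?_, ?_⟩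
      · exact ((Nat.modEq_zero_iff_dvd.mpr h3)).trans (Nat.modEq_zero_iff_dvd.mpr hv3).symm
      · rw [← ZMod.natCast_eq_natCast_iff, h2, hv2]
    have h4 := card_modEq_le (r := d * q) (Nat.mul_pos hd hq) v h
    refine le_trans (by exact_mod_cast Finset.card_le_card hsub) (h4.trans_eq ?_)
    have hd' : (d : ℝ) ≠ 0 := by exact_mod_cast (by omega : d ≠ 0)
    have hq' : (q : ℝ) ≠ 0 := by exact_mod_cast hq.ne'
    push_cast
    field_simp

end Short

open Short in
/-- (T2) the divisor function in short progressions -/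
theorem shortStmt : ShortStmt := by
  intro N' N q _ a h hN
  set S := (Ioc N' N).filter fun n : ℕ => (n : ZMod q) = a with hS
  set s := Nat.sqrt N with hs
  have hs1 : 1 ≤ s := Nat.le_sqrt'.mpr (by rw [one_pow]; exact hN)
  have hsN : s ≤ N := Nat.sqrt_le_self N
  have hNN : (0 : ℝ) ≤ (N : ℝ) - N' := by
    have : (N' : ℝ) ≤ N := by exact_mod_cast h
    linarith
  have hq : (0 : ℝ) < q := by exact_mod_cast NeZero.pos q
  have h1 : ∑ n ∈ S, (#n.divisors : ℝ) ≤ ∑ n ∈ S, 2 * ∑ d ∈ Icc 1 s, if d ∣ n then (1 : ℝ) else 0 := by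
    refine Finset.sum_le_sum fun n hn => ?_
    rw [hS, Finset.mem_filter, Finset.mem_Ioc] at hn
    have h2 := card_divisors_le (n := n) (N := N) (by omega) hn.1.2
    rw [Finset.sum_boole]
    exact_mod_cast h2
  have h3 : ∑ n ∈ S, 2 * ∑ d ∈ Icc 1 s, (if d ∣ n then (1 : ℝ) else 0) =
      2 * ∑ d ∈ Icc 1 s, (#(S.filter fun n => d ∣ n) : ℝ) := by
    rw [← Finset.mul_sum, Finset.sum_comm]
    congr 1
    exact Finset.sum_congr rfl fun d _ => by rw [Finset.sum_boole]
  have h4 : ∑ d ∈ Icc 1 s, (#(S.filter fun n => d ∣ n) : ℝ) ≤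
      ∑ d ∈ Icc 1 s, (((N : ℝ) - N') / q * (1 / d) + 1) := by
    refine Finset.sum_le_sum fun d hd => ?_
    rw [Finset.mem_Icc] at hd
    exact card_class_le a h hd.1
  have h5 : ∑ d ∈ Icc 1 s, (1 : ℝ) / d ≤ 1 + Real.log N := by
    have h6 := harmonic_le_one_add_log s
    rw [harmonic_eq_sum_Icc] at h6
    push_cast at h6
    have h7 : Real.log s ≤ Real.log N :=
      Real.log_le_log (by exact_mod_cast hs1) (by exact_mod_cast hsN)
    simp only [one_div]
    linarith
  have h8 : ∑ d ∈ Icc 1 s, (((N : ℝ) - N') / q * (1 / d) + 1) =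
      ((N : ℝ) - N') / q * ∑ d ∈ Icc 1 s, (1 : ℝ) / d + s := by
    rw [Finset.sum_add_distrib, ← Finset.mul_sum, Finset.sum_const, Nat.card_Icc, nsmul_eq_mul,
      mul_one, Nat.add_sub_cancel]
  have h9 : (s : ℝ) ≤ √N := Real.nat_sqrt_le_real_sqrt
  have h10 : ((N : ℝ) - N') / q * ∑ d ∈ Icc 1 s, (1 : ℝ) / d ≤
      ((N : ℝ) - N') / q * (1 + Real.log N) :=
    mul_le_mul_of_nonneg_left h5 (div_nonneg hNN hq.le)
  linarith

end Fermat.Agent.Cor.LS.BV
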