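import Fermat.Agent.Corollaries.LS.BVDefs

/-!
# The discrepancy of a convolution and the characters
-/

set_option autoImplicit false

open Finset

namespace Fermat.Agent.Cor.LS.BV

/-- the sum of a convolution over a set of integers -/
lemma sum_conv_filter {N : ℕ} {s t : Finset ℕ} {α β : ℕ → ℝ} (P : ℕ → Prop) [DecidablePred P]
    (hst : ∀ k ∈ s, ∀ l ∈ t, 1 ≤ k ∧ 1 ≤ l ∧ k * l ≤ N) :
    ∑ n ∈ (Icc 1 N).filter P, conv s t α β n =
      ∑ p ∈ (s ×ˢ t).filter (fun p => P (p.1 * p.2)), α p.1 * β p.2 := by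
  rw [← Finset.sum_fiberwise_of_maps_to (s := (s ×ˢ t).filter (fun p => P (p.1 * p.2)))
    (t := (Icc 1 N).filter P) (g := fun p => p.1 * p.2)]
  · refine Finset.sum_congr rfl fun n hn => ?_
    rw [mem_filter, mem_Icc] at hn
    unfold conv
    refine Finset.sum_congr ?_ fun _ _ => rfl
    ext p
    simp only [mem_filter, Nat.mem_divisorsAntidiagonal, mem_product]
    constructor
    · rintro ⟨⟨h1, -⟩, h3, h4⟩
      exact ⟨⟨⟨h3, h4⟩, by rw [h1]; exact hn.2⟩, h1⟩
    · rintro ⟨⟨⟨h3, h4⟩, -⟩, h1⟩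
      exact ⟨⟨h1, by omega⟩, h3, h4⟩
  · intro p hp
    rw [mem_filter, mem_product] at hp
    obtain ⟨h1, h2, h3⟩ := hst p.1 hp.1.1 p.2 hp.1.2
    rw [mem_filter, mem_Icc]
    exact ⟨⟨Nat.mul_pos h1 h2, h3⟩, hp.2⟩

lemma chs_one {s : Finset ℕ} {α : ℕ → ℝ} {q : ℕ} (χ : DirichletCharacter ℂ q) :
    chs s α 1 χ = ∑ k ∈ s, (α k : ℂ) * χ k := by
  unfold chs
  rw [Finset.filter_true_of_mem fun k _ => Nat.coprime_one_right k]

lemma chs_mul_chs {s t : Finset ℕ} {α β : ℕ → ℝ} {q : ℕ} (χ : DirichletCharacter ℂ q) :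
    chs s α 1 χ * chs t β 1 χ =
      ∑ p ∈ s ×ˢ t, ((α p.1 * β p.2 : ℝ) : ℂ) * χ ((p.1 * p.2 : ℕ) : ZMod q) := by
  rw [chs_one, chs_one, Finset.sum_mul_sum, Finset.sum_product]
  refine Finset.sum_congr rfl fun k _ => Finset.sum_congr rfl fun l _ => ?_
  rw [Nat.cast_mul, map_mul]
  push_cast
  ring

theorem charStmt : CharStmt := by
  intro N q _ s t α β a hst
  have hφ : (0 : ℝ) < q.totient := by exact_mod_cast Nat.totient_pos.mpr (NeZero.pos q)
  have hφ' : (q.totient : ℂ) ≠ 0 := by exact_mod_cast hφ.ne'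
  have hap : ((ap (conv s t α β) N q a : ℝ) : ℂ) * q.totient =
      ∑ χ : DirichletCharacter ℂ q, χ (a : ZMod q)⁻¹ * (chs s α 1 χ * chs t β 1 χ) := by
    simp only [chs_mul_chs, Finset.mul_sum]
    rw [Finset.sum_comm]
    have h1 : ∀ p ∈ s ×ˢ t, ∑ χ : DirichletCharacter ℂ q, χ (a : ZMod q)⁻¹ *
        (((α p.1 * β p.2 : ℝ) : ℂ) * χ ((p.1 * p.2 : ℕ) : ZMod q)) =
        if ((p.1 * p.2 : ℕ) : ZMod q) = a then ((α p.1 * β p.2 : ℝ) : ℂ) * q.totient else 0 := by
      intro p _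
      have h2 := DirichletCharacter.sum_char_inv_mul_char_eq ℂ a.isUnit
        ((p.1 * p.2 : ℕ) : ZMod q)
      have h3 : ∀ χ : DirichletCharacter ℂ q, χ (a : ZMod q)⁻¹ *
          (((α p.1 * β p.2 : ℝ) : ℂ) * χ ((p.1 * p.2 : ℕ) : ZMod q)) =
          ((α p.1 * β p.2 : ℝ) : ℂ) * (χ (a : ZMod q)⁻¹ * χ ((p.1 * p.2 : ℕ) : ZMod q)) :=
        fun χ => by ring
      rw [Finset.sum_congr rfl fun χ _ => h3 χ, ← Finset.mul_sum, h2]
      by_cases h4 : ((p.1 * p.2 : ℕ) : ZMod q) = a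
      · rw [if_pos h4, if_pos h4.symm]
      · rw [if_neg h4, if_neg fun h => h4 h.symm, mul_zero]
    rw [Finset.sum_congr rfl h1, ← Finset.sum_filter, ← Finset.sum_mul]
    congr 1
    unfold ap
    rw [sum_conv_filter (fun n : ℕ => (n : ZMod q) = a) hst]
    push_cast
    rfl
  have hcop : ((cop (conv s t α β) N q : ℝ) : ℂ) =
      chs s α 1 (1 : DirichletCharacter ℂ q) * chs t β 1 (1 : DirichletCharacter ℂ q) := by
    rw [chs_mul_chs]
    unfold cop
    rw [sum_conv_filter (fun n : ℕ => n.Coprime q) hst, Finset.sum_filter]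
    push_cast
    refine Finset.sum_congr rfl fun p _ => ?_
    by_cases h : (p.1 * p.2).Coprime q
    · rw [if_pos h]
      have h1 : IsUnit ((p.1 : ZMod q) * p.2) := by
        have := (ZMod.isUnit_iff_coprime (p.1 * p.2) q).mpr h
        rwa [Nat.cast_mul] at this
      rw [MulChar.one_apply h1, mul_one]
      exact Complex.ofReal_mul _ _
    · rw [if_neg h]
      have h1 : ¬ IsUnit ((p.1 : ZMod q) * p.2) := by
        intro h2
        apply h
        rw [← Nat.cast_mul] at h2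
        exact (ZMod.isUnit_iff_coprime (p.1 * p.2) q).mp h2
      rw [MulChar.map_nonunit _ h1, mul_zero]
      exact Complex.ofReal_zero
  have hd : ((disc (conv s t α β) N q a : ℝ) : ℂ) * q.totient =
      ∑ χ ∈ (univ : Finset (DirichletCharacter ℂ q)).erase 1,
        χ (a : ZMod q)⁻¹ * (chs s α 1 χ * chs t β 1 χ) := by
    have h1 := Finset.add_sum_erase (univ : Finset (DirichletCharacter ℂ q))
      (fun χ => χ (a : ZMod q)⁻¹ * (chs s α 1 χ * chs t β 1 χ)) (Finset.mem_univ 1)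
    rw [← hap] at h1
    have h2 : (1 : DirichletCharacter ℂ q) (a : ZMod q)⁻¹ = 1 := by
      rw [ZMod.inv_coe_unit]
      exact MulChar.one_apply (a⁻¹).isUnit
    simp only [h2, one_mul] at h1
    rw [← hcop] at h1
    have h3 : ((disc (conv s t α β) N q a : ℝ) : ℂ) * q.totient =
        ((ap (conv s t α β) N q a : ℝ) : ℂ) * q.totient - ((cop (conv s t α β) N q : ℝ) : ℂ) := by
      unfold disc
      push_cast
      field_simp
    rw [h3, ← h1]
    ring
  have hn : |disc (conv s t α β) N q a| * q.totient =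
      ‖((disc (conv s t α β) N q a : ℝ) : ℂ) * q.totient‖ := by
    rw [norm_mul, Complex.norm_real, Complex.norm_natCast, Real.norm_eq_abs]
  rw [one_div, ← div_eq_inv_mul, le_div_iff₀ hφ, hn, hd]
  refine (norm_sum_le _ _).trans (Finset.sum_le_sum fun χ _ => ?_)
  rw [norm_mul, norm_mul]
  exact mul_le_of_le_one_left (by positivity) (DirichletCharacter.norm_le_one χ _)

end Fermat.Agent.Cor.LS.BV
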