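import Fermat.Agent.Corollaries.LS.BVDefs

/-!
# The Bombieri - Vinogradov theorem: the reduction to primitive characters
-/

set_option autoImplicit false

open Finset DirichletCharacter

namespace Fermat.Agent.Cor.LS.BV

namespace Prim

theorem apply_eq_zero {q : ℕ} (χ : DirichletCharacter ℂ q) {k : ℕ} (h : ¬ k.Coprime q) :
    χ (k : ZMod q) = 0 := by
  have h1 : ¬ IsCoprime (k : ℤ) (q : ℤ) := by rwa [Nat.isCoprime_iff_coprime]
  have h2 := (χ.apply_eq_zero_iff (k : ℤ)).mpr h1
  rwa [Int.cast_natCast] at h2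

theorem apply_eq {q : ℕ} (χ : DirichletCharacter ℂ q) {k : ℕ} (h : k.Coprime q) :
    χ.primitiveCharacter (k : ZMod χ.conductor) = χ (k : ZMod q) := by
  have h1 : IsCoprime (k : ℤ) (q : ℤ) := by rwa [Nat.isCoprime_iff_coprime]
  have h2 := χ.primitiveCharacter_apply_of_isCoprime h1
  rwa [Int.cast_natCast, Int.cast_natCast] at h2

theorem chs_eq {q : ℕ} (χ : DirichletCharacter ℂ q) {r : ℕ} (hr : χ.conductor * r = q)
    (s : Finset ℕ) (α : ℕ → ℝ) : chs s α 1 χ = chs s α r χ.primitiveCharacter := by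
  rw [chs, chs, filter_true_of_mem (fun k _ => Nat.coprime_one_right k), sum_filter]
  refine sum_congr rfl fun k _ => ?_
  split_ifs with h
  · congr 1
    by_cases hk : k.Coprime q
    · exact (apply_eq χ hk).symm
    · have h2 : ¬ k.Coprime χ.conductor := fun h2 => hk (by
        rw [← hr]
        exact h2.mul_right h)
      rw [apply_eq_zero χ hk, apply_eq_zero _ h2]
  · have hk : ¬ k.Coprime q := fun hk => h (by
      rw [← hr] at hk
      exact hk.coprime_mul_left_right)
    rw [apply_eq_zero χ hk, mul_zero]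

/-- a character and its modulus -/
abbrev X : Type := Σ q : ℕ, DirichletCharacter ℂ q

/-- cofactor, conductor, primitive character -/
noncomputable def toPrim (x : X) : Σ _ : ℕ, X :=
  ⟨x.1 / x.2.conductor, ⟨x.2.conductor, x.2.primitiveCharacter⟩⟩

/-- the induced character -/
noncomputable def ofPrim (y : Σ _ : ℕ, X) : X :=
  ⟨y.2.1 * y.1, changeLevel (dvd_mul_right y.2.1 y.1) y.2.2⟩

theorem sigma_changeLevel {d r q : ℕ} (hq : d * r = q) (h : d ∣ q) (ψ : DirichletCharacter ℂ d) :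
    (⟨d * r, changeLevel (dvd_mul_right d r) ψ⟩ : X) = ⟨q, changeLevel h ψ⟩ := by
  subst hq
  rfl

theorem ofPrim_toPrim (x : X) : ofPrim (toPrim x) = x := by
  obtain ⟨q, χ⟩ := x
  have h1 : χ.conductor * (q / χ.conductor) = q := Nat.mul_div_cancel' χ.conductor_dvd_level
  refine (sigma_changeLevel h1 χ.conductor_dvd_level χ.primitiveCharacter).trans ?_
  rw [changeLevel_primitiveCharacter]

end Prim

open Prim in
/-- (T4) -/
theorem primStmt : PrimStmt := by
  classical
  intro Q s t α β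
  set A : Finset X := (Icc 1 Q).sigma fun q => (univ : Finset (DirichletCharacter ℂ q)).erase 1
    with hA
  set B : Finset (Σ _ : ℕ, X) := (Icc 1 Q).sigma fun _ => (Icc 2 Q).sigma fun d =>
    (univ : Finset (DirichletCharacter ℂ d)).filter fun χ => χ.IsPrimitive with hB
  set G : (Σ _ : ℕ, X) → ℝ := fun y => (1 / (y.1.totient : ℝ)) * ((1 / (y.2.1.totient : ℝ)) *
    (‖chs s α y.1 y.2.2‖ * ‖chs t β y.1 y.2.2‖)) with hG
  have hG0 : ∀ y, 0 ≤ G y := fun y => by positivity
  have hR : ∑ r ∈ Icc 1 Q, (1 / (r.totient : ℝ)) * ∑ d ∈ Icc 2 Q, (1 / (d.totient : ℝ)) *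
      ∑ χ ∈ (univ : Finset (DirichletCharacter ℂ d)) with χ.IsPrimitive,
        ‖chs s α r χ‖ * ‖chs t β r χ‖ = ∑ y ∈ B, G y := by
    rw [hB, sum_sigma]
    refine sum_congr rfl fun r _ => ?_
    rw [sum_sigma, mul_sum]
    refine sum_congr rfl fun d _ => ?_
    rw [mul_sum, mul_sum]
  have hL : ∑ q ∈ Icc 1 Q, (1 / (q.totient : ℝ)) *
      ∑ χ ∈ (univ : Finset (DirichletCharacter ℂ q)).erase 1, ‖chs s α 1 χ‖ * ‖chs t β 1 χ‖ =
        ∑ x ∈ A, (1 / (x.1.totient : ℝ)) * (‖chs s α 1 x.2‖ * ‖chs t β 1 x.2‖) := by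
    rw [hA, sum_sigma]
    refine sum_congr rfl fun q _ => ?_
    rw [mul_sum]
  rw [hR, hL]
  have hinj : Set.InjOn toPrim (A : Set X) := fun x _ y _ h => by
    rw [← ofPrim_toPrim x, h, ofPrim_toPrim]
  have hmem : ∀ x ∈ A, toPrim x ∈ B := by
    rintro ⟨q, χ⟩ hx
    rw [hA, mem_sigma, mem_Icc, mem_erase] at hx
    obtain ⟨⟨hq1, hqQ⟩, hχ, -⟩ := hx
    have hq0 : NeZero q := ⟨by
      change 1 ≤ q at hq1
      omega⟩
    have hd0 : χ.conductor ≠ 0 := χ.conductor_ne_zero
    have hd1 : χ.conductor ≠ 1 := fun h => hχ ((χ.eq_one_iff_conductor_eq_one).mpr h)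
    have hdq : χ.conductor ≤ q := Nat.le_of_dvd hq1 χ.conductor_dvd_level
    have hr : 0 < q / χ.conductor := Nat.div_pos hdq (Nat.pos_of_ne_zero hd0)
    have hrq : q / χ.conductor ≤ q := Nat.div_le_self _ _
    change q ≤ Q at hqQ
    rw [hB, mem_sigma, mem_sigma, mem_Icc, mem_Icc, mem_filter]
    exact ⟨⟨hr, hrq.trans hqQ⟩, ⟨(by omega : 2 ≤ χ.conductor), hdq.trans hqQ⟩, mem_univ _,
      χ.primitiveCharacter_isPrimitive⟩
  calc ∑ x ∈ A, (1 / (x.1.totient : ℝ)) * (‖chs s α 1 x.2‖ * ‖chs t β 1 x.2‖)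
      ≤ ∑ x ∈ A, G (toPrim x) := by
        refine sum_le_sum ?_
        rintro ⟨q, χ⟩ hx
        have hm := hmem _ hx
        rw [hB, mem_sigma, mem_sigma, mem_Icc, mem_Icc] at hm
        have h1 : χ.conductor * (q / χ.conductor) = q :=
          Nat.mul_div_cancel' χ.conductor_dvd_level
        have hd : 0 < χ.conductor := lt_of_lt_of_le two_pos hm.2.1.1
        have hr : 0 < q / χ.conductor := hm.1.1
        change (1 / (q.totient : ℝ)) * (‖chs s α 1 χ‖ * ‖chs t β 1 χ‖) ≤
          (1 / ((q / χ.conductor).totient : ℝ)) * ((1 / (χ.conductor.totient : ℝ)) *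
            (‖chs s α (q / χ.conductor) χ.primitiveCharacter‖ *
              ‖chs t β (q / χ.conductor) χ.primitiveCharacter‖))
        rw [← chs_eq χ h1, ← chs_eq χ h1, ← mul_assoc (1 / ((q / χ.conductor).totient : ℝ))]
        refine mul_le_mul_of_nonneg_right ?_ (by positivity)
        have h2 : (0 : ℝ) < χ.conductor.totient := by exact_mod_cast Nat.totient_pos.mpr hd
        have h3 : (0 : ℝ) < (q / χ.conductor).totient := by
          exact_mod_cast Nat.totient_pos.mpr hr
        rw [one_div_mul_one_div]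
        refine one_div_le_one_div_of_le (mul_pos h3 h2) ?_
        have h4 := Nat.totient_super_multiplicative χ.conductor (q / χ.conductor)
        rw [h1] at h4
        rw [mul_comm]
        exact_mod_cast h4
    _ = ∑ y ∈ A.image toPrim, G y := (sum_image hinj).symm
    _ ≤ ∑ y ∈ B, G y := by
        refine sum_le_sum_of_subset_of_nonneg ?_ fun y _ _ => hG0 y
        intro y hy
        obtain ⟨x, hx, rfl⟩ := mem_image.mp hy
        exact hmem x hx

end Fermat.Agent.Cor.LS.BV
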