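import Fermat.Agent.Corollaries.LS.Defs
import Fermat.Agent.Corollaries.KW.Gauss

/-!
# The large sieve for Dirichlet characters
-/

set_option autoImplicit false

open Finset

namespace Fermat.Agent.Cor.LS

theorem conj_unit {q : ℕ} [NeZero q] (χ : DirichletCharacter ℂ q) (u : (ZMod q)ˣ) :
    (starRingEnd ℂ) (χ u) = χ ((u : ZMod q)⁻¹) := by
  have h1 : ‖χ u‖ = 1 := DirichletCharacter.unit_norm_eq_one χ u
  have h3 : χ u * χ ((u : ZMod q)⁻¹) = 1 := by
    rw [← map_mul, ZMod.mul_inv_of_unit _ u.isUnit, map_one]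
  have h4 : (χ u) * (starRingEnd ℂ) (χ u) = 1 := by
    rw [Complex.mul_conj', h1]
    norm_num
  have h5 : χ u ≠ 0 := by
    intro h
    rw [h, zero_mul] at h3
    exact zero_ne_one h3
  exact mul_left_cancel₀ h5 (h4.trans h3.symm)

theorem sum_eq_units {q : ℕ} [NeZero q] (χ : DirichletCharacter ℂ q) (S : ZMod q → ℂ) :
    ∑ b : ZMod q, χ b * S b = ∑ u : (ZMod q)ˣ, χ u * S u := by
  refine (Fintype.sum_of_injective (Units.val : (ZMod q)ˣ → ZMod q) Units.val_injective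
    (fun u => χ u * S u) (fun b => χ b * S b) (fun b hb => ?_) (fun _ => rfl)).symm
  have h : ¬ IsUnit b := fun ⟨u, hu⟩ => hb ⟨u, hu⟩
  rw [χ.map_nonunit h, zero_mul]

/-- Parseval's identity for the characters modulo `q`. -/
theorem parseval_char {q : ℕ} [NeZero q] (S : ZMod q → ℂ) :
    ∑ χ : DirichletCharacter ℂ q, ‖∑ b : ZMod q, χ b * S b‖ ^ 2 =
      q.totient * ∑ u : (ZMod q)ˣ, ‖S u‖ ^ 2 := by
  have key : ∀ χ : DirichletCharacter ℂ q, ((‖∑ b : ZMod q, χ b * S b‖ ^ 2 : ℝ) : ℂ) =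
      ∑ u : (ZMod q)ˣ, ∑ v : (ZMod q)ˣ, ((starRingEnd ℂ) (S u) * S v) *
        (χ ((u : ZMod q)⁻¹) * χ v) := by
    intro χ
    rw [Complex.ofReal_pow, ← Complex.conj_mul', sum_eq_units, map_sum, sum_mul_sum]
    refine sum_congr rfl fun u _ => sum_congr rfl fun v _ => ?_
    rw [map_mul, conj_unit]
    ring
  have h1 : ((∑ χ : DirichletCharacter ℂ q, ‖∑ b : ZMod q, χ b * S b‖ ^ 2 : ℝ) : ℂ) =
      ((q.totient * ∑ u : (ZMod q)ˣ, ‖S u‖ ^ 2 : ℝ) : ℂ) := by
    rw [Complex.ofReal_sum, sum_congr rfl fun χ _ => key χ, sum_comm]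
    have h2 : ∀ u ∈ (univ : Finset (ZMod q)ˣ), ∑ χ : DirichletCharacter ℂ q,
        ∑ v : (ZMod q)ˣ, ((starRingEnd ℂ) (S u) * S v) * (χ ((u : ZMod q)⁻¹) * χ v) =
          (q.totient : ℂ) * (‖S u‖ ^ 2 : ℝ) := by
      intro u _
      rw [sum_comm]
      have h3 : ∀ v ∈ (univ : Finset (ZMod q)ˣ), ∑ χ : DirichletCharacter ℂ q,
          ((starRingEnd ℂ) (S u) * S v) * (χ ((u : ZMod q)⁻¹) * χ v) =
            if u = v then ((starRingEnd ℂ) (S u) * S v) * (q.totient : ℂ) else 0 := by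
        intro v _
        rw [← mul_sum, DirichletCharacter.sum_char_inv_mul_char_eq ℂ u.isUnit]
        by_cases huv : u = v
        · rw [if_pos huv, if_pos (by rw [huv])]
        · rw [if_neg huv, if_neg (fun h => huv (Units.ext h)), mul_zero]
      rw [sum_congr rfl h3, sum_ite_eq, if_pos (mem_univ _), Complex.conj_mul',
        Complex.ofReal_pow, mul_comm]
    rw [sum_congr rfl h2, ← mul_sum]
    push_cast
    rfl
  exact_mod_cast h1

open Classical in
/-- The inequality for one modulus. -/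
theorem char_le_units {q : ℕ} [NeZero q] (a : ℕ → ℂ) (N : ℕ) :
    (q : ℝ) * ∑ χ ∈ (univ : Finset (DirichletCharacter ℂ q)) with χ.IsPrimitive,
        ‖∑ n ∈ range N, a n * χ⁻¹ n‖ ^ 2 ≤
      q.totient * ∑ u : (ZMod q)ˣ, ‖∑ n ∈ range N, a n *
        ZMod.stdAddChar ((n : ZMod q) * (u : ZMod q))‖ ^ 2 := by
  classical
  rw [← parseval_char (fun b : ZMod q => ∑ n ∈ range N, a n *
    ZMod.stdAddChar ((n : ZMod q) * b)), mul_sum]
  refine le_trans (sum_le_sum fun χ hχ => ?_) (sum_le_sum_of_subset_of_nonneg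
    (filter_subset _ _) fun _ _ _ => sq_nonneg _)
  have hχ' : χ.IsPrimitive := (mem_filter.mp hχ).2
  have h1 : ∑ b : ZMod q, χ b * ∑ n ∈ range N, a n * ZMod.stdAddChar ((n : ZMod q) * b) =
      (∑ n ∈ range N, a n * χ⁻¹ n) * gaussSum χ (ZMod.stdAddChar : AddChar (ZMod q) ℂ) := by
    rw [sum_mul]
    have h2 : ∀ b ∈ (univ : Finset (ZMod q)),
        χ b * ∑ n ∈ range N, a n * ZMod.stdAddChar ((n : ZMod q) * b) =
          ∑ n ∈ range N, a n * (χ b * ZMod.stdAddChar ((n : ZMod q) * b)) := by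
      intro b _
      rw [mul_sum]
      exact sum_congr rfl fun n _ => by ring
    rw [sum_congr rfl h2, sum_comm]
    refine sum_congr rfl fun n _ => ?_
    rw [← mul_sum, mul_assoc]
    congr 1
    exact gaussSum_mulShift_of_isPrimitive (ZMod.stdAddChar : AddChar (ZMod q) ℂ) hχ' (n : ZMod q)
  rw [h1, norm_mul, KW.Gauss.norm_gaussSum hχ', mul_pow, Real.sq_sqrt (Nat.cast_nonneg q)]
  exact le_of_eq (mul_comm _ _)

theorem units_le {q : ℕ} [NeZero q] (a : ℕ → ℂ) (N : ℕ) :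
    ∑ u : (ZMod q)ˣ, ‖∑ n ∈ range N, a n *
        ZMod.stdAddChar ((n : ZMod q) * (u : ZMod q))‖ ^ 2 ≤
      ∑ b ∈ (Icc 1 q).filter (fun b => b.Coprime q),
        ‖∑ n ∈ range N, a n * e (n * (b / q))‖ ^ 2 := by
  classical
  set g : (ZMod q)ˣ → ℕ := fun u => if q = 1 then 1 else (u : ZMod q).val with hg
  have hgc : ∀ u : (ZMod q)ˣ, ((g u : ℕ) : ZMod q) = u := by
    intro u
    by_cases h1 : q = 1
    · subst h1
      exact Subsingleton.elim _ _
    · rw [hg]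
      simp only [if_neg h1, ZMod.natCast_val, ZMod.cast_id', id_eq]
  have hginj : Function.Injective g := by
    intro u v huv
    apply Units.ext
    rw [← hgc u, ← hgc v, huv]
  have hgm : ∀ u : (ZMod q)ˣ, g u ∈ (Icc 1 q).filter (fun b => b.Coprime q) := by
    intro u
    by_cases h1 : q = 1
    · subst h1
      simp [hg]
    · have hc : ((u : ZMod q).val).Coprime q := ZMod.val_coe_unit_coprime u
      have hlt : (u : ZMod q).val < q := ZMod.val_lt _
      have hpos : (u : ZMod q).val ≠ 0 := by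
        intro h0
        rw [h0, Nat.coprime_zero_left] at hc
        exact h1 hc
      rw [hg]
      simp only [if_neg h1]
      exact mem_filter.mpr ⟨mem_Icc.mpr ⟨Nat.one_le_iff_ne_zero.mpr hpos, hlt.le⟩, hc⟩
  have hval : ∀ u : (ZMod q)ˣ, ‖∑ n ∈ range N, a n *
      ZMod.stdAddChar ((n : ZMod q) * (u : ZMod q))‖ ^ 2 =
        ‖∑ n ∈ range N, a n * e (n * ((g u : ℕ) / q))‖ ^ 2 := by
    intro u
    congr 2
    refine sum_congr rfl fun n _ => ?_
    congr 1
    have h2 : (n : ZMod q) * (u : ZMod q) = (((n * g u : ℕ) : ℤ) : ZMod q) := by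
      push_cast
      rw [hgc]
    rw [h2, ZMod.stdAddChar_coe, e]
    congr 1
    push_cast
    ring
  rw [sum_congr rfl fun u _ => hval u,
    ← sum_image (f := fun b : ℕ => ‖∑ n ∈ range N, a n * e (n * ((b : ℕ) / q))‖ ^ 2)
      (g := g) (s := univ) (fun u _ v _ h => hginj h)]
  refine sum_le_sum_of_subset_of_nonneg (fun b hb => ?_) fun _ _ _ => sq_nonneg _
  obtain ⟨u, _, rfl⟩ := mem_image.mp hb
  exact hgm u

open Classical in
/-- **The large sieve for characters** (from the large sieve inequality). -/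
theorem char_of (h : LargeSieveStmt) (a : ℕ → ℂ) (N Q : ℕ) (hQ : 1 ≤ Q) :
    ∑ q ∈ Icc 1 Q, ((q : ℝ) / q.totient) *
        ∑ χ ∈ (univ : Finset (DirichletCharacter ℂ q)) with χ.IsPrimitive,
          ‖∑ n ∈ range N, a n * χ n‖ ^ 2 ≤
      ((Q : ℝ) ^ 2 + Real.pi * N) * ∑ n ∈ range N, ‖a n‖ ^ 2 := by
  classical
  have h1 := h (fun n => (starRingEnd ℂ) (a n)) N Q hQ
  have h2 : ∑ n ∈ range N, ‖(starRingEnd ℂ) (a n)‖ ^ 2 = ∑ n ∈ range N, ‖a n‖ ^ 2 :=
    sum_congr rfl fun n _ => by rw [RCLike.norm_conj]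
  rw [h2] at h1
  refine le_trans (sum_le_sum fun q hq => ?_) h1
  have hq1 := (mem_Icc.mp hq).1
  have : NeZero q := ⟨by omega⟩
  have hφ : (0 : ℝ) < q.totient := by exact_mod_cast Nat.totient_pos.mpr hq1
  have h3 := (char_le_units (q := q) (fun n => (starRingEnd ℂ) (a n)) N).trans
    (mul_le_mul_of_nonneg_left (units_le _ N) hφ.le)
  have h4 : ∀ χ : DirichletCharacter ℂ q,
      ‖∑ n ∈ range N, a n * χ n‖ = ‖∑ n ∈ range N, (starRingEnd ℂ) (a n) * χ⁻¹ n‖ := by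
    intro χ
    rw [← RCLike.norm_conj (∑ n ∈ range N, a n * χ n), map_sum]
    congr 1
    refine sum_congr rfl fun n _ => ?_
    rw [map_mul]
    congr 1
    exact MulChar.star_apply' χ n
  rw [sum_congr rfl fun χ _ => by rw [h4 χ], div_mul_eq_mul_div, div_le_iff₀ hφ, mul_comm (∑ b ∈ _, _)]
  exact h3

end Fermat.Agent.Cor.LS
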