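import Fermat.Agent.Corollaries.LS.Defs

/-!
# The large sieve inequality (P. X. Gallagher, 1967)
-/

set_option autoImplicit false

open Finset MeasureTheory Set intervalIntegral
open scoped ComplexConjugate

namespace Fermat.Agent.Cor.LS

theorem e_eq (x : ℝ) : e x = Complex.exp (((2 * Real.pi * x : ℝ) : ℂ) * Complex.I) := by
  unfold e
  congr 1
  push_cast
  ring

theorem norm_e (x : ℝ) : ‖e x‖ = 1 := by
  rw [e_eq, Complex.norm_exp_ofReal_mul_I]

theorem e_add (x y : ℝ) : e (x + y) = e x * e y := by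
  unfold e
  rw [← Complex.exp_add]
  congr 1
  push_cast
  ring

theorem conj_e (x : ℝ) : conj (e x) = e (-x) := by
  rw [e_eq, e_eq, ← Complex.exp_conj]
  congr 1
  rw [map_mul, Complex.conj_I, Complex.conj_ofReal]
  push_cast
  ring

theorem e_int (k : ℤ) : e k = 1 := by
  unfold e
  rw [Complex.exp_eq_one_iff]
  exact ⟨k, by push_cast; ring⟩

theorem continuous_e : Continuous e := by
  unfold e
  fun_prop

theorem hasDerivAt_e (c x : ℝ) :
    HasDerivAt (fun x : ℝ => e (c * x)) (2 * Real.pi * Complex.I * c * e (c * x)) x := by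
  have h1 : HasDerivAt (fun x : ℝ => (2 * Real.pi * Complex.I) * ((c * x : ℝ) : ℂ))
      ((2 * Real.pi * Complex.I) * c) x := by
    have h2 : HasDerivAt (fun x : ℝ => ((c * x : ℝ) : ℂ)) (c : ℂ) x := by
      have h3 : HasDerivAt (fun x : ℝ => c * x) c x := by
        simpa using (hasDerivAt_id x).const_mul c
      exact h3.ofReal_comp
    exact h2.const_mul _
  have h4 := h1.cexp
  refine h4.congr_deriv ?_
  rw [e, mul_comm]

/-- the integral of a character over a period -/
theorem integral_e (k : ℤ) (h : ℝ) : ∫ x in h..(1 + h), e (k * x) = if k = 0 then 1 else 0 := by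
  split_ifs with hk
  · simp [hk, e]
  · have hc : (2 * Real.pi * Complex.I * k : ℂ) ≠ 0 := by
      have : (k : ℂ) ≠ 0 := by exact_mod_cast hk
      have hpi : (Real.pi : ℂ) ≠ 0 := by exact_mod_cast Real.pi_ne_zero
      simp [hpi, this]
    have h1 : ∀ x : ℝ, e (k * x) = Complex.exp ((2 * Real.pi * Complex.I * k) * x) := by
      intro x
      unfold e
      congr 1
      push_cast
      ring
    simp_rw [h1]
    rw [integral_exp_mul_complex hc, ← h1, ← h1]
    have h2 : e (k * (1 + h)) = e (k * h) := by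
      rw [mul_add, mul_one, e_add, e_int, one_mul]
    rw [h2, sub_self, zero_div]

/-- the trigonometric polynomial, centred at `K` -/
noncomputable def T (c : ℕ → ℂ) (N K : ℕ) (x : ℝ) : ℂ :=
  ∑ n ∈ range N, c n * e (((n : ℝ) - K) * x)

theorem continuous_T (c : ℕ → ℂ) (N K : ℕ) : Continuous (T c N K) := by
  unfold T
  refine continuous_finsetSum _ fun n _ => ?_
  exact continuous_const.mul (continuous_e.comp (continuous_const.mul continuous_id))

theorem norm_T (c : ℕ → ℂ) (N K : ℕ) (x : ℝ) :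
    ‖T c N K x‖ = ‖∑ n ∈ range N, c n * e (n * x)‖ := by
  have h1 : T c N K x = e (-(K * x)) * ∑ n ∈ range N, c n * e (n * x) := by
    rw [T, mul_sum]
    refine sum_congr rfl fun n _ => ?_
    rw [mul_left_comm, ← e_add]
    congr 2
    ring
  rw [h1, norm_mul, norm_e, one_mul]

theorem hasDerivAt_T (c : ℕ → ℂ) (N K : ℕ) (x : ℝ) :
    HasDerivAt (T c N K) (T (fun n : ℕ => c n * (2 * Real.pi * Complex.I * ((n : ℝ) - K : ℝ))) N K x) x := by
  unfold T
  refine (HasDerivAt.fun_sum fun (n : ℕ) _ => (hasDerivAt_e ((n : ℝ) - K) x).const_mul (c n)).congr_deriv ?_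
  refine sum_congr rfl fun n _ => ?_
  ring

/-- Parseval -/
theorem parseval (c : ℕ → ℂ) (N K : ℕ) (h : ℝ) :
    ∫ x in h..(1 + h), ‖T c N K x‖ ^ 2 = ∑ n ∈ range N, ‖c n‖ ^ 2 := by
  have h1 : ∀ x : ℝ, ((‖T c N K x‖ ^ 2 : ℝ) : ℂ) =
      ∑ n ∈ range N, ∑ m ∈ range N, c n * conj (c m) * e ((((n : ℤ) - m : ℤ) : ℝ) * x) := by
    intro x
    have h2 : ((‖T c N K x‖ ^ 2 : ℝ) : ℂ) = T c N K x * conj (T c N K x) := by
      rw [Complex.mul_conj, Complex.normSq_eq_norm_sq]
    rw [h2, T, map_sum, sum_mul_sum]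
    refine sum_congr rfl fun n _ => sum_congr rfl fun m _ => ?_
    rw [map_mul, conj_e]
    have h3 : e ((((n : ℤ) - m : ℤ) : ℝ) * x) = e (((n : ℝ) - K) * x) * e (-(((m : ℝ) - K) * x)) := by
      rw [← e_add]
      congr 1
      push_cast
      ring
    rw [h3]
    ring
  have h4 : ((∫ x in h..(1 + h), ‖T c N K x‖ ^ 2 : ℝ) : ℂ) =
      ((∑ n ∈ range N, ‖c n‖ ^ 2 : ℝ) : ℂ) := by
    rw [← intervalIntegral.integral_ofReal]
    simp_rw [h1]
    rw [intervalIntegral.integral_finsetSum]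
    · have h5 : ∀ n ∈ range N, (∫ x in h..(1 + h), ∑ m ∈ range N,
          c n * conj (c m) * e ((((n : ℤ) - m : ℤ) : ℝ) * x)) = ((‖c n‖ ^ 2 : ℝ) : ℂ) := by
        intro n hn
        rw [intervalIntegral.integral_finsetSum]
        · simp_rw [intervalIntegral.integral_const_mul, integral_e]
          rw [sum_eq_single_of_mem n hn]
          · rw [if_pos (by simp), mul_one, Complex.mul_conj, Complex.normSq_eq_norm_sq]
          · intro m _ hm
            rw [if_neg, mul_zero]
            intro h6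
            exact hm (by omega)
        · intro m _
          exact (Continuous.intervalIntegrable (continuous_const.mul
            (continuous_e.comp (continuous_const.mul continuous_id))) _ _)
      rw [sum_congr rfl h5]
      push_cast
      rfl
    · intro n _
      refine Continuous.intervalIntegrable (continuous_finsetSum _ fun m _ => ?_) _ _
      exact continuous_const.mul (continuous_e.comp (continuous_const.mul continuous_id))
  exact_mod_cast h4

/-- **Gallagher's inequality.** -/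
theorem gallagher {F G : ℝ → ℂ} (hF : ∀ x, HasDerivAt F (G x) x) (hG : Continuous G) (α : ℝ)
    {h : ℝ} (hh : 0 < h) :
    2 * h * ‖F α‖ ≤ (∫ x in (α - h)..(α + h), ‖F x‖) + h * ∫ x in (α - h)..(α + h), ‖G x‖ := by
  have hFc : Continuous F := continuous_iff_continuousAt.mpr fun x => (hF x).continuousAt
  have hFi : ∀ a b : ℝ, IntervalIntegrable (fun x => ‖F x‖) volume a b := fun a b =>
    hFc.norm.intervalIntegrable a b
  have hGi : ∀ a b : ℝ, IntervalIntegrable (fun x => ‖G x‖) volume a b := fun a b =>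
    hG.norm.intervalIntegrable a b
  have hdiff : ∀ a b : ℝ, a ≤ b → ‖F b - F a‖ ≤ ∫ x in a..b, ‖G x‖ := by
    intro a b hab
    have h1 : ∫ x in a..b, G x = F b - F a :=
      integral_eq_sub_of_hasDerivAt (fun x _ => hF x) (hG.intervalIntegrable a b)
    rw [← h1]
    exact norm_integral_le_integral_norm hab
  -- the left half
  have hl : h * ‖F α‖ ≤ (∫ x in (α - h)..α, ‖F x‖) + h * ∫ x in (α - h)..α, ‖G x‖ := by
    set C := ∫ x in (α - h)..α, ‖G x‖ with hC
    have h1 : ∫ _x in (α - h)..α, ‖F α‖ ≤ ∫ x in (α - h)..α, (‖F x‖ + C) := by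
      refine integral_mono_on (by linarith) (by simp) ((hFi _ _).add (by simp)) fun x hx => ?_
      have h2 : F α = F x + (F α - F x) := by ring
      have h3 : ‖F α‖ ≤ ‖F x‖ + ‖F α - F x‖ := by
        conv_lhs => rw [h2]
        exact norm_add_le _ _
      have h4 : ‖F α - F x‖ ≤ C := by
        refine (hdiff x α hx.2).trans ?_
        have h5 : C = (∫ y in (α - h)..x, ‖G y‖) + ∫ y in x..α, ‖G y‖ :=
          (integral_add_adjacent_intervals (hGi _ _) (hGi _ _)).symm
        have h6 : 0 ≤ ∫ y in (α - h)..x, ‖G y‖ :=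
          integral_nonneg hx.1 fun y _ => norm_nonneg _
        linarith
      linarith
    rw [intervalIntegral.integral_const, integral_add (hFi _ _) (by simp), intervalIntegral.integral_const] at h1
    simp only [smul_eq_mul] at h1
    have h2 : α - (α - h) = h := by ring
    rw [h2] at h1
    exact h1
  -- the right half
  have hr : h * ‖F α‖ ≤ (∫ x in α..(α + h), ‖F x‖) + h * ∫ x in α..(α + h), ‖G x‖ := by
    set C := ∫ x in α..(α + h), ‖G x‖ with hC
    have h1 : ∫ _x in α..(α + h), ‖F α‖ ≤ ∫ x in α..(α + h), (‖F x‖ + C) := by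
      refine integral_mono_on (by linarith) (by simp) ((hFi _ _).add (by simp)) fun x hx => ?_
      have h2 : F α = F x - (F x - F α) := by ring
      have h3 : ‖F α‖ ≤ ‖F x‖ + ‖F x - F α‖ := by
        conv_lhs => rw [h2]
        exact norm_sub_le _ _
      have h4 : ‖F x - F α‖ ≤ C := by
        refine (hdiff α x hx.1).trans ?_
        have h5 : C = (∫ y in α..x, ‖G y‖) + ∫ y in x..(α + h), ‖G y‖ :=
          (integral_add_adjacent_intervals (hGi _ _) (hGi _ _)).symm
        have h6 : 0 ≤ ∫ y in x..(α + h), ‖G y‖ :=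
          integral_nonneg hx.2 fun y _ => norm_nonneg _
        linarith
      linarith
    rw [intervalIntegral.integral_const, integral_add (hFi _ _) (by simp), intervalIntegral.integral_const] at h1
    simp only [smul_eq_mul] at h1
    have h2 : α + h - α = h := by ring
    rw [h2] at h1
    exact h1
  have h1 := integral_add_adjacent_intervals (hFi (α - h) α) (hFi α (α + h))
  have h2 := integral_add_adjacent_intervals (hGi (α - h) α) (hGi α (α + h))
  rw [← h1, ← h2]
  linarith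

/-- two different Farey fractions of order `Q` differ by at least `1 / Q ^ 2` -/
theorem farey {Q q q' b b' : ℕ} (hq : q ∈ Finset.Icc 1 Q) (hq' : q' ∈ Finset.Icc 1 Q)
    (hb : b.Coprime q) (hb' : b'.Coprime q') (h : ¬ (q = q' ∧ b = b')) :
    1 / (Q : ℝ) ^ 2 ≤ |(b : ℝ) / q - b' / q'| := by
  rw [Finset.mem_Icc] at hq hq'
  have h1 : (0 : ℝ) < q := by exact_mod_cast hq.1
  have h1' : (0 : ℝ) < q' := by exact_mod_cast hq'.1
  have hQ : (q : ℝ) ≤ Q := by exact_mod_cast hq.2
  have hQ' : (q' : ℝ) ≤ Q := by exact_mod_cast hq'.2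
  have h2 : (b : ℤ) * q' - b' * q ≠ 0 := by
    intro h3
    have h4 : b * q' = b' * q := by
      have : (b : ℤ) * q' = b' * q := by linarith
      exact_mod_cast this
    have h5 : q ∣ q' := hb.symm.dvd_of_dvd_mul_left (h4 ▸ Dvd.intro_left b' rfl)
    have h6 : q' ∣ q := hb'.symm.dvd_of_dvd_mul_left (h4.symm ▸ Dvd.intro_left b rfl)
    have h7 : q = q' := Nat.dvd_antisymm h5 h6
    refine h ⟨h7, ?_⟩
    rw [h7] at h4
    exact Nat.eq_of_mul_eq_mul_right hq'.1 h4
  have h3 : (1 : ℝ) ≤ |(b : ℝ) * q' - b' * q| := by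
    have : (1 : ℤ) ≤ |(b : ℤ) * q' - b' * q| := Int.one_le_abs h2
    exact_mod_cast this
  have h4 : (b : ℝ) / q - b' / q' = (b * q' - b' * q) / (q * q') := by
    field_simp
  rw [h4, abs_div, abs_of_pos (mul_pos h1 h1')]
  refine div_le_div₀ (abs_nonneg _) h3 (by positivity) ?_
  rw [sq]
  exact mul_le_mul hQ hQ' h1'.le (h1.le.trans hQ)

/-- **The large sieve inequality** for the points `pt x` of the interval `[α, α + 1 - δ]` with
distances `≥ δ` (P. X. Gallagher). -/
theorem points {ι : Type*} (a : ℕ → ℂ) (N : ℕ) (S : Finset ι) (pt : ι → ℝ) {δ : ℝ} (hδ : 0 < δ)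
    (α : ℝ) (hS : ∀ x ∈ S, α ≤ pt x ∧ pt x ≤ α + 1 - δ)
    (hsep : ∀ x ∈ S, ∀ y ∈ S, x ≠ y → δ ≤ |pt x - pt y|) :
    ∑ x ∈ S, ‖∑ n ∈ range N, a n * e (n * pt x)‖ ^ 2 ≤
      (δ⁻¹ + Real.pi * N) * ∑ n ∈ range N, ‖a n‖ ^ 2 := by
  rcases Nat.eq_zero_or_pos N with hN | hN
  · subst hN
    simp
  have hN0 : (0 : ℝ) < N := by exact_mod_cast hN
  set K := N / 2 with hK
  set A := ∑ n ∈ range N, ‖a n‖ ^ 2 with hA
  set h : ℝ := δ / 2 with hh
  have hh0 : 0 < h := by positivity
  set β : ℝ := α - h with hβ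
  set a' : ℕ → ℂ := fun n : ℕ => a n * (2 * Real.pi * Complex.I * ((n : ℝ) - K : ℝ)) with ha'
  set F : ℝ → ℂ := fun x => T a N K x ^ 2 with hF
  set G : ℝ → ℂ := fun x => 2 * T a N K x * T a' N K x with hG
  have hFG : ∀ x, HasDerivAt F (G x) x := by
    intro x
    have h0 : HasDerivAt (T a N K) (T a' N K x) x := hasDerivAt_T a N K x
    have h1 : HasDerivAt (fun y => T a N K y * T a N K y)
        (T a' N K x * T a N K x + T a N K x * T a' N K x) x := h0.fun_mul h0
    have h2 : F = fun y => T a N K y * T a N K y := by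
      funext y
      exact sq (T a N K y)
    have h3 : G x = T a' N K x * T a N K x + T a N K x * T a' N K x := by
      have h4 : ∀ u v : ℂ, 2 * u * v = v * u + u * v := fun u v => by ring
      exact h4 _ _
    rw [h2, h3]
    exact h1
  have hTc := continuous_T a N K
  have hTc' := continuous_T a' N K
  have hGc : Continuous G := (continuous_const.mul hTc).mul hTc'
  have hFc : Continuous F := hTc.pow 2
  have hdis : (S : Set ι).PairwiseDisjoint fun x => Set.Ioc (pt x - h) (pt x + h) := by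
    intro x hx y hy hxy
    have h4 := hsep x hx y hy hxy
    rw [Function.onFun, Set.disjoint_left]
    intro z hz hz'
    have h6 : |pt x - pt y| < δ := by
      rw [abs_lt]
      constructor <;> linarith [hz.1, hz.2, hz'.1, hz'.2]
    exact absurd h4 (not_le.mpr h6)
  have hsub : ∀ x ∈ S, Set.Ioc (pt x - h) (pt x + h) ⊆ Set.Ioc β (1 + β) := by
    intro x hx z hz
    have h1 := hS x hx
    exact ⟨by linarith [hz.1], by linarith [hz.2]⟩
  have hsum : ∀ Φ : ℝ → ℝ, Continuous Φ → (∀ x, 0 ≤ Φ x) →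
      ∑ x ∈ S, ∫ t in (pt x - h)..(pt x + h), Φ t ≤ ∫ t in β..(1 + β), Φ t := by
    intro Φ hΦ hΦ0
    have h1 : ∀ x ∈ S, ∫ t in (pt x - h)..(pt x + h), Φ t =
        ∫ t in Set.Ioc (pt x - h) (pt x + h), Φ t := fun x _ =>
      intervalIntegral.integral_of_le (by linarith)
    rw [sum_congr rfl h1, intervalIntegral.integral_of_le (by linarith : β ≤ 1 + β),
      ← MeasureTheory.integral_biUnion_finset S (fun x _ => measurableSet_Ioc) hdis
        (fun x _ => hΦ.integrableOn_Ioc)]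
    refine MeasureTheory.setIntegral_mono_set hΦ.integrableOn_Ioc
      (Filter.Eventually.of_forall fun x => hΦ0 x) ?_
    refine LE.le.eventuallyLE ?_
    exact Set.iUnion₂_subset fun x hx => hsub x hx
  -- summation of Gallagher's inequality
  have h1 : 2 * h * ∑ x ∈ S, ‖F (pt x)‖ ≤ (∫ t in β..(1 + β), ‖F t‖) +
      h * ∫ t in β..(1 + β), ‖G t‖ := by
    calc 2 * h * ∑ x ∈ S, ‖F (pt x)‖ = ∑ x ∈ S, 2 * h * ‖F (pt x)‖ := mul_sum _ _ _
      _ ≤ ∑ x ∈ S, ((∫ t in (pt x - h)..(pt x + h), ‖F t‖) +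
            h * ∫ t in (pt x - h)..(pt x + h), ‖G t‖) :=
          sum_le_sum fun x _ => gallagher hFG hGc (pt x) hh0
      _ = (∑ x ∈ S, ∫ t in (pt x - h)..(pt x + h), ‖F t‖) +
            h * ∑ x ∈ S, ∫ t in (pt x - h)..(pt x + h), ‖G t‖ := by
          rw [sum_add_distrib, mul_sum]
      _ ≤ _ := add_le_add (hsum _ hFc.norm fun _ => norm_nonneg _)
          (mul_le_mul_of_nonneg_left (hsum _ hGc.norm fun _ => norm_nonneg _) hh0.le)
  have h2 : ∫ t in β..(1 + β), ‖F t‖ = A := by
    refine Eq.trans ?_ (parseval a N K β)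
    refine intervalIntegral.integral_congr fun t _ => ?_
    simp only [hF, norm_pow]
  have hpi := Real.pi_pos
  have hi1 : IntervalIntegrable (fun t => (Real.pi * N) * ‖T a N K t‖ ^ 2)
      MeasureTheory.volume β (1 + β) :=
    (continuous_const.mul (hTc.norm.pow 2)).intervalIntegrable _ _
  have hi2 : IntervalIntegrable (fun t => (Real.pi * N)⁻¹ * ‖T a' N K t‖ ^ 2)
      MeasureTheory.volume β (1 + β) :=
    (continuous_const.mul (hTc'.norm.pow 2)).intervalIntegrable _ _
  have h3 : ∫ t in β..(1 + β), ‖G t‖ ≤ 2 * (Real.pi * N) * A := by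
    have h4 : ∫ t in β..(1 + β), ‖G t‖ ≤ ∫ t in β..(1 + β), ((Real.pi * N) * ‖T a N K t‖ ^ 2 +
        (Real.pi * N)⁻¹ * ‖T a' N K t‖ ^ 2) := by
      refine integral_mono_on (by linarith) (hGc.norm.intervalIntegrable _ _)
        (((continuous_const.mul (hTc.norm.pow 2)).add
          (continuous_const.mul (hTc'.norm.pow 2))).intervalIntegrable _ _) fun t _ => ?_
      simp only [hG, norm_mul, Complex.norm_ofNat]
      have h5 : 0 < Real.pi * N := by positivity
      have h6 : 0 ≤ (Real.pi * N)⁻¹ * ((Real.pi * N) * ‖T a N K t‖ - ‖T a' N K t‖) ^ 2 := by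
        positivity
      have h7 : (Real.pi * N)⁻¹ * ((Real.pi * N) * ‖T a N K t‖ - ‖T a' N K t‖) ^ 2 =
          (Real.pi * N) * ‖T a N K t‖ ^ 2 + (Real.pi * N)⁻¹ * ‖T a' N K t‖ ^ 2 -
            2 * ‖T a N K t‖ * ‖T a' N K t‖ := by
        field_simp
        ring
      linarith
    refine h4.trans ?_
    rw [integral_add hi1 hi2, intervalIntegral.integral_const_mul,
      intervalIntegral.integral_const_mul, parseval a N K β, parseval a' N K β]
    have h5 : ∑ n ∈ range N, ‖a' n‖ ^ 2 ≤ (Real.pi * N) ^ 2 * A := by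
      rw [hA, mul_sum]
      refine sum_le_sum fun n hn => ?_
      have h6 : |(n : ℝ) - K| ≤ N / 2 := by
        have h7 := Finset.mem_range.mp hn
        have h8 : (n : ℝ) + 1 ≤ N := by exact_mod_cast h7
        have h9 : (K : ℝ) ≤ N / 2 := by
          rw [hK]
          exact Nat.cast_div_le
        have h10 : (N : ℝ) ≤ 2 * K + 1 := by exact_mod_cast (by omega : N ≤ 2 * K + 1)
        rw [abs_le]
        have h11 : (0 : ℝ) ≤ n := Nat.cast_nonneg n
        constructor <;> linarith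
      have h7 : ‖a' n‖ = ‖a n‖ * (2 * Real.pi * |(n : ℝ) - K|) := by
        rw [ha']
        simp only [norm_mul, Complex.norm_ofNat, Complex.norm_I, mul_one, Complex.norm_real,
          Real.norm_eq_abs, abs_of_pos hpi]
      rw [h7, mul_pow, mul_comm]
      refine mul_le_mul_of_nonneg_right ?_ (sq_nonneg _)
      refine pow_le_pow_left₀ (by positivity) ?_ 2
      nlinarith
    have h8 : (Real.pi * N)⁻¹ * ∑ n ∈ range N, ‖a' n‖ ^ 2 ≤
        (Real.pi * N)⁻¹ * ((Real.pi * N) ^ 2 * A) := mul_le_mul_of_nonneg_left h5 (by positivity)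
    have h9 : (Real.pi * N)⁻¹ * ((Real.pi * N) ^ 2 * A) = (Real.pi * N) * A := by
      field_simp
    linarith
  have h4 : ∑ x ∈ S, ‖∑ n ∈ range N, a n * e (n * pt x)‖ ^ 2 = ∑ x ∈ S, ‖F (pt x)‖ := by
    refine sum_congr rfl fun x _ => ?_
    simp only [hF, norm_pow]
    rw [norm_T]
  rw [h4]
  have h5 : 2 * h * ∑ x ∈ S, ‖F (pt x)‖ ≤ 2 * h * ((δ⁻¹ + Real.pi * N) * A) := by
    have h6 : 2 * h * ((δ⁻¹ + Real.pi * N) * A) = A + h * (2 * (Real.pi * N) * A) := by
      rw [hh]
      field_simp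
    rw [h6]
    rw [h2] at h1
    have := mul_le_mul_of_nonneg_left h3 hh0.le
    linarith
  exact le_of_mul_le_mul_left h5 (by positivity)

/-- (L1) **The large sieve inequality.** -/
theorem largeSieveStmt : LargeSieveStmt := by
  intro a N Q hQ
  have hQ0 : (0 : ℝ) < Q := by exact_mod_cast hQ
  set S : Finset ((_ : ℕ) × ℕ) := (Finset.Icc 1 Q).sigma fun q =>
    (Finset.Icc 1 q).filter (fun b => b.Coprime q) with hS
  have hmem : ∀ x ∈ S, x.1 ∈ Finset.Icc 1 Q ∧ 1 ≤ x.2 ∧ x.2 ≤ x.1 ∧ x.2.Coprime x.1 := by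
    intro x hx
    obtain ⟨h1, h2⟩ := Finset.mem_sigma.mp hx
    obtain ⟨h3, h4⟩ := Finset.mem_filter.mp h2
    exact ⟨h1, (Finset.mem_Icc.mp h3).1, (Finset.mem_Icc.mp h3).2, h4⟩
  have h1 := points a N S (fun x => (x.2 : ℝ) / x.1) (δ := 1 / (Q : ℝ) ^ 2) (by positivity)
    (1 / (Q : ℝ) ^ 2) (fun x hx => ?_) (fun x hx y hy hxy => ?_)
  · rw [hS, sum_sigma, one_div, inv_inv] at h1
    exact h1
  · have h1 := hmem x hx
    have h2 := Finset.mem_Icc.mp h1.1
    have h3 : (0 : ℝ) < x.1 := by exact_mod_cast h2.1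
    have h5 : (x.1 : ℝ) ≤ (Q : ℝ) ^ 2 := by
      have h6 : (x.1 : ℝ) ≤ Q := by exact_mod_cast h2.2
      have h7 : (1 : ℝ) ≤ Q := by exact_mod_cast hQ
      nlinarith
    have h6 : (x.2 : ℝ) / x.1 ≤ 1 := (div_le_one h3).mpr (by exact_mod_cast h1.2.2.1)
    exact ⟨div_le_div₀ (Nat.cast_nonneg _) (by exact_mod_cast h1.2.1) h3 h5, by linarith⟩
  · have h1 := hmem x hx
    have h2 := hmem y hy
    have h3 : ¬ (x.1 = y.1 ∧ x.2 = y.2) := by
      rintro ⟨h4, h5⟩
      exact hxy (Sigma.ext h4 (heq_of_eq h5))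
    exact farey h1.1 h2.1 h1.2.2.2 h2.2.2.2 h3

end Fermat.Agent.Cor.LS
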