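import Fermat.Agent.Corollaries.LS.BVDefs
import Fermat.Agent.Corollaries.LS.Char
import Fermat.Agent.Corollaries.LS.Ineq

/-!
# The Bombieri - Vinogradov theorem: the large moduli

(T5) `largeStmt`: from the large sieve for characters, by Cauchy - Schwarz and partial summation.
-/

set_option autoImplicit false

open Finset

noncomputable section

namespace Fermat.Agent.Cor.LS.BV

namespace Large

theorem chs_eq (s : Finset ℕ) (α : ℕ → ℝ) (r K : ℕ) (hs : s ⊆ Icc 1 K) {q : ℕ}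
    (χ : DirichletCharacter ℂ q) :
    ∑ n ∈ range (K + 1), (if n ∈ s ∧ n.Coprime r then (α n : ℂ) else 0) * χ n = chs s α r χ := by
  unfold chs
  simp only [ite_mul, zero_mul]
  rw [← Finset.sum_filter]
  refine sum_congr ?_ fun _ _ => rfl
  ext n
  simp only [mem_filter, mem_range]
  constructor
  · rintro ⟨-, h⟩
    exact h
  · rintro ⟨h1, h2⟩
    have := mem_Icc.mp (hs h1)
    exact ⟨by omega, h1, h2⟩

theorem norm_le (s : Finset ℕ) (α : ℕ → ℝ) (r K : ℕ) :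
    ∑ n ∈ range (K + 1), ‖(if n ∈ s ∧ n.Coprime r then (α n : ℂ) else 0)‖ ^ 2 ≤
      ∑ k ∈ s, α k ^ 2 := by
  have h1 : ∀ n : ℕ, ‖(if n ∈ s ∧ n.Coprime r then (α n : ℂ) else 0)‖ ^ 2 =
      if n ∈ s ∧ n.Coprime r then α n ^ 2 else 0 := by
    intro n
    split_ifs with h
    · rw [Complex.norm_real, Real.norm_eq_abs, sq_abs]
    · simp
  simp only [h1]
  rw [← Finset.sum_filter]
  refine sum_le_sum_of_subset_of_nonneg (fun n hn => ?_) fun _ _ _ => sq_nonneg _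
  rw [mem_filter] at hn
  exact hn.2.1

theorem sqrt_le (x : ℕ) (hx : 1 ≤ x) (K : ℕ) :
    √((x : ℝ) ^ 2 + Real.pi * ((K + 1 : ℕ) : ℝ)) ≤ 3 * (x + √K) := by
  have hx' : (1 : ℝ) ≤ x := by exact_mod_cast hx
  have h0 : 0 ≤ √(K : ℝ) := Real.sqrt_nonneg _
  rw [Real.sqrt_le_left (by positivity)]
  have h1 : √(K : ℝ) * √K = K := Real.mul_self_sqrt (Nat.cast_nonneg K)
  have h2 := Real.pi_lt_four
  push_cast
  nlinarith [Real.pi_pos, mul_nonneg (sub_nonneg.mpr hx') h0, Nat.cast_nonneg (α := ℝ) K]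

open Classical in
/-- the inner sum -/
def T (s t : Finset ℕ) (α β : ℕ → ℝ) (r d : ℕ) : ℝ :=
  ∑ χ ∈ (univ : Finset (DirichletCharacter ℂ d)) with χ.IsPrimitive,
    ‖chs s α r χ‖ * ‖chs t β r χ‖

theorem T_nonneg (s t : Finset ℕ) (α β : ℕ → ℝ) (r d : ℕ) : 0 ≤ T s t α β r d :=
  sum_nonneg fun _ _ => by positivity

/-- Cauchy - Schwarz and the large sieve -/
theorem sum_T_le {K L r : ℕ} {s t : Finset ℕ} {α β : ℕ → ℝ} (hs : s ⊆ Icc 1 K)
    (ht : t ⊆ Icc 1 L) {x : ℕ} (hx : 1 ≤ x) :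
    ∑ d ∈ Icc 1 x, ((d : ℝ) / d.totient) * T s t α β r d ≤
      9 * ((x + √K) * (x + √L)) * (√(∑ k ∈ s, α k ^ 2) * √(∑ l ∈ t, β l ^ 2)) := by
  classical
  set a : ℕ → ℂ := fun n => if n ∈ s ∧ n.Coprime r then (α n : ℂ) else 0 with ha
  set b : ℕ → ℂ := fun n => if n ∈ t ∧ n.Coprime r then (β n : ℂ) else 0 with hb
  set SA : ℕ → ℝ := fun d => ∑ χ ∈ (univ : Finset (DirichletCharacter ℂ d)) with χ.IsPrimitive,
    ‖chs s α r χ‖ ^ 2 with hSA
  set SB : ℕ → ℝ := fun d => ∑ χ ∈ (univ : Finset (DirichletCharacter ℂ d)) with χ.IsPrimitive,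
    ‖chs t β r χ‖ ^ 2 with hSB
  have hSA0 : ∀ d, 0 ≤ SA d := fun d => sum_nonneg fun _ _ => sq_nonneg _
  have hSB0 : ∀ d, 0 ≤ SB d := fun d => sum_nonneg fun _ _ => sq_nonneg _
  have h1 := char_of largeSieveStmt a (K + 1) x hx
  have h2 := char_of largeSieveStmt b (L + 1) x hx
  simp only [ha, hb, chs_eq s α r K hs, chs_eq t β r L ht] at h1 h2
  have h1' : ∑ d ∈ Icc 1 x, ((d : ℝ) / d.totient) * SA d ≤
      ((x : ℝ) ^ 2 + Real.pi * ((K + 1 : ℕ) : ℝ)) * ∑ k ∈ s, α k ^ 2 :=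
    h1.trans (mul_le_mul_of_nonneg_left (norm_le s α r K) (by positivity))
  have h2' : ∑ d ∈ Icc 1 x, ((d : ℝ) / d.totient) * SB d ≤
      ((x : ℝ) ^ 2 + Real.pi * ((L + 1 : ℕ) : ℝ)) * ∑ k ∈ t, β k ^ 2 :=
    h2.trans (mul_le_mul_of_nonneg_left (norm_le t β r L) (by positivity))
  have h3 : ∀ d ∈ Icc 1 x, ((d : ℝ) / d.totient) * T s t α β r d ≤
      √(((d : ℝ) / d.totient) * SA d) * √(((d : ℝ) / d.totient) * SB d) := by
    intro d _
    have hd0 : (0 : ℝ) ≤ (d : ℝ) / d.totient := by positivity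
    have h4 : T s t α β r d ≤ √(SA d) * √(SB d) := by
      unfold T
      have h5 := Real.sum_sqrt_mul_sqrt_le
        (s := (univ : Finset (DirichletCharacter ℂ d)).filter fun χ => χ.IsPrimitive)
        (f := fun χ => ‖chs s α r χ‖ ^ 2) (g := fun χ => ‖chs t β r χ‖ ^ 2)
        (fun _ => sq_nonneg _) (fun _ => sq_nonneg _)
      simp only [Real.sqrt_sq (norm_nonneg _)] at h5
      exact h5
    rw [Real.sqrt_mul hd0, Real.sqrt_mul hd0]
    calc ((d : ℝ) / d.totient) * T s t α β r d ≤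
          ((d : ℝ) / d.totient) * (√(SA d) * √(SB d)) := mul_le_mul_of_nonneg_left h4 hd0
      _ = (√((d : ℝ) / d.totient) * √((d : ℝ) / d.totient)) * (√(SA d) * √(SB d)) := by
          rw [Real.mul_self_sqrt hd0]
      _ = _ := by ring
  refine (sum_le_sum h3).trans ?_
  refine (Real.sum_sqrt_mul_sqrt_le (s := Icc 1 x)
    (f := fun d : ℕ => ((d : ℝ) / d.totient) * SA d)
    (g := fun d : ℕ => ((d : ℝ) / d.totient) * SB d)
    (fun d => mul_nonneg (by positivity) (hSA0 d))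
    (fun d => mul_nonneg (by positivity) (hSB0 d))).trans ?_
  have h6 := Real.sqrt_le_sqrt h1'
  have h7 := Real.sqrt_le_sqrt h2'
  rw [Real.sqrt_mul (by positivity)] at h6 h7
  have h8 := sqrt_le x hx K
  have h9 := sqrt_le x hx L
  calc _ ≤ (√((x : ℝ) ^ 2 + Real.pi * ((K + 1 : ℕ) : ℝ)) * √(∑ k ∈ s, α k ^ 2)) *
        (√((x : ℝ) ^ 2 + Real.pi * ((L + 1 : ℕ) : ℝ)) * √(∑ k ∈ t, β k ^ 2)) :=
        mul_le_mul h6 h7 (Real.sqrt_nonneg _) (by positivity)
    _ ≤ ((3 * (x + √K)) * √(∑ k ∈ s, α k ^ 2)) * ((3 * (x + √L)) * √(∑ k ∈ t, β k ^ 2)) := by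
        gcongr
    _ = _ := by ring

/-- partial summation -/
theorem abel (G : ℕ → ℝ) {D Q : ℕ} (hD : 1 ≤ D) (hDQ : D ≤ Q) :
    ∑ d ∈ Ioc D Q, G d / d = (∑ d ∈ Ioc D Q, G d) / Q +
      ∑ x ∈ Ico D Q, (∑ d ∈ Ioc D x, G d) / (x * (x + 1)) := by
  induction Q, hDQ using Nat.le_induction with
  | base => simp
  | succ Q hQ ih =>
    have hQ0 : (Q : ℝ) ≠ 0 := by
      have : 0 < Q := by omega
      exact_mod_cast this.ne'
    have hQ1 : (Q : ℝ) + 1 ≠ 0 := by positivity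
    have h1 : Ioc D (Q + 1) = insert (Q + 1) (Ioc D Q) := by
      ext x
      simp only [mem_Ioc, mem_insert]
      omega
    rw [h1, sum_insert (by simp), sum_insert (by simp), ih, Finset.sum_Ico_succ_top hQ]
    push_cast
    field_simp
    ring

theorem sum_le {D Q : ℕ} (hD : 1 ≤ D) (hDQ : D ≤ Q) {A B : ℝ} (hA : 0 ≤ A) :
    ∑ x ∈ Ico D Q, (1 + A / (x + 1) + B / (x * (x + 1))) ≤
      (Q - D) + A * (Real.log Q - Real.log D) + B * (1 / D - 1 / Q) := by
  induction Q, hDQ using Nat.le_induction with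
  | base => simp
  | succ Q hQ ih =>
    have hQ0 : (0 : ℝ) < Q := by
      have : 0 < Q := by omega
      exact_mod_cast this
    rw [Finset.sum_Ico_succ_top hQ]
    have h1 : 1 / ((Q : ℝ) + 1) ≤ Real.log (Q + 1) - Real.log Q := by
      have h2 := Real.one_sub_inv_le_log_of_pos (show 0 < ((Q : ℝ) + 1) / Q by positivity)
      rw [Real.log_div (by positivity) hQ0.ne', inv_div] at h2
      have h3 : 1 - (Q : ℝ) / (Q + 1) = 1 / (Q + 1) := by
        field_simp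
        ring
      rwa [h3] at h2
    have h2 : A / ((Q : ℝ) + 1) ≤ A * (Real.log (Q + 1) - Real.log Q) := by
      calc A / ((Q : ℝ) + 1) = A * (1 / ((Q : ℝ) + 1)) := by ring
        _ ≤ _ := mul_le_mul_of_nonneg_left h1 hA
    have h3 : B / ((Q : ℝ) * (Q + 1)) = B * (1 / Q - 1 / (Q + 1)) := by
      field_simp
      ring
    push_cast
    rw [h3]
    nlinarith

end Large

open Large in
/-- (T5) -/
theorem largeStmt : LargeStmt := by
  classical
  refine ⟨18, by norm_num, fun D Q K L r s t α β hD hDQ hs ht => ?_⟩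
  have hQ : 1 ≤ Q := hD.trans hDQ
  have hD0 : (0 : ℝ) < D := by exact_mod_cast hD
  have hQ0 : (0 : ℝ) < Q := by exact_mod_cast hQ
  set N : ℝ := √(∑ k ∈ s, α k ^ 2) * √(∑ l ∈ t, β l ^ 2) with hN
  have hN0 : 0 ≤ N := by positivity
  set A : ℝ := √K + √L with hA
  set B : ℝ := √K * √L with hB
  have hA0 : 0 ≤ A := by positivity
  have hB0 : 0 ≤ B := by positivity
  have hKL : √((K : ℝ) * L) = B := Real.sqrt_mul (Nat.cast_nonneg K) _
  rw [hKL]
  set G : ℕ → ℝ := fun d => ((d : ℝ) / d.totient) * Large.T s t α β r d with hG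
  have hG0 : ∀ d, 0 ≤ G d := fun d => mul_nonneg (by positivity) (Large.T_nonneg _ _ _ _ _ _)
  have h1 : ∑ d ∈ Ioc D Q, (1 / (d.totient : ℝ)) *
        ∑ χ ∈ (univ : Finset (DirichletCharacter ℂ d)) with χ.IsPrimitive,
          ‖chs s α r χ‖ * ‖chs t β r χ‖ = ∑ d ∈ Ioc D Q, G d / d := by
    refine sum_congr rfl fun d hd => ?_
    have hd0 : (d : ℝ) ≠ 0 := by
      have := (mem_Ioc.mp hd).1
      have : 0 < d := by omega
      exact_mod_cast this.ne'
    simp only [hG, Large.T]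
    field_simp
  have h2 : ∀ x : ℕ, 1 ≤ x → ∑ d ∈ Ioc D x, G d ≤ 9 * N * (x ^ 2 + A * x + B) := by
    intro x hx
    have h3 : ∑ d ∈ Ioc D x, G d ≤ ∑ d ∈ Icc 1 x, G d := by
      refine sum_le_sum_of_subset_of_nonneg (fun d hd => ?_) fun _ _ _ => hG0 _
      rw [mem_Ioc] at hd
      rw [mem_Icc]
      omega
    refine h3.trans ((sum_T_le hs ht hx).trans (le_of_eq ?_))
    rw [hA, hB]
    ring
  rw [h1, abel G hD hDQ]
  have h3 : (∑ d ∈ Ioc D Q, G d) / Q ≤ 9 * N * (Q + A + B / D) := by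
    rw [div_le_iff₀ hQ0]
    refine (h2 Q hQ).trans ?_
    have h4 : B ≤ B / D * Q := by
      rw [div_mul_eq_mul_div, le_div_iff₀ hD0]
      exact mul_le_mul_of_nonneg_left (by exact_mod_cast hDQ) hB0
    have h5 : (Q : ℝ) ^ 2 + A * Q + B ≤ (Q + A + B / D) * Q := by nlinarith
    calc 9 * N * ((Q : ℝ) ^ 2 + A * Q + B) ≤ 9 * N * ((Q + A + B / D) * Q) :=
          mul_le_mul_of_nonneg_left h5 (by positivity)
      _ = _ := by ring
  have h6 : ∑ x ∈ Ico D Q, (∑ d ∈ Ioc D x, G d) / (x * (x + 1)) ≤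
      9 * N * (Q + A * Real.log Q + B / D) := by
    have h7 : ∀ x ∈ Ico D Q, (∑ d ∈ Ioc D x, G d) / ((x : ℝ) * (x + 1)) ≤
        9 * N * (1 + A / (x + 1) + B / (x * (x + 1))) := by
      intro x hx
      have hx1 : 1 ≤ x := hD.trans (mem_Ico.mp hx).1
      have hx0 : (0 : ℝ) < x := by exact_mod_cast hx1
      rw [div_le_iff₀ (by positivity)]
      refine (h2 x hx1).trans ?_
      have h8 : (1 + A / ((x : ℝ) + 1) + B / (x * (x + 1))) * (x * (x + 1)) =
          x * (x + 1) + A * x + B := by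
        field_simp
      rw [mul_assoc (9 * N), h8]
      refine mul_le_mul_of_nonneg_left ?_ (by positivity)
      nlinarith
    refine (sum_le_sum h7).trans ?_
    rw [← Finset.mul_sum]
    refine mul_le_mul_of_nonneg_left ((sum_le hD hDQ hA0).trans ?_) (by positivity)
    have h9 : 0 ≤ Real.log D := Real.log_natCast_nonneg D
    have h10 : 0 ≤ A * Real.log D := mul_nonneg hA0 h9
    have h11 : B * (1 / D - 1 / Q) ≤ B / D := by
      have : 0 ≤ B * (1 / (Q : ℝ)) := by positivity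
      calc B * (1 / D - 1 / Q) = B / D - B * (1 / (Q : ℝ)) := by ring
        _ ≤ _ := by linarith
    nlinarith
  have hlog : 0 ≤ Real.log Q := Real.log_natCast_nonneg Q
  have hBD : 0 ≤ B / D := by positivity
  calc _ ≤ 9 * N * (Q + A + B / D) + 9 * N * (Q + A * Real.log Q + B / D) := add_le_add h3 h6
    _ = 9 * N * ((Q + A + B / D) + (Q + A * Real.log Q + B / D)) := by ring
    _ ≤ 9 * N * (2 * ((1 + Real.log Q) * (Q + A + B / D))) := by
        refine mul_le_mul_of_nonneg_left ?_ (by positivity)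
        nlinarith [mul_nonneg hlog hQ0.le, mul_nonneg hlog hA0, mul_nonneg hlog hBD]
    _ = _ := by
        rw [hA]
        ring

end Fermat.Agent.Cor.LS.BV
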