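import Fermat.Agent.Corollaries.LS.BVDefs
import Fermat.Agent.Corollaries.SiegelL.Progress

/-!
# The Bombieri - Vinogradov theorem: the small moduli, by the Siegel - Walfisz theorem (T6)
-/

set_option autoImplicit false

open Finset

namespace Fermat.Agent.Cor.LS.BV

open Fermat.Agent.Cor.SiegelL in
theorem smallStmt : SmallStmt := by
  intro B
  obtain ⟨C, hC, h⟩ := siegel_walfisz B one_pos
  refine ⟨2 * C, by positivity, fun V L r d χ hV hVL hr hd hprim => ?_⟩
  have : NeZero d := ⟨by omega⟩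
  have : NeZero r := ⟨by omega⟩
  have hχ : χ ≠ 1 := by
    rintro rfl
    rw [DirichletCharacter.isPrimitive_def, DirichletCharacter.conductor_one] at hprim
    omega
  have hV2 : (2 : ℝ) ≤ V := by exact_mod_cast hV
  have hVL' : (V : ℝ) ≤ L := by exact_mod_cast hVL
  have hL2 : (2 : ℝ) ≤ L := by linarith
  have hlV : 0 < Real.log V := Real.log_pos (by linarith)
  have hlVL : Real.log V ≤ Real.log L := Real.log_le_log (by linarith) hVL'
  have hd0 : (0 : ℝ) ≤ d := Nat.cast_nonneg d
  set f : ℕ → ℂ := fun n => χ n * ((ArithmeticFunction.vonMangoldt n : ℝ) : ℂ) with hf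
  have hI : ∀ m : ℕ, Finset.Icc 1 m = Finset.Ioc 0 m := fun m => by
    ext n
    simp [Nat.one_le_iff_ne_zero, Nat.pos_iff_ne_zero]
  have h1 : ‖∑ n ∈ Ioc 0 L, f n‖ ≤ C * d * L / Real.log V ^ B := by
    have i1 := h d χ hχ (L : ℝ) hL2
    rw [Nat.floor_natCast, hI, Real.rpow_one] at i1
    refine i1.trans ?_
    gcongr
  have h2 : ‖∑ n ∈ Ioc 0 V, f n‖ ≤ C * d * L / Real.log V ^ B := by
    have i1 := h d χ hχ (V : ℝ) hV2
    rw [Nat.floor_natCast, hI, Real.rpow_one] at i1
    refine i1.trans ?_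
    gcongr
  have h3 : ‖∑ n ∈ (Ioc V L).filter (fun n : ℕ => ¬ n.Coprime r), f n‖ ≤
      2 * Real.log L * Real.log r := by
    calc ‖∑ n ∈ (Ioc V L).filter (fun n : ℕ => ¬ n.Coprime r), f n‖
        ≤ ∑ n ∈ (Ioc V L).filter (fun n : ℕ => ¬ n.Coprime r),
          ArithmeticFunction.vonMangoldt n := by
          refine (norm_sum_le _ _).trans (Finset.sum_le_sum fun n _ => ?_)
          simp only [hf]
          rw [norm_mul, Complex.norm_real, Real.norm_eq_abs,
            abs_of_nonneg ArithmeticFunction.vonMangoldt_nonneg]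
          exact mul_le_of_le_one_left ArithmeticFunction.vonMangoldt_nonneg (χ.norm_le_one _)
      _ ≤ ∑ n ∈ (Icc 1 L).filter (fun n : ℕ => ¬ n.Coprime r),
          ArithmeticFunction.vonMangoldt n := by
          refine Finset.sum_le_sum_of_subset_of_nonneg (Finset.filter_subset_filter _ ?_)
            fun n _ _ => ArithmeticFunction.vonMangoldt_nonneg
          intro n hn
          obtain ⟨j1, j2⟩ := Finset.mem_Ioc.mp hn
          exact Finset.mem_Icc.mpr ⟨by omega, j2⟩
      _ ≤ 2 * Real.log L * Real.log r := sum_not_coprime_le (by omega)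
  have h4 : chs (Ioc V L) La r χ = (∑ n ∈ Ioc 0 L, f n) - (∑ n ∈ Ioc 0 V, f n) -
      ∑ n ∈ (Ioc V L).filter (fun n : ℕ => ¬ n.Coprime r), f n := by
    rw [← Finset.sum_Ioc_consecutive f (Nat.zero_le V) hVL, add_sub_cancel_left,
      ← Finset.sum_filter_add_sum_filter_not (Ioc V L) (fun n : ℕ => n.Coprime r) f,
      add_sub_cancel_right, chs]
    refine Finset.sum_congr rfl fun n _ => ?_
    simp only [hf, La]
    ring
  have hr1 : (1 : ℝ) ≤ r := by exact_mod_cast hr
  have hlr : 0 ≤ Real.log r := Real.log_nonneg hr1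
  have hlL : 0 ≤ Real.log L := by linarith
  rw [h4]
  refine (norm_sub_le _ _).trans ((add_le_add ((norm_sub_le _ _).trans (add_le_add h1 h2))
    h3).trans ?_)
  have e1 : 2 * C * d * L / Real.log V ^ B =
      C * d * L / Real.log V ^ B + C * d * L / Real.log V ^ B := by ring
  rw [e1]
  have e2 : 2 * Real.log L * Real.log r ≤ (1 + Real.log r) * (2 + 2 * Real.log L) := by nlinarith
  linarith

end Fermat.Agent.Cor.LS.BV
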