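import Fermat.Agent.Corollaries.LS.BVDefs

/-!
# The Bombieri - Vinogradov theorem: (T7) mean values of the divisor function and of `1/φ`
-/

set_option autoImplicit false

open Finset

namespace Fermat.Agent.Cor.LS.BV

namespace T7

/-- the divisors of the integers up to `K` -/
theorem sum_antidiagonal (K : ℕ) (F : ℕ → ℕ → ℝ) :
    ∑ k ∈ Icc 1 K, ∑ p ∈ k.divisorsAntidiagonal, F p.1 p.2 =
      ∑ d ∈ Icc 1 K, ∑ m ∈ Icc 1 (K / d), F d m := by
  rw [Finset.sum_sigma', Finset.sum_sigma']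
  refine Finset.sum_nbij' (fun x => ⟨x.2.1, x.2.2⟩) (fun y => ⟨y.1 * y.2, (y.1, y.2)⟩) ?_ ?_ ?_ ?_ ?_
  · rintro ⟨k, d, m⟩ h
    simp only [mem_sigma, mem_Icc, Nat.mem_divisorsAntidiagonal] at h ⊢
    obtain ⟨⟨h1, h2⟩, h3, h4⟩ := h
    have hd : 1 ≤ d := Nat.one_le_iff_ne_zero.mpr (by rintro rfl; simp at h3; omega)
    have hm : 1 ≤ m := Nat.one_le_iff_ne_zero.mpr (by rintro rfl; simp at h3; omega)
    refine ⟨⟨hd, ?_⟩, hm, ?_⟩
    · calc d = d * 1 := (mul_one d).symm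
        _ ≤ d * m := Nat.mul_le_mul_left _ hm
        _ ≤ K := by rw [h3]; exact h2
    · rw [Nat.le_div_iff_mul_le (by omega), mul_comm, h3]
      exact h2
  · rintro ⟨d, m⟩ h
    simp only [mem_sigma, mem_Icc, Nat.mem_divisorsAntidiagonal] at h ⊢
    obtain ⟨⟨h1, h2⟩, h3, h4⟩ := h
    rw [Nat.le_div_iff_mul_le (by omega), mul_comm] at h4
    have h5 : 0 < d * m := Nat.mul_pos (by omega) (by omega)
    exact ⟨⟨by omega, h4⟩, trivial, by omega⟩
  · rintro ⟨k, d, m⟩ h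
    simp only [mem_sigma, mem_Icc, Nat.mem_divisorsAntidiagonal] at h ⊢
    obtain ⟨-, h3, -⟩ := h
    subst h3
    rfl
  · rintro ⟨d, m⟩ -
    rfl
  · rintro ⟨k, d, m⟩ -
    rfl

theorem card_divisors_eq (k : ℕ) (f : ℕ → ℝ) : (#k.divisors : ℝ) * f k =
    ∑ p ∈ k.divisorsAntidiagonal, f (p.1 * p.2) := by
  have h : ∑ p ∈ k.divisorsAntidiagonal, f (p.1 * p.2) =
      ∑ p ∈ k.divisorsAntidiagonal, f k := by
    refine sum_congr rfl fun p hp => ?_
    rw [(Nat.mem_divisorsAntidiagonal.mp hp).1]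
  rw [h, Nat.sum_divisorsAntidiagonal (f := fun _ _ => f k), sum_const, nsmul_eq_mul]

theorem sum_inv_le (K : ℕ) : ∑ d ∈ Icc 1 K, 1 / (d : ℝ) ≤ 1 + Real.log K := by
  have h := harmonic_le_one_add_log K
  rw [harmonic_eq_sum_Icc] at h
  push_cast at h
  simpa only [one_div] using h

theorem sum_card_divisors_le (M : ℕ) :
    ∑ m ∈ Icc 1 M, (#m.divisors : ℝ) ≤ M * (1 + Real.log M) := by
  have h : ∑ m ∈ Icc 1 M, (#m.divisors : ℝ) =
      ∑ d ∈ Icc 1 M, ∑ m ∈ Icc 1 (M / d), (1 : ℝ) := by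
    rw [← sum_antidiagonal M fun _ _ => 1]
    refine sum_congr rfl fun m _ => ?_
    rw [← card_divisors_eq m (fun _ => 1), mul_one]
  rw [h]
  calc ∑ d ∈ Icc 1 M, ∑ m ∈ Icc 1 (M / d), (1 : ℝ) ≤ ∑ d ∈ Icc 1 M, (M : ℝ) * (1 / (d : ℝ)) := by
        refine sum_le_sum fun d _ => ?_
        rw [sum_const, nsmul_eq_mul, mul_one, Nat.card_Icc, Nat.add_sub_cancel, mul_one_div]
        exact Nat.cast_div_le
    _ = M * ∑ d ∈ Icc 1 M, 1 / (d : ℝ) := by rw [mul_sum]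
    _ ≤ M * (1 + Real.log M) := mul_le_mul_of_nonneg_left (sum_inv_le M) (Nat.cast_nonneg M)

theorem sum_card_div_le (K : ℕ) (hK : 1 ≤ K) :
    ∑ d ∈ Icc 1 K, (#d.divisors : ℝ) * (1 / (d : ℝ)) ≤ (1 + Real.log K) ^ 2 := by
  have h : ∑ d ∈ Icc 1 K, (#d.divisors : ℝ) * (1 / (d : ℝ)) =
      ∑ d ∈ Icc 1 K, ∑ m ∈ Icc 1 (K / d), 1 / (d : ℝ) * (1 / (m : ℝ)) := by
    rw [← sum_antidiagonal K fun d m => 1 / (d : ℝ) * (1 / (m : ℝ))]
    refine sum_congr rfl fun m _ => ?_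
    rw [card_divisors_eq m (fun n => 1 / (n : ℝ))]
    refine sum_congr rfl fun p _ => ?_
    push_cast
    rw [one_div_mul_one_div]
  have hlog : 0 ≤ 1 + Real.log K := by
    have := Real.log_nonneg (by exact_mod_cast hK : (1 : ℝ) ≤ K)
    linarith
  rw [h]
  calc ∑ d ∈ Icc 1 K, ∑ m ∈ Icc 1 (K / d), 1 / (d : ℝ) * (1 / (m : ℝ))
      ≤ ∑ d ∈ Icc 1 K, 1 / (d : ℝ) * (1 + Real.log K) := by
        refine sum_le_sum fun d _ => ?_
        rw [← mul_sum]
        refine mul_le_mul_of_nonneg_left ?_ (by positivity)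
        refine le_trans ?_ (sum_inv_le K)
        refine sum_le_sum_of_subset_of_nonneg (Icc_subset_Icc_right (Nat.div_le_self K d))
          fun i _ _ => by positivity
    _ = (∑ d ∈ Icc 1 K, 1 / (d : ℝ)) * (1 + Real.log K) := by rw [sum_mul]
    _ ≤ (1 + Real.log K) * (1 + Real.log K) := mul_le_mul_of_nonneg_right (sum_inv_le K) hlog
    _ = (1 + Real.log K) ^ 2 := by ring

theorem card_divisors_mul_le (m n : ℕ) :
    (#(m * n).divisors : ℝ) ≤ (#m.divisors : ℝ) * (#n.divisors : ℝ) := by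
  rw [Nat.divisors_mul]
  exact_mod_cast Finset.card_mul_le

theorem sum_card_sq_le (K : ℕ) (hK : 1 ≤ K) :
    ∑ k ∈ Icc 1 K, (#k.divisors : ℝ) ^ 2 ≤ K * (1 + Real.log K) ^ 3 := by
  have hlog : 0 ≤ 1 + Real.log K := by
    have := Real.log_nonneg (by exact_mod_cast hK : (1 : ℝ) ≤ K)
    linarith
  have h : ∑ k ∈ Icc 1 K, (#k.divisors : ℝ) ^ 2 =
      ∑ d ∈ Icc 1 K, ∑ m ∈ Icc 1 (K / d), (#(d * m).divisors : ℝ) := by
    rw [← sum_antidiagonal K fun d m => (#(d * m).divisors : ℝ)]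
    refine sum_congr rfl fun m _ => ?_
    rw [sq, card_divisors_eq m (fun n => (#n.divisors : ℝ))]
  rw [h]
  calc ∑ d ∈ Icc 1 K, ∑ m ∈ Icc 1 (K / d), (#(d * m).divisors : ℝ)
      ≤ ∑ d ∈ Icc 1 K, (K * (1 + Real.log K)) * ((#d.divisors : ℝ) * (1 / (d : ℝ))) := by
        refine sum_le_sum fun d hd => ?_
        obtain ⟨h1, h2⟩ := mem_Icc.mp hd
        have hM : 1 ≤ K / d := (Nat.one_le_div_iff (by omega)).mpr h2
        have hd0 : (0 : ℝ) < d := by exact_mod_cast (by omega : 0 < d)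
        have hMK : ((K / d : ℕ) : ℝ) ≤ K / d := Nat.cast_div_le
        have hM0 : (0 : ℝ) < ((K / d : ℕ) : ℝ) := by exact_mod_cast (by omega : 0 < K / d)
        have hlogM : Real.log ((K / d : ℕ) : ℝ) ≤ Real.log K :=
          Real.log_le_log hM0 (by exact_mod_cast Nat.div_le_self K d)
        have hlogM0 : 0 ≤ Real.log ((K / d : ℕ) : ℝ) := Real.log_nonneg (by exact_mod_cast hM)
        calc ∑ m ∈ Icc 1 (K / d), (#(d * m).divisors : ℝ)
            ≤ ∑ m ∈ Icc 1 (K / d), (#d.divisors : ℝ) * (#m.divisors : ℝ) :=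
              sum_le_sum fun m _ => card_divisors_mul_le d m
          _ = (#d.divisors : ℝ) * ∑ m ∈ Icc 1 (K / d), (#m.divisors : ℝ) := by rw [mul_sum]
          _ ≤ (#d.divisors : ℝ) * (((K / d : ℕ) : ℝ) * (1 + Real.log ((K / d : ℕ) : ℝ))) :=
              mul_le_mul_of_nonneg_left (sum_card_divisors_le _) (Nat.cast_nonneg _)
          _ ≤ (#d.divisors : ℝ) * ((K / d : ℝ) * (1 + Real.log K)) := by
              refine mul_le_mul_of_nonneg_left ?_ (Nat.cast_nonneg _)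
              exact mul_le_mul hMK (by linarith) (by linarith) (by positivity)
          _ = (K * (1 + Real.log K)) * ((#d.divisors : ℝ) * (1 / (d : ℝ))) := by ring
    _ = (K * (1 + Real.log K)) * ∑ d ∈ Icc 1 K, (#d.divisors : ℝ) * (1 / (d : ℝ)) := by
        rw [mul_sum]
    _ ≤ (K * (1 + Real.log K)) * (1 + Real.log K) ^ 2 :=
        mul_le_mul_of_nonneg_left (sum_card_div_le K hK) (by positivity)
    _ = K * (1 + Real.log K) ^ 3 := by ring

theorem le_totient_mul (r : ℕ) : r ≤ r.totient * #r.divisors := by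
  rcases Nat.eq_zero_or_pos r with rfl | hr
  · simp
  calc r = ∑ d ∈ r.divisors, d.totient := (Nat.sum_totient r).symm
    _ ≤ ∑ _d ∈ r.divisors, r.totient := by
        refine sum_le_sum fun d hd => ?_
        exact Nat.le_of_dvd (Nat.totient_pos.mpr hr)
          (Nat.totient_dvd_of_dvd (Nat.dvd_of_mem_divisors hd))
    _ = r.totient * #r.divisors := by rw [sum_const, smul_eq_mul, mul_comm]

end T7

/-- (T7) mean values -/
theorem meanStmt : MeanStmt := by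
  refine ⟨T7.sum_card_sq_le, 1, one_pos, fun Q hQ => ?_⟩
  rw [one_mul]
  refine le_trans (sum_le_sum fun r hr => ?_) (T7.sum_card_div_le Q hQ)
  obtain ⟨h1, -⟩ := mem_Icc.mp hr
  have hr0 : (0 : ℝ) < r := by exact_mod_cast (by omega : 0 < r)
  have ht : (0 : ℝ) < r.totient := by exact_mod_cast Nat.totient_pos.mpr (by omega : 0 < r)
  have h2 : (r : ℝ) ≤ r.totient * #r.divisors := by exact_mod_cast T7.le_totient_mul r
  rw [mul_one_div, div_le_div_iff₀ ht hr0]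
  linarith

end Fermat.Agent.Cor.LS.BV
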