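import Fermat.Agent.Corollaries.LS.BVDefs
import Fermat.Agent.Corollaries.SiegelL.PNT
import Fermat.Agent.Corollaries.SiegelL.Progress

/-!
# The Bombieri - Vinogradov theorem: the main term, by the prime number theorem (T9)
-/

set_option autoImplicit false

open Finset

namespace Fermat.Agent.Cor.LS.BV

open Fermat.Agent.Cor.SiegelL in
/-- `Σ_{n ≤ N, (n, q) = 1} Λ(n) = N + O(N / (log N)^A + (1 + log q) (2 + 2 log N))` -/
theorem cop_le (A : ℕ) : ∃ C : ℝ, 0 < C ∧ ∀ N q : ℕ, 2 ≤ N → 1 ≤ q →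
    |cop La N q - N| ≤ C * N / Real.log N ^ A + (1 + Real.log q) * (2 + 2 * Real.log N) := by
  obtain ⟨C, hC, h⟩ := psi_sub_le A
  refine ⟨C, hC, fun N q hN hq => ?_⟩
  have : NeZero q := ⟨by omega⟩
  have hN2 : (2 : ℝ) ≤ N := by exact_mod_cast hN
  have hlN : 0 < Real.log N := Real.log_pos (by linarith)
  have hq1 : (1 : ℝ) ≤ q := by exact_mod_cast hq
  have hlq : 0 ≤ Real.log q := Real.log_nonneg hq1
  have h1 := h (N : ℝ) hN2
  rw [Nat.floor_natCast] at h1
  have h2 : ∑ n ∈ (Icc 1 N).filter (fun n : ℕ => ¬ n.Coprime q),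
      ArithmeticFunction.vonMangoldt n ≤ 2 * Real.log N * Real.log q :=
    sum_not_coprime_le (by omega)
  have h3 : 0 ≤ ∑ n ∈ (Icc 1 N).filter (fun n : ℕ => ¬ n.Coprime q),
      ArithmeticFunction.vonMangoldt n :=
    Finset.sum_nonneg fun n _ => ArithmeticFunction.vonMangoldt_nonneg
  have h4 : cop La N q = ((∑ n ∈ Icc 1 N, ArithmeticFunction.vonMangoldt n) - N) -
      (∑ n ∈ (Icc 1 N).filter (fun n : ℕ => ¬ n.Coprime q),
        ArithmeticFunction.vonMangoldt n) + N := by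
    rw [← Finset.sum_filter_add_sum_filter_not (Icc 1 N) (fun n : ℕ => n.Coprime q)
      (fun n => ArithmeticFunction.vonMangoldt n)]
    simp only [cop, La]
    ring
  rw [h4, add_sub_cancel_right]
  refine (abs_sub _ _).trans ?_
  rw [abs_of_nonneg h3]
  have e2 : 2 * Real.log N * Real.log q ≤ (1 + Real.log q) * (2 + 2 * Real.log N) := by nlinarith
  linarith

end Fermat.Agent.Cor.LS.BV
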