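import Fermat.Agent.Corollaries.LS.BVDefs

/-!
# (T8) The Bombieri - Vinogradov theorem: one block of the sum of type II
-/

set_option autoImplicit false

open Finset

namespace Fermat.Agent.Cor.LS.BV

theorem abs_al_le (U k : ℕ) : |al U k| ≤ #k.divisors := by
  rw [al]
  refine (abs_sum_le_sum_abs _ _).trans ?_
  have h1 : ∀ d ∈ k.divisors.filter (fun d => d ≤ U), |mu d| ≤ 1 := by
    intro d _
    rw [mu]
    have h := ArithmeticFunction.abs_moebius_le_one (n := d)
    exact_mod_cast h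
  refine (sum_le_sum h1).trans ?_
  rw [sum_const, nsmul_eq_mul, mul_one]
  exact_mod_cast card_le_card (filter_subset _ _)

theorem La_nonneg (n : ℕ) : 0 ≤ La n := ArithmeticFunction.vonMangoldt_nonneg

theorem La_le_log (n : ℕ) : La n ≤ Real.log n := ArithmeticFunction.vonMangoldt_le_log

/-- one block -/
theorem block (hC : CharStmt) (hP : PrimStmt) (hL : LargeStmt) (hS : SmallStmt) (hM : MeanStmt)
    (B : ℕ) : ∃ C : ℝ, 0 < C ∧ ∀ (N U V K L D Q : ℕ) (s : Finset ℕ) (a : (q : ℕ) → (ZMod q)ˣ),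
      2 ≤ V → V ≤ L → 1 ≤ D → 1 ≤ Q → 1 ≤ K → Q ≤ N → K ≤ N → L ≤ N → s ⊆ Icc 1 K →
      (∀ k ∈ s, ∀ l ∈ Ioc V L, k * l ≤ N) →
      ∑ q ∈ Icc 1 Q, |disc (conv s (Ioc V L) (al U) La) N q (a q)| ≤
        C * (1 + Real.log N) ^ 2 * (D * (K * (1 + Real.log N) ^ 3 *
          (D * L / Real.log V ^ B + (1 + Real.log N) ^ 2)) +
          (1 + Real.log N) * (Q + √K + √L + √(K * L) / D) *
            (√(K * L) * (1 + Real.log N) ^ 3)) := by
  classical
  obtain ⟨C1, hC1, hL'⟩ := hL
  obtain ⟨C2, hC2, hS'⟩ := hS B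
  obtain ⟨hM1, C3, hC3, hM2⟩ := hM
  refine ⟨C3 * (C1 + C2 + 2), by positivity, ?_⟩
  intro N U V K L D Q s a hV2 hVL hD hQ hK hQN hKN hLN hs hN
  set lam : ℝ := 1 + Real.log N with hlam
  have hN1 : 1 ≤ N := hK.trans hKN
  have hN1' : (1 : ℝ) ≤ N := by exact_mod_cast hN1
  have hlogN : 0 ≤ Real.log N := Real.log_nonneg hN1'
  have hlam1 : 1 ≤ lam := by linarith
  have hlog : ∀ n : ℕ, 1 ≤ n → n ≤ N → 1 + Real.log n ≤ lam := by
    intro n h1 h2
    have : Real.log n ≤ Real.log N := Real.log_le_log (by exact_mod_cast h1) (by exact_mod_cast h2)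
    linarith
  have hL1 : 1 ≤ L := by omega
  have hK1' : (1 : ℝ) ≤ K := by exact_mod_cast hK
  have hD1' : (1 : ℝ) ≤ D := by exact_mod_cast hD
  have hVlog : 0 < Real.log V := Real.log_pos (by exact_mod_cast (by omega : 1 < V))
  -- the sums of squares
  have hal : ∑ k ∈ s, al U k ^ 2 ≤ K * lam ^ 3 := by
    have h1 : ∑ k ∈ s, al U k ^ 2 ≤ ∑ k ∈ s, (#k.divisors : ℝ) ^ 2 := by
      refine sum_le_sum fun k _ => ?_
      rw [← sq_abs]
      exact pow_le_pow_left₀ (abs_nonneg _) (abs_al_le U k) 2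
    have h2 : ∑ k ∈ s, (#k.divisors : ℝ) ^ 2 ≤ ∑ k ∈ Icc 1 K, (#k.divisors : ℝ) ^ 2 :=
      sum_le_sum_of_subset_of_nonneg hs fun _ _ _ => sq_nonneg _
    refine (h1.trans h2).trans ((hM1 K hK).trans ?_)
    refine mul_le_mul_of_nonneg_left ?_ (Nat.cast_nonneg _)
    refine pow_le_pow_left₀ ?_ (hlog K hK hKN) 3
    have := Real.log_nonneg hK1'
    linarith
  have hal1 : ∑ k ∈ s, |al U k| ≤ K * lam ^ 3 := by
    have h1 : ∑ k ∈ s, |al U k| ≤ ∑ k ∈ s, (#k.divisors : ℝ) ^ 2 := by
      refine sum_le_sum fun k hk => (abs_al_le U k).trans ?_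
      have h3 : 1 ≤ k := (mem_Icc.mp (hs hk)).1
      have h4 : (1 : ℝ) ≤ #k.divisors := by
        exact_mod_cast card_pos.mpr ⟨1, Nat.one_mem_divisors.mpr (by omega)⟩
      nlinarith
    have h2 : ∑ k ∈ s, (#k.divisors : ℝ) ^ 2 ≤ ∑ k ∈ Icc 1 K, (#k.divisors : ℝ) ^ 2 :=
      sum_le_sum_of_subset_of_nonneg hs fun _ _ _ => sq_nonneg _
    refine (h1.trans h2).trans ((hM1 K hK).trans ?_)
    refine mul_le_mul_of_nonneg_left ?_ (Nat.cast_nonneg _)
    refine pow_le_pow_left₀ ?_ (hlog K hK hKN) 3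
    have := Real.log_nonneg hK1'
    linarith
  have hLa : ∑ l ∈ Ioc V L, La l ^ 2 ≤ L * lam ^ 2 := by
    have h1 : ∀ l ∈ Ioc V L, La l ^ 2 ≤ lam ^ 2 := by
      intro l hl
      have h2 := mem_Ioc.mp hl
      have h3 := hlog l (by omega) (by omega)
      exact pow_le_pow_left₀ (La_nonneg l) ((La_le_log l).trans (by linarith)) 2
    refine (sum_le_sum h1).trans ?_
    rw [sum_const, nsmul_eq_mul, Nat.card_Ioc]
    refine mul_le_mul_of_nonneg_right ?_ (sq_nonneg _)
    exact_mod_cast Nat.sub_le L V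
  -- the inner sums
  have hinner : ∀ r ∈ Icc 1 Q, ∑ d ∈ Icc 2 Q, (1 / (d.totient : ℝ)) *
      ∑ χ ∈ (univ : Finset (DirichletCharacter ℂ d)) with χ.IsPrimitive,
        ‖chs s (al U) r χ‖ * ‖chs (Ioc V L) La r χ‖ ≤
      (C1 + C2 + 2) * (D * (K * lam ^ 3 * (D * L / Real.log V ^ B + lam ^ 2)) +
          lam * (Q + √K + √L + √(K * L) / D) * (√(K * L) * lam ^ 3)) := by
    intro r hr
    have hr' := mem_Icc.mp hr
    have hsplit : Icc 2 Q ⊆ Icc 2 D ∪ Ioc D Q := by
      intro d hd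
      rw [mem_Icc] at hd
      rw [mem_union, mem_Icc, mem_Ioc]
      omega
    have hnn : ∀ d : ℕ, 0 ≤ (1 / (d.totient : ℝ)) *
        ∑ χ ∈ (univ : Finset (DirichletCharacter ℂ d)) with χ.IsPrimitive,
          ‖chs s (al U) r χ‖ * ‖chs (Ioc V L) La r χ‖ := fun d =>
      mul_nonneg (by positivity) (sum_nonneg fun _ _ => by positivity)
    have hdisj : Disjoint (Icc 2 D) (Ioc D Q) := by
      rw [disjoint_left]
      intro d hd hd'
      rw [mem_Icc] at hd
      rw [mem_Ioc] at hd'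
      omega
    refine (sum_le_sum_of_subset_of_nonneg hsplit fun d _ _ => hnn d).trans ?_
    rw [sum_union hdisj]
    have hsmall : ∑ d ∈ Icc 2 D, (1 / (d.totient : ℝ)) *
        ∑ χ ∈ (univ : Finset (DirichletCharacter ℂ d)) with χ.IsPrimitive,
          ‖chs s (al U) r χ‖ * ‖chs (Ioc V L) La r χ‖ ≤
        D * (K * lam ^ 3 * ((C2 + 2) * (D * L / Real.log V ^ B + lam ^ 2))) := by
      have h1 : ∀ d ∈ Icc 2 D, (1 / (d.totient : ℝ)) *
          ∑ χ ∈ (univ : Finset (DirichletCharacter ℂ d)) with χ.IsPrimitive,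
            ‖chs s (al U) r χ‖ * ‖chs (Ioc V L) La r χ‖ ≤
          K * lam ^ 3 * ((C2 + 2) * (D * L / Real.log V ^ B + lam ^ 2)) := by
        intro d hd
        have hd' := mem_Icc.mp hd
        have : NeZero d := ⟨by omega⟩
        have hφ : (0 : ℝ) < d.totient := by exact_mod_cast Nat.totient_pos.mpr (by omega)
        have hA : ∀ χ : DirichletCharacter ℂ d, ‖chs s (al U) r χ‖ ≤ K * lam ^ 3 := by
          intro χ
          refine le_trans ?_ hal1
          rw [chs]
          refine (norm_sum_le _ _).trans ?_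
          refine le_trans ?_ (sum_le_sum_of_subset_of_nonneg
            (filter_subset (fun k => k.Coprime r) s)
            fun _ _ _ => abs_nonneg _)
          refine sum_le_sum fun k _ => ?_
          rw [norm_mul, Complex.norm_real, Real.norm_eq_abs]
          exact mul_le_of_le_one_right (abs_nonneg _) (χ.norm_le_one _)
        have hBd : ∀ χ : DirichletCharacter ℂ d, χ.IsPrimitive →
            ‖chs (Ioc V L) La r χ‖ ≤ (C2 + 2) * (D * L / Real.log V ^ B + lam ^ 2) := by
          intro χ hχ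
          refine (hS' V L r d χ hV2 hVL hr'.1 hd'.1 hχ).trans ?_
          have h2 : C2 * d * L / Real.log V ^ B ≤ (C2 + 2) * (D * L / Real.log V ^ B) := by
            rw [mul_div_assoc, mul_div_assoc, mul_assoc]
            have h3 : (d : ℝ) ≤ D := by exact_mod_cast hd'.2
            have h4 : 0 ≤ (L : ℝ) / Real.log V ^ B := by positivity
            have h5 : (d : ℝ) * (L / Real.log V ^ B) ≤ D * (L / Real.log V ^ B) :=
              mul_le_mul_of_nonneg_right h3 h4
            have h6 : 0 ≤ (d : ℝ) * (L / Real.log V ^ B) := by positivity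
            exact mul_le_mul (by linarith) h5 h6 (by positivity)
          have h3 : (1 + Real.log r) * (2 + 2 * Real.log L) ≤ (C2 + 2) * lam ^ 2 := by
            have h4 := hlog r hr'.1 (hr'.2.trans hQN)
            have h5 := hlog L hL1 hLN
            have h6 : 0 ≤ Real.log L := Real.log_nonneg (by exact_mod_cast hL1)
            have h7 : (1 + Real.log r) * (2 + 2 * Real.log L) ≤ lam * (2 * lam) :=
              mul_le_mul h4 (by linarith) (by linarith) (by linarith)
            nlinarith [sq_nonneg lam]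
          calc _ ≤ _ := add_le_add h2 h3
            _ = _ := by ring
        have h2 : ∑ χ ∈ (univ : Finset (DirichletCharacter ℂ d)) with χ.IsPrimitive,
            ‖chs s (al U) r χ‖ * ‖chs (Ioc V L) La r χ‖ ≤
            d.totient * (K * lam ^ 3 * ((C2 + 2) * (D * L / Real.log V ^ B + lam ^ 2))) := by
          have h3 : ∀ χ ∈ (univ : Finset (DirichletCharacter ℂ d)).filter (fun χ => χ.IsPrimitive),
              ‖chs s (al U) r χ‖ * ‖chs (Ioc V L) La r χ‖ ≤
                K * lam ^ 3 * ((C2 + 2) * (D * L / Real.log V ^ B + lam ^ 2)) := by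
            intro χ hχ
            exact mul_le_mul (hA χ) (hBd χ (mem_filter.mp hχ).2) (norm_nonneg _) (by positivity)
          refine (sum_le_sum h3).trans ?_
          rw [sum_const, nsmul_eq_mul]
          refine mul_le_mul_of_nonneg_right ?_ (by positivity)
          have h4 : Fintype.card (DirichletCharacter ℂ d) = d.totient := by
            rw [← Nat.card_eq_fintype_card]
            exact DirichletCharacter.card_eq_totient_of_hasEnoughRootsOfUnity ℂ d
          rw [← h4]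
          exact_mod_cast Finset.card_le_univ
            ((univ : Finset (DirichletCharacter ℂ d)).filter fun χ => χ.IsPrimitive)
        rw [one_div, inv_mul_le_iff₀ hφ]
        exact h2
      refine (sum_le_sum h1).trans ?_
      rw [sum_const, nsmul_eq_mul, Nat.card_Icc]
      refine mul_le_mul_of_nonneg_right ?_ (by positivity)
      exact_mod_cast (by omega : D + 1 - 2 ≤ D)
    have hlarge : ∑ d ∈ Ioc D Q, (1 / (d.totient : ℝ)) *
        ∑ χ ∈ (univ : Finset (DirichletCharacter ℂ d)) with χ.IsPrimitive,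
          ‖chs s (al U) r χ‖ * ‖chs (Ioc V L) La r χ‖ ≤
        C1 * (lam * (Q + √K + √L + √(K * L) / D) * (√(K * L) * lam ^ 3)) := by
      rcases Nat.lt_or_ge Q D with hQD | hQD
      · rw [Ioc_eq_empty (by omega), sum_empty]
        positivity
      have ht : Ioc V L ⊆ Icc 1 L := fun l hl => by
        rw [mem_Ioc] at hl
        exact mem_Icc.mpr ⟨by omega, hl.2⟩
      refine (hL' D Q K L r s (Ioc V L) (al U) La hD hQD hs ht).trans ?_
      have h1 : √(∑ k ∈ s, al U k ^ 2) * √(∑ l ∈ Ioc V L, La l ^ 2) ≤ √(K * L) * lam ^ 3 := by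
        have h2 : √(∑ k ∈ s, al U k ^ 2) * √(∑ l ∈ Ioc V L, La l ^ 2) ≤
            √(K * lam ^ 3) * √(L * lam ^ 2) :=
          mul_le_mul (Real.sqrt_le_sqrt hal) (Real.sqrt_le_sqrt hLa) (Real.sqrt_nonneg _)
            (Real.sqrt_nonneg _)
        refine h2.trans ?_
        rw [← Real.sqrt_mul (by positivity)]
        have h3 : √((K * lam ^ 3) * (L * lam ^ 2)) ≤ √((K * L) * (lam ^ 3) ^ 2) := by
          refine Real.sqrt_le_sqrt ?_
          have h4 : (K * lam ^ 3) * (L * lam ^ 2) = (K * L) * lam ^ 5 := by ring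
          have h5 : (K * L) * (lam ^ 3) ^ 2 = ((K : ℝ) * L) * lam ^ 6 := by ring
          rw [h4, h5]
          exact mul_le_mul_of_nonneg_left (pow_le_pow_right₀ hlam1 (by norm_num)) (by positivity)
        refine h3.trans (le_of_eq ?_)
        rw [Real.sqrt_mul (by positivity), Real.sqrt_sq (by positivity)]
      have h2 := hlog Q hQ hQN
      have h3 : (0 : ℝ) ≤ Q + √K + √L + √(K * L) / D := by positivity
      calc C1 * (1 + Real.log Q) * (Q + √K + √L + √(K * L) / D) *
            (√(∑ k ∈ s, al U k ^ 2) * √(∑ l ∈ Ioc V L, La l ^ 2))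
          ≤ C1 * lam * (Q + √K + √L + √(K * L) / D) * (√(K * L) * lam ^ 3) := by
            refine mul_le_mul ?_ h1 (by positivity) (by positivity)
            exact mul_le_mul_of_nonneg_right (mul_le_mul_of_nonneg_left h2 hC1.le) h3
        _ = _ := by ring
    refine (add_le_add hsmall hlarge).trans ?_
    have hX : 0 ≤ D * (K * lam ^ 3 * (D * L / Real.log V ^ B + lam ^ 2)) := by positivity
    have hY : 0 ≤ lam * (Q + √K + √L + √(K * L) / D) * (√(K * L) * lam ^ 3) := by positivity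
    nlinarith [mul_nonneg hC1.le hX, mul_nonneg hC2.le hY]
  -- the sum over q
  have h1 : ∀ q ∈ Icc 1 Q, |disc (conv s (Ioc V L) (al U) La) N q (a q)| ≤
      (1 / (q.totient : ℝ)) * ∑ χ ∈ (univ : Finset (DirichletCharacter ℂ q)).erase 1,
        ‖chs s (al U) 1 χ‖ * ‖chs (Ioc V L) La 1 χ‖ := by
    intro q hq
    have hq' := mem_Icc.mp hq
    have : NeZero q := ⟨by omega⟩
    have h2 := hC N q s (Ioc V L) (al U) La (a q) fun k hk l hl =>
      ⟨(mem_Icc.mp (hs hk)).1, by have := mem_Ioc.mp hl; omega, hN k hk l hl⟩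
    convert h2
  refine (sum_le_sum h1).trans ?_
  have h2 := hP Q s (Ioc V L) (al U) La
  refine (le_of_eq ?_).trans (h2.trans ?_)
  · congr!
  set Z := D * (K * lam ^ 3 * (D * L / Real.log V ^ B + lam ^ 2)) +
          lam * (Q + √K + √L + √(K * L) / D) * (√(K * L) * lam ^ 3) with hZ
  have hZ0 : 0 ≤ Z := by positivity
  have h3 : ∀ r ∈ Icc 1 Q, (1 / (r.totient : ℝ)) * ∑ d ∈ Icc 2 Q, (1 / (d.totient : ℝ)) *
      ∑ χ ∈ (univ : Finset (DirichletCharacter ℂ d)) with χ.IsPrimitive,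
        ‖chs s (al U) r χ‖ * ‖chs (Ioc V L) La r χ‖ ≤
      (1 / (r.totient : ℝ)) * ((C1 + C2 + 2) * Z) := fun r hr =>
    mul_le_mul_of_nonneg_left (hinner r hr) (by positivity)
  refine (sum_le_sum h3).trans ?_
  rw [← sum_mul]
  have h4 := hM2 Q hQ
  have h5 : (1 + Real.log Q) ^ 2 ≤ lam ^ 2 := by
    refine pow_le_pow_left₀ ?_ (hlog Q hQ hQN) 2
    have : 0 ≤ Real.log Q := Real.log_nonneg (by exact_mod_cast hQ)
    linarith
  calc (∑ r ∈ Icc 1 Q, 1 / (r.totient : ℝ)) * ((C1 + C2 + 2) * Z)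
      ≤ (C3 * lam ^ 2) * ((C1 + C2 + 2) * Z) :=
        mul_le_mul_of_nonneg_right (h4.trans (mul_le_mul_of_nonneg_left h5 hC3.le)) (by positivity)
    _ = _ := by ring

end Fermat.Agent.Cor.LS.BV
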