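import Mathlib

/-!
# The Bombieri - Vinogradov theorem: the statements of the parts of the proof
-/

set_option autoImplicit false

open Finset

namespace Fermat.Agent.Cor.LS.BV

/-- `Σ_{n ≤ N, n ≡ a mod q} f(n)` -/
noncomputable def ap (f : ℕ → ℝ) (N q : ℕ) (a : ZMod q) : ℝ :=
  ∑ n ∈ (Icc 1 N).filter (fun n : ℕ => (n : ZMod q) = a), f n

/-- `Σ_{n ≤ N, (n, q) = 1} f(n)` -/
noncomputable def cop (f : ℕ → ℝ) (N q : ℕ) : ℝ :=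
  ∑ n ∈ (Icc 1 N).filter (fun n : ℕ => n.Coprime q), f n

/-- the discrepancy of `f` in the class of `a` modulo `q` -/
noncomputable def disc (f : ℕ → ℝ) (N q : ℕ) (a : ZMod q) : ℝ :=
  ap f N q a - cop f N q / q.totient

/-- the convolution of `α` on `s` and `β` on `t` -/
noncomputable def conv (s t : Finset ℕ) (α β : ℕ → ℝ) (n : ℕ) : ℝ :=
  ∑ p ∈ n.divisorsAntidiagonal.filter (fun p => p.1 ∈ s ∧ p.2 ∈ t), α p.1 * β p.2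

/-- the Möbius function with real values -/
noncomputable def mu (n : ℕ) : ℝ := (ArithmeticFunction.moebius n : ℝ)

/-- von Mangoldt's function -/
noncomputable def La (n : ℕ) : ℝ := ArithmeticFunction.vonMangoldt n

/-- `Σ_{d ∣ k, d ≤ U} μ(d)` -/
noncomputable def al (U k : ℕ) : ℝ := ∑ d ∈ k.divisors.filter (fun d => d ≤ U), mu d

/-- `Σ_{d l = m, d ≤ U, l ≤ V} μ(d) Λ(l)` -/
noncomputable def cc (U V m : ℕ) : ℝ := conv (Icc 1 U) (Icc 1 V) mu La m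

/-- `Σ_{k ∈ s, (k, r) = 1} α(k) χ(k)` -/
noncomputable def chs (s : Finset ℕ) (α : ℕ → ℝ) (r : ℕ) {q : ℕ} (χ : DirichletCharacter ℂ q) : ℂ :=
  ∑ k ∈ s.filter (fun k => k.Coprime r), (α k : ℂ) * χ k

/-- (T0) Vaughan's identity -/
def VaughanStmt : Prop := ∀ U V N n : ℕ, 1 ≤ U → 1 ≤ V → 1 ≤ n → n ≤ N →
  La n = (if n ≤ V then La n else 0) + conv (Icc 1 U) (Icc 1 N) mu (fun l => Real.log l) n -
    conv (Icc 1 (U * V)) (Icc 1 N) (cc U V) (fun _ => 1) n -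
      conv (Ioc U N) (Ioc V N) (al U) La n

/-- (T1) sums of type I -/
def TypeIStmt : Prop := ∀ (M N q : ℕ) [NeZero q] (c : ℕ → ℝ) (a : (ZMod q)ˣ), 1 ≤ N →
  |disc (conv (Icc 1 M) (Icc 1 N) c (fun _ => 1)) N q a| ≤ ∑ m ∈ Icc 1 M, |c m| ∧
  |disc (conv (Icc 1 M) (Icc 1 N) c (fun l => Real.log l)) N q a| ≤
    (∑ m ∈ Icc 1 M, |c m|) * Real.log N

/-- (T2) the divisor function in short progressions -/
def ShortStmt : Prop := ∀ (N' N q : ℕ) [NeZero q] (a : (ZMod q)ˣ), N' ≤ N → 1 ≤ N →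
  ∑ n ∈ (Ioc N' N).filter (fun n : ℕ => (n : ZMod q) = a), (#n.divisors : ℝ) ≤
    2 * (((N : ℝ) - N') / q * (1 + Real.log N) + √N)

/-- (T3) a convolution in progressions by characters -/
def CharStmt : Prop := ∀ (N q : ℕ) [NeZero q] (s t : Finset ℕ) (α β : ℕ → ℝ) (a : (ZMod q)ˣ),
  (∀ k ∈ s, ∀ l ∈ t, 1 ≤ k ∧ 1 ≤ l ∧ k * l ≤ N) →
    |disc (conv s t α β) N q a| ≤ (1 / (q.totient : ℝ)) *
      ∑ χ ∈ (univ : Finset (DirichletCharacter ℂ q)).erase 1, ‖chs s α 1 χ‖ * ‖chs t β 1 χ‖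

open Classical in
/-- (T4) reduction to primitive characters -/
def PrimStmt : Prop := ∀ (Q : ℕ) (s t : Finset ℕ) (α β : ℕ → ℝ),
  ∑ q ∈ Icc 1 Q, (1 / (q.totient : ℝ)) *
      ∑ χ ∈ (univ : Finset (DirichletCharacter ℂ q)).erase 1, ‖chs s α 1 χ‖ * ‖chs t β 1 χ‖ ≤
    ∑ r ∈ Icc 1 Q, (1 / (r.totient : ℝ)) * ∑ d ∈ Icc 2 Q, (1 / (d.totient : ℝ)) *
      ∑ χ ∈ (univ : Finset (DirichletCharacter ℂ d)) with χ.IsPrimitive,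
        ‖chs s α r χ‖ * ‖chs t β r χ‖

open Classical in
/-- (T5) the large moduli, by the large sieve -/
def LargeStmt : Prop := ∃ C : ℝ, 0 < C ∧ ∀ (D Q K L r : ℕ) (s t : Finset ℕ) (α β : ℕ → ℝ),
  1 ≤ D → D ≤ Q → s ⊆ Icc 1 K → t ⊆ Icc 1 L →
    ∑ d ∈ Ioc D Q, (1 / (d.totient : ℝ)) *
        ∑ χ ∈ (univ : Finset (DirichletCharacter ℂ d)) with χ.IsPrimitive,
          ‖chs s α r χ‖ * ‖chs t β r χ‖ ≤
      C * (1 + Real.log Q) * (Q + √K + √L + √(K * L) / D) *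
        (√(∑ k ∈ s, α k ^ 2) * √(∑ l ∈ t, β l ^ 2))

/-- (T6) the small moduli, by the Siegel - Walfisz theorem -/
def SmallStmt : Prop := ∀ B : ℕ, ∃ C : ℝ, 0 < C ∧ ∀ (V L r d : ℕ) (χ : DirichletCharacter ℂ d),
  2 ≤ V → V ≤ L → 1 ≤ r → 2 ≤ d → χ.IsPrimitive →
    ‖chs (Ioc V L) La r χ‖ ≤ C * d * L / Real.log V ^ B + (1 + Real.log r) * (2 + 2 * Real.log L)

/-- (T7) mean values -/
def MeanStmt : Prop := (∀ K : ℕ, 1 ≤ K →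
    ∑ k ∈ Icc 1 K, (#k.divisors : ℝ) ^ 2 ≤ K * (1 + Real.log K) ^ 3) ∧
  (∃ C : ℝ, 0 < C ∧ ∀ Q : ℕ, 1 ≤ Q →
    ∑ r ∈ Icc 1 Q, 1 / (r.totient : ℝ) ≤ C * (1 + Real.log Q) ^ 2)

/-- **The theorem of Bombieri and Vinogradov** -/
def BVStmt : Prop := ∀ A : ℕ, ∃ (B : ℕ) (C : ℝ), ∀ N : ℕ, 2 ≤ N → ∀ Q : ℕ,
  (Q : ℝ) ≤ √N / Real.log N ^ B → ∀ a : (q : ℕ) → (ZMod q)ˣ,
    ∑ q ∈ Icc 1 Q, |ap La N q (a q) - N / q.totient| ≤ C * N / Real.log N ^ A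

end Fermat.Agent.Cor.LS.BV
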