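import Fermat.Agent.Corollaries.LS.BVRaw

/-!
# (T8) The Bombieri - Vinogradov theorem: the choice of the parameters
-/

set_option autoImplicit false

open Finset Filter

namespace Fermat.Agent.Cor.LS.BV

theorem large_eventually (M : ℕ) : ∀ᶠ N : ℕ in atTop,
    (6 : ℝ) ≤ Real.log N ∧ (1 + Real.log N) ^ M ≤ (N : ℝ) / 16 := by
  have h1 : Tendsto (fun N : ℕ => Real.log (N : ℝ)) atTop atTop :=
    Real.tendsto_log_atTop.comp tendsto_natCast_atTop_atTop
  have h2 : ∀ᶠ N : ℕ in atTop, (6 : ℝ) ≤ Real.log N := h1.eventually_ge_atTop 6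
  have h3 := (Real.isLittleO_pow_log_id_atTop (n := M)).bound
    (show (0 : ℝ) < 1 / (16 * 2 ^ M) by positivity)
  have h4 := (tendsto_natCast_atTop_atTop (R := ℝ)).eventually h3
  filter_upwards [h2, h4] with N h5 h6
  refine ⟨h5, ?_⟩
  have h7 : (1 + Real.log N) ^ M ≤ (2 * Real.log N) ^ M :=
    pow_le_pow_left₀ (by linarith) (by linarith) M
  have h8 : Real.log N ^ M ≤ 1 / (16 * 2 ^ M) * N := by
    have := h6
    simp only [id_eq, Real.norm_eq_abs] at this
    rw [abs_of_nonneg (by positivity : (0 : ℝ) ≤ Real.log N ^ M),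
      abs_of_nonneg (Nat.cast_nonneg N)] at this
    exact this
  calc (1 + Real.log N) ^ M ≤ (2 * Real.log N) ^ M := h7
    _ = 2 ^ M * Real.log N ^ M := mul_pow _ _ _
    _ ≤ 2 ^ M * (1 / (16 * 2 ^ M) * N) := mul_le_mul_of_nonneg_left h8 (by positivity)
    _ = N / 16 := by field_simp

theorem quarter {N : ℕ} {M : ℕ} {lam : ℝ} (hlam : 7 ≤ lam) (hN : lam ^ (4 * M) ≤ (N : ℝ) / 16) :
    ((Nat.sqrt (Nat.sqrt N) : ℕ) : ℝ) ^ 2 ≤ √N ∧ lam ^ M ≤ (Nat.sqrt (Nat.sqrt N) : ℕ) ∧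
      (N : ℝ) ≤ 16 * ((Nat.sqrt (Nat.sqrt N) : ℕ) : ℝ) ^ 4 := by
  set V := Nat.sqrt (Nat.sqrt N) with hV
  have h0 : (0 : ℝ) < lam ^ (4 * M) := by positivity
  have hN1 : (1 : ℝ) ≤ N := by
    have : (1 : ℝ) ≤ lam ^ (4 * M) := one_le_pow₀ (by linarith)
    linarith
  have hN1' : 1 ≤ N := by exact_mod_cast hN1
  have hV1 : 1 ≤ V := by
    rw [hV, Nat.le_sqrt, Nat.le_sqrt]
    omega
  have h1 : ((V : ℕ) : ℝ) ^ 2 ≤ √N := by
    have h2 : V * V ≤ Nat.sqrt N := Nat.sqrt_le _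
    have h3 : ((Nat.sqrt N : ℕ) : ℝ) ≤ √N := Real.nat_sqrt_le_real_sqrt
    calc ((V : ℕ) : ℝ) ^ 2 = ((V * V : ℕ) : ℝ) := by push_cast; ring
      _ ≤ ((Nat.sqrt N : ℕ) : ℝ) := by exact_mod_cast h2
      _ ≤ _ := h3
  have h4 : (N : ℝ) ≤ 16 * ((V : ℕ) : ℝ) ^ 4 := by
    have h5 : Nat.sqrt N < (V + 1) * (V + 1) := Nat.lt_succ_sqrt _
    have h6 : N < (Nat.sqrt N + 1) * (Nat.sqrt N + 1) := Nat.lt_succ_sqrt _
    have h7 : N ≤ (2 * V) ^ 4 := by
      have h8 : Nat.sqrt N + 1 ≤ (V + 1) * (V + 1) := h5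
      have h9 : (Nat.sqrt N + 1) * (Nat.sqrt N + 1) ≤ ((V + 1) * (V + 1)) * ((V + 1) * (V + 1)) :=
        Nat.mul_le_mul h8 h8
      have h10 : ((V + 1) * (V + 1)) * ((V + 1) * (V + 1)) = (V + 1) ^ 4 := by ring
      have h11 : (V + 1) ^ 4 ≤ (2 * V) ^ 4 := Nat.pow_le_pow_left (by omega) 4
      omega
    calc (N : ℝ) ≤ (((2 * V) ^ 4 : ℕ) : ℝ) := by exact_mod_cast h7
      _ = _ := by push_cast; ring
  refine ⟨h1, ?_, h4⟩
  have h5 : (lam ^ M) ^ 4 ≤ ((V : ℕ) : ℝ) ^ 4 := by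
    rw [← pow_mul, mul_comm M 4]
    linarith
  exact le_of_pow_le_pow_left₀ (by norm_num) (Nat.cast_nonneg _) h5

theorem gen5 (X a b c u v w z : ℝ) : X * (a * (b + c) + u * (v + w + z)) =
    X * (a * b) + X * (a * c) + X * (u * v) + X * (u * w) + X * (u * z) := by
  ring

theorem gen6 (e l c W : ℝ) : e * l * (c * W) = e * l * c * W := by
  ring

set_option maxHeartbeats 4000000 in
theorem bvStmt_of (h0 : VaughanStmt) (h1 : TypeIStmt) (h2 : ShortStmt) (h3 : CharStmt)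
    (h4 : PrimStmt) (h5 : LargeStmt) (h6 : SmallStmt) (h7 : MeanStmt)
    (h9 : ∀ A : ℕ, ∃ C : ℝ, 0 < C ∧ ∀ N q : ℕ, 2 ≤ N → 1 ≤ q →
      |cop La N q - N| ≤ C * N / Real.log N ^ A + (1 + Real.log q) * (2 + 2 * Real.log N)) :
    BVStmt := by
  intro A
  set B := 2 * A + 10 with hB
  obtain ⟨C1, hC1, hraw⟩ := raw h0 h1 h2 h3 h4 h5 h6 h7 (6 * A + 29)
  obtain ⟨C2, hC2, hcop⟩ := h9 (A + 2)
  obtain ⟨_, C3, hC3, hphi⟩ := h7
  obtain ⟨N0, hN0⟩ := eventually_atTop.mp (large_eventually (4 * (4 * A + 21)))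
  set M0 : ℝ := (√N0 / Real.log 2 ^ B) * (N0 * Real.log N0 + N0) with hM0
  set Cb : ℝ := 4 * 2 ^ B + (4 + 4 + 4 * 2 ^ B) + (8 * C1 * 16 ^ (6 * A + 29) + 4 * C1 +
    2 * C1 * 2 ^ B + 4 * C1 + 2 * C1) + (4 * C3 * C2 + 2 * C3) with hCb
  have hCb0 : 0 ≤ Cb := by positivity
  have hlog2 : 0 < Real.log 2 := Real.log_pos (by norm_num)
  have hM00 : 0 ≤ M0 := by
    have : 0 ≤ Real.log N0 := Real.log_natCast_nonneg N0
    positivity
  refine ⟨B, Cb + M0 * Real.log N0 ^ A, ?_⟩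
  intro N hN2 Q hQ a
  have hN2' : (2 : ℝ) ≤ N := by exact_mod_cast hN2
  have hl0 : 0 < Real.log N := Real.log_pos (by linarith)
  have hN0' : (0 : ℝ) < N := by linarith
  have hlogN0 : 0 ≤ Real.log N0 := Real.log_natCast_nonneg N0
  rcases Nat.lt_or_ge N N0 with hNN | hNN
  · -- small N
    have hNN' : (N : ℝ) ≤ N0 := by exact_mod_cast hNN.le
    have hll : Real.log N ≤ Real.log N0 := Real.log_le_log hN0' hNN'
    have h8 : ∀ q ∈ Icc 1 Q, |ap La N q (a q) - N / q.totient| ≤ N0 * Real.log N0 + N0 := by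
      intro q hq
      have hq1 := (mem_Icc.mp hq).1
      refine (abs_sub _ _).trans (add_le_add ?_ ?_)
      · rw [ap]
        refine (abs_sum_le_sum_abs _ _).trans ((sum_le_sum_of_subset_of_nonneg
          (filter_subset _ _) fun _ _ _ => abs_nonneg _).trans ?_)
        have h10 : ∀ n ∈ Icc 1 N, |La n| ≤ Real.log N0 := by
          intro n hn
          rw [mem_Icc] at hn
          rw [abs_of_nonneg (La_nonneg n)]
          refine (La_le_log n).trans ((Real.log_le_log (by exact_mod_cast hn.1) ?_).trans hll)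
          exact_mod_cast hn.2
        refine (sum_le_sum h10).trans ?_
        rw [sum_const, nsmul_eq_mul, Nat.card_Icc, Nat.add_sub_cancel]
        exact mul_le_mul_of_nonneg_right hNN' hlogN0
      · rw [abs_of_nonneg (by positivity)]
        refine (div_le_self hN0'.le ?_).trans hNN'
        exact_mod_cast Nat.totient_pos.mpr hq1
    refine (sum_le_sum h8).trans ?_
    rw [sum_const, nsmul_eq_mul, Nat.card_Icc, Nat.add_sub_cancel]
    have h10 : (Q : ℝ) ≤ √N0 / Real.log 2 ^ B := by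
      refine hQ.trans ?_
      refine div_le_div₀ (Real.sqrt_nonneg _) (Real.sqrt_le_sqrt hNN') (by positivity) ?_
      exact pow_le_pow_left₀ hlog2.le (Real.log_le_log (by norm_num) hN2') B
    have h11 : (Q : ℝ) * (N0 * Real.log N0 + N0) ≤ M0 :=
      mul_le_mul_of_nonneg_right h10 (by positivity)
    refine h11.trans ?_
    rw [le_div_iff₀ (by positivity)]
    have h12 : Real.log N ^ A ≤ Real.log N0 ^ A := pow_le_pow_left₀ hl0.le hll A
    calc M0 * Real.log N ^ A ≤ M0 * Real.log N0 ^ A := mul_le_mul_of_nonneg_left h12 hM00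
      _ ≤ (M0 * Real.log N0 ^ A) * N := le_mul_of_one_le_right (by positivity) (by linarith)
      _ ≤ (Cb + M0 * Real.log N0 ^ A) * N :=
          mul_le_mul_of_nonneg_right (by linarith) hN0'.le
  -- large N
  obtain ⟨hl6, hpow⟩ := hN0 N hNN
  rcases Nat.eq_zero_or_pos Q with hQ0 | hQ0
  · subst hQ0
    rw [Icc_eq_empty (by norm_num), sum_empty]
    positivity
  have hQ1 : 1 ≤ Q := hQ0
  set lam : ℝ := 1 + Real.log N with hlam
  have hlam7 : 7 ≤ lam := by linarith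
  have hlam0 : 0 < lam := by linarith
  have hlam1 : 1 ≤ lam := by linarith
  have hlaml : lam ≤ 2 * Real.log N := by linarith
  obtain ⟨hV2, hVlam, hV4⟩ := quarter (N := N) (M := 4 * A + 21) hlam7 hpow
  set V := Nat.sqrt (Nat.sqrt N) with hV
  have hVge : (7 : ℝ) ≤ V := by
    refine le_trans ?_ hVlam
    calc (7 : ℝ) ≤ lam := hlam7
      _ = lam ^ 1 := (pow_one _).symm
      _ ≤ lam ^ (4 * A + 21) := pow_le_pow_right₀ hlam1 (by omega)
  have hV0 : (0 : ℝ) < V := by linarith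
  have hVnat : 2 ≤ V := by
    have : (2 : ℝ) ≤ V := by linarith
    exact_mod_cast this
  have hVV : V * V ≤ N := (Nat.sqrt_le _).trans (Nat.sqrt_le_self N)
  set s : ℝ := √N with hs
  have hs0 : 0 < s := Real.sqrt_pos.mpr hN0'
  have hss : s * s = N := Real.mul_self_sqrt hN0'.le
  have hlogV : lam / 16 ≤ Real.log V := by
    have h10 : Real.log N ≤ Real.log (16 * (V : ℝ) ^ 4) := Real.log_le_log hN0' hV4
    rw [Real.log_mul (by norm_num) (by positivity), Real.log_pow] at h10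
    have h11 : Real.log 16 ≤ 3 := by
      have h12 : (16 : ℝ) = 2 ^ 4 := by norm_num
      rw [h12, Real.log_pow]
      have := Real.log_two_lt_d9
      push_cast
      linarith
    push_cast at h10
    linarith
  have hlogV0 : 0 < Real.log V := by
    have : 0 < lam / 16 := by positivity
    linarith
  -- the parameters
  set E := ⌈lam ^ (A + 3)⌉₊ with hE
  set D := ⌈lam ^ (2 * A + 10)⌉₊ with hD
  have hceil : ∀ k : ℕ, lam ^ k ≤ (⌈lam ^ k⌉₊ : ℝ) ∧ ((⌈lam ^ k⌉₊ : ℕ) : ℝ) ≤ 2 * lam ^ k ∧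
      1 ≤ ⌈lam ^ k⌉₊ := by
    intro k
    have h10 : (1 : ℝ) ≤ lam ^ k := one_le_pow₀ hlam1
    have h11 := Nat.ceil_lt_add_one (a := lam ^ k) (by positivity)
    refine ⟨Nat.le_ceil _, by linarith, Nat.one_le_ceil_iff.mpr (by linarith)⟩
  obtain ⟨hE1, hE2, hE3⟩ := hceil (A + 3)
  obtain ⟨hD1, hD2, hD3⟩ := hceil (2 * A + 10)
  rw [← hE] at hE1 hE2 hE3
  rw [← hD] at hD1 hD2 hD3
  have hE0 : (0 : ℝ) < E := by exact_mod_cast hE3
  have hD0 : (0 : ℝ) < D := by exact_mod_cast hD3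
  have hsN : s ≤ N := by
    rw [← hss]
    have : (1 : ℝ) ≤ s := by
      rw [hs]
      exact Real.one_le_sqrt.mpr (by linarith)
    nlinarith
  have hQN : Q ≤ N := by
    have h10 : (Q : ℝ) ≤ N := by
      refine hQ.trans ((div_le_self hs0.le (one_le_pow₀ (by linarith))).trans hsN)
    exact_mod_cast h10
  have hQlam : (Q : ℝ) * lam ^ B ≤ 2 ^ B * s := by
    have h10 : (Q : ℝ) * Real.log N ^ B ≤ s := by
      rwa [le_div_iff₀ (by positivity)] at hQ
    calc (Q : ℝ) * lam ^ B ≤ Q * (2 * Real.log N) ^ B :=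
          mul_le_mul_of_nonneg_left (pow_le_pow_left₀ hlam0.le hlaml B) (Nat.cast_nonneg _)
      _ = 2 ^ B * (Q * Real.log N ^ B) := by rw [mul_pow]; ring
      _ ≤ _ := mul_le_mul_of_nonneg_left h10 (by positivity)
  have hpowN : ∀ k : ℕ, k ≤ 4 * (4 * A + 21) → lam ^ k ≤ N := by
    intro k hk
    have := pow_le_pow_right₀ hlam1 hk
    linarith
  have hQk : ∀ k : ℕ, k ≤ B → (Q : ℝ) * lam ^ k ≤ 2 ^ B * s := by
    intro k hk
    exact (mul_le_mul_of_nonneg_left (pow_le_pow_right₀ hlam1 hk) (Nat.cast_nonneg _)).trans hQlam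
  set T : ℝ := N / lam ^ A with hT
  have hTle : T ≤ N / Real.log N ^ A := by
    refine div_le_div_of_nonneg_left hN0'.le (by positivity) ?_
    exact pow_le_pow_left₀ hl0.le (by linarith) A
  have hT0 : 0 < T := by positivity
  have hlamA : 0 < lam ^ A := by positivity
  -- term 1
  have t1 : 4 * Q * (V : ℝ) ^ 2 * lam ≤ 4 * 2 ^ B * T := by
    rw [hT, ← mul_div_assoc, le_div_iff₀ hlamA]
    calc 4 * Q * (V : ℝ) ^ 2 * lam * lam ^ A = 4 * ((Q : ℝ) * lam ^ (A + 1)) * (V : ℝ) ^ 2 := by ring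
      _ ≤ 4 * (2 ^ B * s) * s := by
          refine mul_le_mul (mul_le_mul_of_nonneg_left (hQk _ (by omega)) (by norm_num)) hV2
            (by positivity) (by positivity)
      _ = 4 * 2 ^ B * N := by rw [← hss]; ring
  -- term 2
  have t2 : 4 * lam * ((N / E + 1) * lam ^ 2 + Q * s) ≤ (4 + 4 + 4 * 2 ^ B) * T := by
    have u1 : 4 * lam ^ 3 * (N / E) ≤ 4 * T := by
      rw [hT, ← mul_div_assoc 4, le_div_iff₀ hlamA, ← mul_div_assoc, div_mul_eq_mul_div,
        div_le_iff₀ hE0]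
      calc 4 * lam ^ 3 * N * lam ^ A = 4 * N * lam ^ (A + 3) := by ring
        _ ≤ 4 * N * E := mul_le_mul_of_nonneg_left hE1 (by positivity)
    have u2 : 4 * lam ^ 3 ≤ 4 * T := by
      rw [hT, ← mul_div_assoc 4, le_div_iff₀ hlamA]
      calc 4 * lam ^ 3 * lam ^ A = 4 * lam ^ (A + 3) := by ring
        _ ≤ 4 * N := mul_le_mul_of_nonneg_left (hpowN _ (by omega)) (by norm_num)
    have u3 : 4 * lam * (Q * s) ≤ 4 * 2 ^ B * T := by
      rw [hT, ← mul_div_assoc, le_div_iff₀ hlamA]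
      calc 4 * lam * (Q * s) * lam ^ A = 4 * ((Q : ℝ) * lam ^ (A + 1)) * s := by ring
        _ ≤ 4 * (2 ^ B * s) * s := by
            refine mul_le_mul_of_nonneg_right (mul_le_mul_of_nonneg_left (hQk _ (by omega))
              (by norm_num)) hs0.le
        _ = 4 * 2 ^ B * N := by rw [← hss]; ring
    calc 4 * lam * ((N / E + 1) * lam ^ 2 + Q * s) =
          4 * lam ^ 3 * (N / E) + 4 * lam ^ 3 + 4 * lam * (Q * s) := by ring
      _ ≤ 4 * T + 4 * T + 4 * 2 ^ B * T := add_le_add (add_le_add u1 u2) u3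
      _ = _ := by ring
  -- term 3
  have hEl : (E : ℝ) * lam * (C1 * lam ^ 2) ≤ 2 * C1 * lam ^ (A + 6) := by
    calc (E : ℝ) * lam * (C1 * lam ^ 2) ≤ (2 * lam ^ (A + 3)) * lam * (C1 * lam ^ 2) := by
          refine mul_le_mul_of_nonneg_right (mul_le_mul_of_nonneg_right hE2 hlam0.le)
            (by positivity)
      _ = _ := by ring
  have t3a : 2 * C1 * lam ^ (A + 6) * (D * (D * N * lam ^ 3 / Real.log V ^ (6 * A + 29))) ≤
      8 * C1 * 16 ^ (6 * A + 29) * T := by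
    have h10 : (lam / 16) ^ (6 * A + 29) ≤ Real.log V ^ (6 * A + 29) :=
      pow_le_pow_left₀ (by positivity) hlogV _
    have h11 : 0 < (lam / 16) ^ (6 * A + 29) := by positivity
    calc 2 * C1 * lam ^ (A + 6) * (D * (D * N * lam ^ 3 / Real.log V ^ (6 * A + 29)))
        ≤ 2 * C1 * lam ^ (A + 6) * ((2 * lam ^ (2 * A + 10)) *
            ((2 * lam ^ (2 * A + 10)) * N * lam ^ 3 / (lam / 16) ^ (6 * A + 29))) := by
          refine mul_le_mul_of_nonneg_left ?_ (by positivity)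
          refine mul_le_mul hD2 ?_ (by positivity) (by positivity)
          refine div_le_div₀ (by positivity) ?_ h11 h10
          exact mul_le_mul_of_nonneg_right (mul_le_mul_of_nonneg_right hD2 hN0'.le) (by positivity)
      _ = 8 * C1 * 16 ^ (6 * A + 29) * T := by
          rw [hT, div_pow]
          have e1 : lam ^ (6 * A + 29) = lam ^ (5 * A + 29) * lam ^ A := by ring
          rw [e1]
          field_simp
          ring
  have t3b : 2 * C1 * lam ^ (A + 6) * (D * (N / V * lam ^ 5)) ≤ 4 * C1 * T := by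
    calc 2 * C1 * lam ^ (A + 6) * (D * (N / V * lam ^ 5))
        ≤ 2 * C1 * lam ^ (A + 6) * ((2 * lam ^ (2 * A + 10)) *
            (N / lam ^ (4 * A + 21) * lam ^ 5)) := by
          refine mul_le_mul_of_nonneg_left ?_ (by positivity)
          refine mul_le_mul hD2 ?_ (by positivity) (by positivity)
          refine mul_le_mul_of_nonneg_right ?_ (by positivity)
          exact div_le_div_of_nonneg_left hN0'.le (by positivity) hVlam
      _ = 4 * C1 * T := by
          rw [hT]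
          have e1 : lam ^ (4 * A + 21) = lam ^ (3 * A + 21) * lam ^ A := by ring
          rw [e1]
          field_simp
          ring
  have t3c : 2 * C1 * lam ^ (A + 6) * (lam ^ 4 * s * Q) ≤ 2 * C1 * 2 ^ B * T := by
    rw [hT, ← mul_div_assoc, le_div_iff₀ hlamA]
    calc 2 * C1 * lam ^ (A + 6) * (lam ^ 4 * s * Q) * lam ^ A =
          2 * C1 * s * ((Q : ℝ) * lam ^ (2 * A + 10)) := by ring
      _ ≤ 2 * C1 * s * (2 ^ B * s) := mul_le_mul_of_nonneg_left (hQk _ (by omega)) (by positivity)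
      _ = _ := by rw [← hss]; ring
  have t3d : 2 * C1 * lam ^ (A + 6) * (lam ^ 4 * s * (2 * √(N / V))) ≤ 4 * C1 * T := by
    have h10 : √((N : ℝ) / V) * lam ^ (2 * A + 10) ≤ s := by
      have h11 : lam ^ (2 * A + 10) = √((lam ^ (2 * A + 10)) ^ 2) :=
        (Real.sqrt_sq (by positivity)).symm
      rw [h11, ← Real.sqrt_mul (by positivity), hs]
      refine Real.sqrt_le_sqrt ?_
      rw [div_mul_eq_mul_div, div_le_iff₀ hV0]
      refine mul_le_mul_of_nonneg_left ?_ hN0'.le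
      refine le_trans ?_ hVlam
      rw [← pow_mul]
      exact pow_le_pow_right₀ hlam1 (by omega)
    rw [hT, ← mul_div_assoc, le_div_iff₀ hlamA]
    calc 2 * C1 * lam ^ (A + 6) * (lam ^ 4 * s * (2 * √(N / V))) * lam ^ A =
          4 * C1 * s * (√((N : ℝ) / V) * lam ^ (2 * A + 10)) := by ring
      _ ≤ 4 * C1 * s * s := mul_le_mul_of_nonneg_left h10 (by positivity)
      _ = _ := by rw [← hss]; ring
  have t3e : 2 * C1 * lam ^ (A + 6) * (lam ^ 4 * s * (s / D)) ≤ 2 * C1 * T := by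
    rw [hT, ← mul_div_assoc (2 * C1), le_div_iff₀ hlamA]
    have h10 : s / D * lam ^ (2 * A + 10) ≤ s := by
      rw [div_mul_eq_mul_div, div_le_iff₀ hD0]
      exact mul_le_mul_of_nonneg_left hD1 hs0.le
    calc 2 * C1 * lam ^ (A + 6) * (lam ^ 4 * s * (s / D)) * lam ^ A =
          2 * C1 * s * (s / D * lam ^ (2 * A + 10)) := by ring
      _ ≤ 2 * C1 * s * s := mul_le_mul_of_nonneg_left h10 (by positivity)
      _ = _ := by rw [← hss]; ring
  have t3 : E * lam * (C1 * lam ^ 2 * (D * (D * N * lam ^ 3 / Real.log V ^ (6 * A + 29) +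
      N / V * lam ^ 5) + lam ^ 4 * s * (Q + 2 * √(N / V) + s / D))) ≤
      (8 * C1 * 16 ^ (6 * A + 29) + 4 * C1 + 2 * C1 * 2 ^ B + 4 * C1 + 2 * C1) * T := by
    have hW : 0 ≤ D * (D * N * lam ^ 3 / Real.log V ^ (6 * A + 29) +
      N / V * lam ^ 5) + lam ^ 4 * s * (Q + 2 * √(N / V) + s / D) := by positivity
    calc E * lam * (C1 * lam ^ 2 * (D * (D * N * lam ^ 3 / Real.log V ^ (6 * A + 29) +
          N / V * lam ^ 5) + lam ^ 4 * s * (Q + 2 * √(N / V) + s / D)))
        = E * lam * (C1 * lam ^ 2) * (D * (D * N * lam ^ 3 / Real.log V ^ (6 * A + 29) +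
          N / V * lam ^ 5) + lam ^ 4 * s * (Q + 2 * √(N / V) + s / D)) := gen6 _ _ _ _
      _ ≤ 2 * C1 * lam ^ (A + 6) * (D * (D * N * lam ^ 3 / Real.log V ^ (6 * A + 29) +
          N / V * lam ^ 5) + lam ^ 4 * s * (Q + 2 * √(N / V) + s / D)) :=
          mul_le_mul_of_nonneg_right hEl hW
      _ = 2 * C1 * lam ^ (A + 6) * (D * (D * N * lam ^ 3 / Real.log V ^ (6 * A + 29))) +
          2 * C1 * lam ^ (A + 6) * (D * (N / V * lam ^ 5)) +
          2 * C1 * lam ^ (A + 6) * (lam ^ 4 * s * Q) +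
          2 * C1 * lam ^ (A + 6) * (lam ^ 4 * s * (2 * √(N / V))) +
          2 * C1 * lam ^ (A + 6) * (lam ^ 4 * s * (s / D)) := gen5 _ _ _ _ _ _ _ _
      _ ≤ 8 * C1 * 16 ^ (6 * A + 29) * T + 4 * C1 * T + 2 * C1 * 2 ^ B * T + 4 * C1 * T +
          2 * C1 * T :=
          add_le_add (add_le_add (add_le_add (add_le_add t3a t3b) t3c) t3d) t3e
      _ = _ := by ring
  have hmain := hraw N V E D Q a hVnat hVV hE3 hD3 hQ1 hQN
  -- term 4
  have t4 : ∑ q ∈ Icc 1 Q, |cop La N q / q.totient - N / q.totient| ≤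
      4 * C3 * C2 * (N / Real.log N ^ A) + 2 * C3 * T := by
    have h10 : ∀ q ∈ Icc 1 Q, |cop La N q / q.totient - N / q.totient| ≤
        1 / (q.totient : ℝ) * (C2 * N / Real.log N ^ (A + 2) + 2 * lam ^ 2) := by
      intro q hq
      have hq' := mem_Icc.mp hq
      have hφ : (0 : ℝ) < q.totient := by exact_mod_cast Nat.totient_pos.mpr hq'.1
      rw [← sub_div, abs_div, abs_of_pos hφ, div_eq_inv_mul, ← one_div]
      refine mul_le_mul_of_nonneg_left ?_ (by positivity)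
      refine (hcop N q hN2 hq'.1).trans ?_
      have h11 : Real.log q ≤ Real.log N := by
        refine Real.log_le_log (by exact_mod_cast hq'.1) ?_
        exact_mod_cast hq'.2.trans hQN
      have h12 : 0 ≤ Real.log q := Real.log_natCast_nonneg q
      have h13 : (1 + Real.log q) * (2 + 2 * Real.log N) ≤ lam * (2 * lam) :=
        mul_le_mul (by linarith) (by rw [hlam]; linarith) (by linarith) hlam0.le
      have h14 : lam * (2 * lam) = 2 * lam ^ 2 := by ring
      linarith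
    refine (sum_le_sum h10).trans ?_
    rw [← sum_mul]
    have h11 : ∑ r ∈ Icc 1 Q, 1 / (r.totient : ℝ) ≤ C3 * lam ^ 2 := by
      refine (hphi Q hQ1).trans (mul_le_mul_of_nonneg_left ?_ hC3.le)
      refine pow_le_pow_left₀ ?_ ?_ 2
      · have : 0 ≤ Real.log Q := Real.log_natCast_nonneg Q
        linarith
      · have : Real.log Q ≤ Real.log N := by
          refine Real.log_le_log (by exact_mod_cast hQ1) ?_
          exact_mod_cast hQN
        rw [hlam]
        linarith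
    refine (mul_le_mul_of_nonneg_right h11 (by positivity)).trans ?_
    rw [mul_add]
    refine add_le_add ?_ ?_
    · have h12 : lam ^ 2 ≤ 4 * Real.log N ^ 2 := by
        calc lam ^ 2 ≤ (2 * Real.log N) ^ 2 := pow_le_pow_left₀ hlam0.le hlaml 2
          _ = _ := by ring
      calc C3 * lam ^ 2 * (C2 * N / Real.log N ^ (A + 2)) ≤
            C3 * (4 * Real.log N ^ 2) * (C2 * N / Real.log N ^ (A + 2)) :=
            mul_le_mul_of_nonneg_right (mul_le_mul_of_nonneg_left h12 hC3.le) (by positivity)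
        _ = _ := by
          rw [pow_add]
          field_simp
    · rw [hT, ← mul_div_assoc, le_div_iff₀ hlamA]
      calc C3 * lam ^ 2 * (2 * lam ^ 2) * lam ^ A = 2 * C3 * lam ^ (A + 4) := by ring
        _ ≤ _ := mul_le_mul_of_nonneg_left (hpowN _ (by omega)) (by positivity)
  -- the sum
  have hfin : ∑ q ∈ Icc 1 Q, |ap La N q (a q) - N / q.totient| ≤
      ∑ q ∈ Icc 1 Q, |disc La N q (a q)| +
        ∑ q ∈ Icc 1 Q, |cop La N q / q.totient - N / q.totient| := by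
    rw [← sum_add_distrib]
    refine sum_le_sum fun q _ => ?_
    have h10 : ap La N q (a q) - N / q.totient = disc La N q (a q) +
        (cop La N q / q.totient - N / q.totient) := by
      rw [disc]
      ring
    rw [h10]
    exact abs_add_le _ _
  have hNl0 : 0 < (N : ℝ) / Real.log N ^ A := by positivity
  calc ∑ q ∈ Icc 1 Q, |ap La N q (a q) - N / q.totient|
      ≤ (4 * 2 ^ B * T + (4 + 4 + 4 * 2 ^ B) * T +
          (8 * C1 * 16 ^ (6 * A + 29) + 4 * C1 + 2 * C1 * 2 ^ B + 4 * C1 + 2 * C1) * T) +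
          (4 * C3 * C2 * (N / Real.log N ^ A) + 2 * C3 * T) :=
        hfin.trans (add_le_add (hmain.trans (add_le_add (add_le_add t1 t2) t3)) t4)
    _ = (4 * 2 ^ B + (4 + 4 + 4 * 2 ^ B) +
          (8 * C1 * 16 ^ (6 * A + 29) + 4 * C1 + 2 * C1 * 2 ^ B + 4 * C1 + 2 * C1) + 2 * C3) * T +
          4 * C3 * C2 * (N / Real.log N ^ A) := by ring
    _ ≤ (4 * 2 ^ B + (4 + 4 + 4 * 2 ^ B) +
          (8 * C1 * 16 ^ (6 * A + 29) + 4 * C1 + 2 * C1 * 2 ^ B + 4 * C1 + 2 * C1) + 2 * C3) *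
            (N / Real.log N ^ A) + 4 * C3 * C2 * (N / Real.log N ^ A) :=
        add_le_add (mul_le_mul_of_nonneg_left hTle (by positivity)) le_rfl
    _ = Cb * (N / Real.log N ^ A) := by rw [hCb]; ring
    _ ≤ (Cb + M0 * Real.log N0 ^ A) * (N / Real.log N ^ A) :=
        mul_le_mul_of_nonneg_right (le_add_of_nonneg_right (by positivity)) hNl0.le
    _ = _ := by ring

end Fermat.Agent.Cor.LS.BV
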