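import Fermat.Agent.Corollaries.LS.BVDefs

/-!
# (T8) The Bombieri - Vinogradov theorem: discrepancies and the blocks
-/

set_option autoImplicit false

open Finset

namespace Fermat.Agent.Cor.LS.BV

theorem disc_congr {f g : ℕ → ℝ} {N : ℕ} (h : ∀ n ∈ Icc 1 N, f n = g n) (q : ℕ) (a : ZMod q) :
    disc f N q a = disc g N q a := by
  rw [disc, disc, ap, ap, cop, cop, sum_congr rfl fun n hn => h n (mem_filter.mp hn).1,
    sum_congr rfl fun n hn => h n (mem_filter.mp hn).1]

theorem disc_add (f g : ℕ → ℝ) (N q : ℕ) (a : ZMod q) :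
    disc (fun n => f n + g n) N q a = disc f N q a + disc g N q a := by
  simp only [disc, ap, cop, sum_add_distrib]
  ring

theorem disc_sub (f g : ℕ → ℝ) (N q : ℕ) (a : ZMod q) :
    disc (fun n => f n - g n) N q a = disc f N q a - disc g N q a := by
  simp only [disc, ap, cop, sum_sub_distrib]
  ring

theorem disc_sum {ι : Type*} (I : Finset ι) (f : ι → ℕ → ℝ) (N q : ℕ) (a : ZMod q) :
    disc (fun n => ∑ i ∈ I, f i n) N q a = ∑ i ∈ I, disc (f i) N q a := by
  classical
  induction I using Finset.induction_on with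
  | empty => simp [disc, ap, cop]
  | insert i I hi ih =>
    simp only [sum_insert hi]
    rw [disc_add, ih]

theorem cop_eq_sum (f : ℕ → ℝ) (N q : ℕ) [NeZero q] :
    cop f N q = ∑ b : (ZMod q)ˣ, ap f N q (b : ZMod q) := by
  classical
  have h1 : ∀ b : (ZMod q)ˣ, ap f N q (b : ZMod q) =
      ∑ n ∈ Icc 1 N, if ((n : ℕ) : ZMod q) = b then f n else 0 := fun b => by
    rw [ap, sum_filter]
  rw [sum_congr rfl fun b _ => h1 b, sum_comm, cop, sum_filter]
  refine sum_congr rfl fun n _ => ?_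
  by_cases hn : n.Coprime q
  · rw [if_pos hn, sum_eq_single (ZMod.unitOfCoprime n hn)]
    · rw [if_pos (ZMod.coe_unitOfCoprime n hn).symm]
    · intro b _ hb
      rw [if_neg]
      intro h
      exact hb (Units.ext (h.symm.trans (ZMod.coe_unitOfCoprime n hn).symm))
    · intro h
      exact absurd (mem_univ _) h
  · rw [if_neg hn]
    refine (sum_eq_zero fun b _ => ?_).symm
    rw [if_neg]
    intro h
    exact hn ((ZMod.isUnit_iff_coprime n q).mp (h ▸ b.isUnit))

theorem disc_le_of {f F : ℕ → ℝ} {N q : ℕ} [NeZero q] {X : ℝ}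
    (hF : ∀ n ∈ Icc 1 N, |f n| ≤ F n) (hX : ∀ b : (ZMod q)ˣ, ap F N q (b : ZMod q) ≤ X)
    (a : (ZMod q)ˣ) : |disc f N q a| ≤ 2 * X := by
  have hφ : (0 : ℝ) < q.totient := by
    exact_mod_cast Nat.totient_pos.mpr (NeZero.pos q)
  have h1 : ∀ b : (ZMod q)ˣ, |ap f N q (b : ZMod q)| ≤ X := by
    intro b
    refine le_trans ?_ (hX b)
    rw [ap, ap]
    refine (abs_sum_le_sum_abs _ _).trans (sum_le_sum fun n hn => hF n (mem_filter.mp hn).1)
  have h2 : |cop f N q| ≤ q.totient * X := by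
    rw [cop_eq_sum]
    refine (abs_sum_le_sum_abs _ _).trans ((sum_le_sum fun b _ => h1 b).trans ?_)
    rw [sum_const, nsmul_eq_mul, card_univ, ZMod.card_units_eq_totient]
  have h3 : |cop f N q / q.totient| ≤ X := by
    rw [abs_div, abs_of_pos hφ, div_le_iff₀ hφ, mul_comm X]
    exact h2
  rw [disc]
  refine (abs_sub _ _).trans ?_
  linarith [h1 a]

/-- the index of the block of `k` -/
noncomputable def idx (E k : ℕ) : ℕ := ⌊(E : ℝ) * Real.log k⌋₊

/-- the block `i` -/
noncomputable def blk (U N E i : ℕ) : Finset ℕ := (Ioc U N).filter fun k => idx E k = i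

/-- the end of the block `i` -/
noncomputable def top (E i : ℕ) : ℝ := Real.exp (((i : ℝ) + 1) / E)

/-- the range of the second variable for the block `i` -/
noncomputable def Lb (N E i : ℕ) : ℕ := ⌊(N : ℝ) / top E i⌋₊

theorem lt_top {U N E i k : ℕ} (hE : 1 ≤ E) (hk : k ∈ blk U N E i) : (k : ℝ) < top E i := by
  obtain ⟨h1, h2⟩ := mem_filter.mp hk
  have hk0 : (0 : ℝ) < k := by
    have := (mem_Ioc.mp h1).1
    exact_mod_cast (by omega : 0 < k)
  have hE0 : (0 : ℝ) < E := by exact_mod_cast hE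
  have h3 : (E : ℝ) * Real.log k < i + 1 := by
    have := Nat.lt_floor_add_one ((E : ℝ) * Real.log k)
    rw [idx] at h2
    rw [h2] at this
    exact this
  rw [top]
  calc (k : ℝ) = Real.exp (Real.log k) := (Real.exp_log hk0).symm
    _ < _ := Real.exp_lt_exp.mpr (by rw [lt_div_iff₀ hE0]; linarith)

theorem top_le {U N E i k : ℕ} (hE : 1 ≤ E) (hk : k ∈ blk U N E i) :
    top E i ≤ k * Real.exp (1 / E) := by
  obtain ⟨h1, h2⟩ := mem_filter.mp hk
  have hk1 : 1 ≤ k := by
    have := (mem_Ioc.mp h1).1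
    omega
  have hk0 : (0 : ℝ) < k := by exact_mod_cast hk1
  have hE0 : (0 : ℝ) < E := by exact_mod_cast hE
  have h3 : (i : ℝ) ≤ (E : ℝ) * Real.log k := by
    have := Nat.floor_le (a := (E : ℝ) * Real.log k)
      (mul_nonneg hE0.le (Real.log_nonneg (by exact_mod_cast hk1)))
    rw [idx] at h2
    rw [h2] at this
    exact this
  rw [top]
  calc Real.exp (((i : ℝ) + 1) / E) ≤ Real.exp (Real.log k + 1 / E) := by
        refine Real.exp_le_exp.mpr ?_
        rw [add_div]
        have : (i : ℝ) / E ≤ Real.log k := by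
          rw [div_le_iff₀ hE0]
          linarith
        linarith
    _ = _ := by rw [Real.exp_add, Real.exp_log hk0]

theorem mul_le_of {U N E i k l : ℕ} (hE : 1 ≤ E) (hk : k ∈ blk U N E i) (hl : l ≤ Lb N E i) :
    k * l ≤ N := by
  have h1 := lt_top hE hk
  have ht : 0 < top E i := Real.exp_pos _
  have h2 : (l : ℝ) ≤ N / top E i := (Nat.cast_le.mpr hl).trans (Nat.floor_le (by positivity))
  have h3 : (k : ℝ) * l ≤ N := by
    calc (k : ℝ) * l ≤ top E i * (N / top E i) := mul_le_mul h1.le h2 (Nat.cast_nonneg _) ht.le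
      _ = N := by field_simp
  exact_mod_cast h3

theorem mul_gt_of {U N E i k l : ℕ} (hE : 1 ≤ E) (hk : k ∈ blk U N E i) (hl : Lb N E i < l) :
    (N : ℝ) * (1 - 1 / E) < (k * l : ℕ) := by
  have h1 := top_le hE hk
  have ht : 0 < top E i := Real.exp_pos _
  have hE0 : (0 : ℝ) < E := by exact_mod_cast hE
  have hk0 : (0 : ℝ) < k := by
    have := (mem_Ioc.mp (mem_filter.mp hk).1).1
    exact_mod_cast (by omega : 0 < k)
  have h2 : (N : ℝ) / top E i < l := (Nat.floor_lt' (by omega)).mp hl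
  rw [div_lt_iff₀ ht] at h2
  have h3 : (N : ℝ) < l * (k * Real.exp (1 / E)) :=
    lt_of_lt_of_le h2 (mul_le_mul_of_nonneg_left h1 (Nat.cast_nonneg _))
  have h4 : 1 - 1 / (E : ℝ) ≤ Real.exp (-(1 / (E : ℝ))) := by
    have := Real.add_one_le_exp (-(1 / (E : ℝ)))
    linarith
  have h5 : (N : ℝ) * Real.exp (-(1 / (E : ℝ))) < k * l := by
    rw [Real.exp_neg, ← div_eq_mul_inv, div_lt_iff₀ (Real.exp_pos _)]
    calc (N : ℝ) < l * (k * Real.exp (1 / E)) := h3
      _ = _ := by ring
  calc (N : ℝ) * (1 - 1 / E) ≤ N * Real.exp (-(1 / (E : ℝ))) :=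
        mul_le_mul_of_nonneg_left h4 (Nat.cast_nonneg _)
    _ < k * l := h5
    _ = _ := by push_cast; rfl

/-- the sum of type II is the sum of the blocks up to a small error -/
theorem typeII_split {U V N E I : ℕ} (hE : 1 ≤ E) (hI : ∀ k ∈ Ioc U N, idx E k < I)
    (hal : ∀ k, |al U k| ≤ #k.divisors) {n : ℕ} (hn : n ∈ Icc 1 N) :
    |conv (Ioc U N) (Ioc V N) (al U) La n -
        ∑ i ∈ range I, conv (blk U N E i) (Ioc V (Lb N E i)) (al U) La n| ≤
      if (N : ℝ) * (1 - 1 / E) < n then (#n.divisors : ℝ) * Real.log n else 0 := by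
  classical
  have hn' := mem_Icc.mp hn
  have h1 : ∑ i ∈ range I, conv (blk U N E i) (Ioc V (Lb N E i)) (al U) La n =
      ∑ p ∈ n.divisorsAntidiagonal,
        if p.1 ∈ Ioc U N ∧ p.2 ∈ Ioc V (Lb N E (idx E p.1)) then al U p.1 * La p.2 else 0 := by
    have h2 : ∀ i ∈ range I, conv (blk U N E i) (Ioc V (Lb N E i)) (al U) La n =
        ∑ p ∈ n.divisorsAntidiagonal, if p.1 ∈ blk U N E i ∧ p.2 ∈ Ioc V (Lb N E i) then
          al U p.1 * La p.2 else 0 := fun i _ => by rw [conv, sum_filter]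
    rw [sum_congr rfl h2, sum_comm]
    refine sum_congr rfl fun p _ => ?_
    by_cases hp : p.1 ∈ Ioc U N
    · rw [sum_eq_single (idx E p.1)]
      · have h3 : p.1 ∈ blk U N E (idx E p.1) := mem_filter.mpr ⟨hp, rfl⟩
        simp only [h3, hp, true_and]
      · intro i _ hi
        rw [if_neg]
        rintro ⟨h3, _⟩
        exact hi (mem_filter.mp h3).2.symm
      · intro h
        exact absurd (mem_range.mpr (hI _ hp)) h
    · rw [if_neg (fun h => hp h.1)]
      refine sum_eq_zero fun i _ => ?_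
      rw [if_neg]
      rintro ⟨h3, _⟩
      exact hp (mem_filter.mp h3).1
  rw [h1, conv, sum_filter, ← sum_sub_distrib]
  have h2 : ∀ p ∈ n.divisorsAntidiagonal,
      |(if p.1 ∈ Ioc U N ∧ p.2 ∈ Ioc V N then al U p.1 * La p.2 else 0) -
        (if p.1 ∈ Ioc U N ∧ p.2 ∈ Ioc V (Lb N E (idx E p.1)) then al U p.1 * La p.2 else 0)| ≤
      if (N : ℝ) * (1 - 1 / E) < n then (#n.divisors : ℝ) * La p.2 else 0 := by
    intro p hp
    have hp' := Nat.mem_divisorsAntidiagonal.mp hp
    have hLa0 : 0 ≤ La p.2 := ArithmeticFunction.vonMangoldt_nonneg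
    have hx : |al U p.1 * La p.2| ≤ (#n.divisors : ℝ) * La p.2 := by
      rw [abs_mul, abs_of_nonneg hLa0]
      refine mul_le_mul_of_nonneg_right ((hal _).trans ?_) hLa0
      have h3 : p.1 ∣ n := ⟨p.2, hp'.1.symm⟩
      exact_mod_cast card_le_card (Nat.divisors_subset_of_dvd (by omega) h3)
    have h0 : (0 : ℝ) ≤ if (N : ℝ) * (1 - 1 / E) < n then (#n.divisors : ℝ) * La p.2 else 0 := by
      split_ifs
      · positivity
      · exact le_rfl
    by_cases hp1 : p.1 ∈ Ioc U N
    · by_cases hp2 : p.2 ∈ Ioc V (Lb N E (idx E p.1))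
      · have h3 : p.2 ∈ Ioc V N := by
          rw [mem_Ioc] at hp2 ⊢
          refine ⟨hp2.1, ?_⟩
          have h4 : 1 ≤ p.1 := by
            have := (mem_Ioc.mp hp1).1
            omega
          have h5 : p.1 * p.2 ≤ N := by
            rw [hp'.1]
            exact hn'.2
          nlinarith
        rw [if_pos ⟨hp1, h3⟩, if_pos ⟨hp1, hp2⟩, sub_self, abs_zero]
        exact h0
      · have h9 : ¬ (p.1 ∈ Ioc U N ∧ p.2 ∈ Ioc V (Lb N E (idx E p.1))) := fun h => hp2 h.2
        rw [if_neg h9, sub_zero]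
        by_cases hp3 : p.2 ∈ Ioc V N
        · rw [if_pos ⟨hp1, hp3⟩]
          have h4 : Lb N E (idx E p.1) < p.2 := by
            rw [mem_Ioc] at hp3
            by_contra hc
            exact hp2 (mem_Ioc.mpr ⟨hp3.1, not_lt.mp hc⟩)
          have h5 := mul_gt_of hE (mem_filter.mpr ⟨hp1, rfl⟩ : p.1 ∈ blk U N E (idx E p.1)) h4
          rw [hp'.1] at h5
          rw [if_pos h5]
          exact hx
        · rw [if_neg (fun h => hp3 h.2), abs_zero]
          exact h0
    · rw [if_neg (fun h => hp1 h.1), if_neg (fun h => hp1 h.1), sub_self, abs_zero]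
      exact h0
  refine (abs_sum_le_sum_abs _ _).trans ((sum_le_sum h2).trans ?_)
  split_ifs
  · rw [← mul_sum]
    refine mul_le_mul_of_nonneg_left (le_of_eq ?_) (Nat.cast_nonneg _)
    rw [Nat.sum_divisorsAntidiagonal' (f := fun _ l => La l)]
    exact ArithmeticFunction.vonMangoldt_sum
  · simp

end Fermat.Agent.Cor.LS.BV
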