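import Fermat.Agent.Corollaries.LS.BVBlock
import Fermat.Agent.Corollaries.LS.BVParts

/-!
# (T8) The Bombieri - Vinogradov theorem: all the parts together
-/

set_option autoImplicit false

open Finset

namespace Fermat.Agent.Cor.LS.BV

theorem abs_mu_le (n : ℕ) : |mu n| ≤ 1 := by
  rw [mu]
  have h := ArithmeticFunction.abs_moebius_le_one (n := n)
  exact_mod_cast h

theorem abs_cc_le (U V m : ℕ) : |cc U V m| ≤ Real.log m := by
  classical
  rw [cc, conv]
  refine (abs_sum_le_sum_abs _ _).trans ?_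
  have h1 : ∀ p ∈ m.divisorsAntidiagonal.filter (fun p => p.1 ∈ Icc 1 U ∧ p.2 ∈ Icc 1 V),
      |mu p.1 * La p.2| ≤ La p.2 := by
    intro p _
    rw [abs_mul, abs_of_nonneg (La_nonneg _)]
    exact mul_le_of_le_one_left (La_nonneg _) (abs_mu_le _)
  refine (sum_le_sum h1).trans ?_
  refine (sum_le_sum_of_subset_of_nonneg (filter_subset _ _) fun p _ _ => La_nonneg _).trans ?_
  rw [Nat.sum_divisorsAntidiagonal' (f := fun _ l => La l)]
  exact le_of_eq ArithmeticFunction.vonMangoldt_sum

theorem disc_of_zero {f : ℕ → ℝ} {N : ℕ} (h : ∀ n ∈ Icc 1 N, f n = 0) (q : ℕ) (a : ZMod q) :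
    disc f N q a = 0 := by
  rw [disc, ap, cop, sum_eq_zero fun n hn => h n (mem_filter.mp hn).1,
    sum_eq_zero fun n hn => h n (mem_filter.mp hn).1]
  simp

theorem raw (h0 : VaughanStmt) (h1 : TypeIStmt) (h2 : ShortStmt) (h3 : CharStmt) (h4 : PrimStmt)
    (h5 : LargeStmt) (h6 : SmallStmt) (h7 : MeanStmt) (B : ℕ) :
    ∃ C : ℝ, 0 < C ∧ ∀ (N V E D Q : ℕ) (a : (q : ℕ) → (ZMod q)ˣ), 2 ≤ V → V * V ≤ N → 1 ≤ E →
      1 ≤ D → 1 ≤ Q → Q ≤ N →
      ∑ q ∈ Icc 1 Q, |disc La N q (a q)| ≤
        4 * Q * (V : ℝ) ^ 2 * (1 + Real.log N) +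
        4 * (1 + Real.log N) * ((N / E + 1) * (1 + Real.log N) ^ 2 + Q * √N) +
        E * (1 + Real.log N) * (C * (1 + Real.log N) ^ 2 *
          (D * (D * N * (1 + Real.log N) ^ 3 / Real.log V ^ B + N / V * (1 + Real.log N) ^ 5) +
            (1 + Real.log N) ^ 4 * √N * (Q + 2 * √(N / V) + √N / D))) := by
  classical
  obtain ⟨C, hC, hblock⟩ := block h3 h4 h5 h6 h7 B
  refine ⟨C, hC, ?_⟩
  intro N V E D Q a hV hVN hE hD hQ hQN
  set lam : ℝ := 1 + Real.log N with hlam
  have hN1 : 1 ≤ N := hQ.trans hQN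
  have hN1' : (1 : ℝ) ≤ N := by exact_mod_cast hN1
  have hlogN : 0 ≤ Real.log N := Real.log_nonneg hN1'
  have hlam1 : 1 ≤ lam := by linarith
  have hVN' : V ≤ N := by nlinarith
  have hV0 : (0 : ℝ) < V := by exact_mod_cast (by omega : 0 < V)
  have hV1 : (1 : ℝ) ≤ V := by exact_mod_cast (by omega : 1 ≤ V)
  have hE0 : (0 : ℝ) < E := by exact_mod_cast hE
  have hD0 : (0 : ℝ) < D := by exact_mod_cast hD
  have hVlog : 0 < Real.log V := Real.log_pos (by exact_mod_cast (by omega : 1 < V))
  have hlog : ∀ n : ℕ, 1 ≤ n → n ≤ N → Real.log n ≤ Real.log N := fun n h1 h2 =>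
    Real.log_le_log (by exact_mod_cast h1) (by exact_mod_cast h2)
  set I := ⌊(E : ℝ) * Real.log N⌋₊ + 1 with hI
  have hIle : (I : ℝ) ≤ E * lam := by
    rw [hI]
    push_cast
    have h8 : (⌊(E : ℝ) * Real.log N⌋₊ : ℝ) ≤ E * Real.log N := Nat.floor_le (by positivity)
    have h9 : (1 : ℝ) ≤ E := by exact_mod_cast hE
    rw [hlam]
    linarith
  have hidx : ∀ k ∈ Ioc V N, idx E k < I := by
    intro k hk
    rw [mem_Ioc] at hk
    rw [hI, idx]
    refine Nat.lt_succ_of_le (Nat.floor_le_floor ?_)
    exact mul_le_mul_of_nonneg_left (hlog k (by omega) hk.2) hE0.le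
  set g : ℕ → ℝ := fun n => conv (Ioc V N) (Ioc V N) (al V) La n -
    ∑ i ∈ range I, conv (blk V N E i) (Ioc V (Lb N E i)) (al V) La n with hg
  set f0 : ℕ → ℝ := fun n => if n ≤ V then La n else 0 with hf0
  set f1 : ℕ → ℝ := conv (Icc 1 V) (Icc 1 N) mu (fun l => Real.log l) with hf1
  set f2 : ℕ → ℝ := conv (Icc 1 (V * V)) (Icc 1 N) (cc V V) (fun _ => 1) with hf2
  set bl : ℕ → ℕ → ℝ := fun i => conv (blk V N E i) (Ioc V (Lb N E i)) (al V) La with hbl
  have hdec : ∀ n ∈ Icc 1 N, La n = f0 n + f1 n - f2 n - ((∑ i ∈ range I, bl i n) + g n) := by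
    intro n hn
    have hn' := mem_Icc.mp hn
    have h8 := h0 V V N n (by omega) (by omega) hn'.1 hn'.2
    rw [h8, hg]
    simp only [hf0, hf1, hf2, hbl]
    ring
  have hdisc : ∀ q ∈ Icc 1 Q, |disc La N q (a q)| ≤ 4 * (V : ℝ) ^ 2 * lam +
      4 * lam * ((N / E + 1) * lam * (1 / q) + √N) + ∑ i ∈ range I, |disc (bl i) N q (a q)| := by
    intro q hq
    have hq' := mem_Icc.mp hq
    have : NeZero q := ⟨by omega⟩
    have hq0 : (0 : ℝ) < q := by exact_mod_cast hq'.1
    have h8 : disc La N q (a q) = disc f0 N q (a q) + disc f1 N q (a q) - disc f2 N q (a q) -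
        ((∑ i ∈ range I, disc (bl i) N q (a q)) + disc g N q (a q)) := by
      rw [disc_congr hdec]
      rw [disc_sub (fun n => f0 n + f1 n - f2 n) (fun n => (∑ i ∈ range I, bl i n) + g n),
        disc_sub (fun n => f0 n + f1 n) f2, disc_add f0 f1,
        disc_add (fun n => ∑ i ∈ range I, bl i n) g, disc_sum]
    have hA : |disc f0 N q (a q)| ≤ 2 * (V * lam) := by
      refine disc_le_of (F := f0) (fun n _ => ?_) (fun b => ?_) (a q)
      · rw [hf0]
        dsimp only
        split_ifs
        · rw [abs_of_nonneg (La_nonneg n)]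
        · simp
      · rw [ap]
        refine (sum_le_sum_of_subset_of_nonneg (filter_subset _ _) fun n _ _ => ?_).trans ?_
        · rw [hf0]
          dsimp only
          split_ifs
          · exact La_nonneg n
          · exact le_rfl
        · rw [hf0, ← sum_filter]
          have h9 : ∀ n ∈ (Icc 1 N).filter (fun n => n ≤ V), La n ≤ lam := by
            intro n hn
            obtain ⟨h10, _⟩ := mem_filter.mp hn
            rw [mem_Icc] at h10
            exact (La_le_log n).trans ((hlog n h10.1 h10.2).trans (by linarith))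
          refine (sum_le_sum h9).trans ?_
          rw [sum_const, nsmul_eq_mul]
          refine mul_le_mul_of_nonneg_right ?_ (by linarith)
          have h10 : (Icc 1 N).filter (fun n => n ≤ V) ⊆ Icc 1 V := by
            intro n hn
            obtain ⟨h10, h11⟩ := mem_filter.mp hn
            exact mem_Icc.mpr ⟨(mem_Icc.mp h10).1, h11⟩
          have h11 := card_le_card h10
          rw [Nat.card_Icc] at h11
          exact_mod_cast h11
    have hB : |disc f1 N q (a q)| ≤ V * lam := by
      refine ((h1 V N q mu (a q) hN1).2).trans ?_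
      have h9 : ∑ m ∈ Icc 1 V, |mu m| ≤ V := by
        refine (sum_le_sum fun m _ => abs_mu_le m).trans ?_
        rw [sum_const, nsmul_eq_mul, Nat.card_Icc, mul_one]
        exact_mod_cast (by omega : V + 1 - 1 ≤ V)
      exact mul_le_mul h9 (by linarith) hlogN hV0.le
    have hCc : |disc f2 N q (a q)| ≤ (V : ℝ) ^ 2 * lam := by
      refine ((h1 (V * V) N q (cc V V) (a q) hN1).1).trans ?_
      have h9 : ∀ m ∈ Icc 1 (V * V), |cc V V m| ≤ lam := by
        intro m hm
        rw [mem_Icc] at hm
        exact (abs_cc_le V V m).trans ((hlog m hm.1 (hm.2.trans hVN)).trans (by linarith))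
      refine (sum_le_sum h9).trans ?_
      rw [sum_const, nsmul_eq_mul, Nat.card_Icc]
      refine mul_le_mul_of_nonneg_right ?_ (by linarith)
      rw [Nat.add_sub_cancel]
      push_cast
      exact le_of_eq (sq (V : ℝ)).symm
    have hG : |disc g N q (a q)| ≤ 4 * lam * ((N / E + 1) * lam * (1 / q) + √N) := by
      set F : ℕ → ℝ := fun n => if (N : ℝ) * (1 - 1 / E) < n then (#n.divisors : ℝ) * Real.log n
        else 0 with hF
      have h9 : |disc g N q (a q)| ≤ 2 * (lam * (2 * ((N / E + 1) / q * lam + √N))) := by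
        refine disc_le_of (F := F) (fun n hn => typeII_split hE hidx (abs_al_le V) hn)
          (fun b => ?_) (a q)
        set N' := ⌊(N : ℝ) * (1 - 1 / E)⌋₊ with hN'
        have hE1 : 1 / (E : ℝ) ≤ 1 := by
          rw [div_le_one hE0]
          exact_mod_cast hE
        have hx0 : 0 ≤ (N : ℝ) * (1 - 1 / E) := mul_nonneg (Nat.cast_nonneg _) (by linarith)
        have hN'N : N' ≤ N := by
          rw [hN']
          refine Nat.floor_le_of_le ?_
          have : (0 : ℝ) ≤ 1 / (E : ℝ) := by positivity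
          nlinarith
        have h10 : ap F N q (b : ZMod q) ≤
            lam * ∑ n ∈ (Ioc N' N).filter (fun n : ℕ => (n : ZMod q) = (b : ZMod q)),
              (#n.divisors : ℝ) := by
          rw [ap, mul_sum]
          have h11 : ∀ n ∈ (Icc 1 N).filter (fun n : ℕ => (n : ZMod q) = (b : ZMod q)),
              F n ≤ if n ∈ Ioc N' N then lam * (#n.divisors : ℝ) else 0 := by
            intro n hn
            have h12 := mem_Icc.mp (mem_filter.mp hn).1
            rw [hF]
            dsimp only
            split_ifs with h13 h14 h14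
            · rw [mul_comm]
              refine mul_le_mul_of_nonneg_right ?_ (Nat.cast_nonneg _)
              exact (hlog n h12.1 h12.2).trans (by linarith)
            · exfalso
              refine h14 (mem_Ioc.mpr ⟨?_, h12.2⟩)
              have h15 : (N' : ℝ) < n := (Nat.floor_le hx0).trans_lt h13
              exact_mod_cast h15
            · exact mul_nonneg (by linarith) (Nat.cast_nonneg _)
            · exact le_rfl
          refine (sum_le_sum h11).trans ?_
          rw [← sum_filter]
          refine sum_le_sum_of_subset_of_nonneg (fun n hn => ?_)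
            fun _ _ _ => mul_nonneg (by linarith) (Nat.cast_nonneg _)
          obtain ⟨h12, h13⟩ := mem_filter.mp hn
          exact mem_filter.mpr ⟨h13, (mem_filter.mp h12).2⟩
        refine h10.trans (mul_le_mul_of_nonneg_left ?_ (by linarith))
        refine (h2 N' N q b hN'N hN1).trans ?_
        refine mul_le_mul_of_nonneg_left ?_ (by norm_num)
        have h12 : (N : ℝ) - N' ≤ N / E + 1 := by
          have h13 : (N : ℝ) * (1 - 1 / E) < N' + 1 := Nat.lt_floor_add_one _
          have h14 : (N : ℝ) * (1 - 1 / E) = N - N / E := by ring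
          linarith
        have h13 : ((N : ℝ) - N') / q ≤ (N / E + 1) / q :=
          div_le_div_of_nonneg_right h12 hq0.le
        have h14 : ((N : ℝ) - N') / q * (1 + Real.log N) ≤ (N / E + 1) / q * lam :=
          mul_le_mul_of_nonneg_right h13 (by linarith)
        linarith
      refine h9.trans (le_of_eq ?_)
      ring
    have h9 : |∑ i ∈ range I, disc (bl i) N q (a q)| ≤ ∑ i ∈ range I, |disc (bl i) N q (a q)| :=
      abs_sum_le_sum_abs _ _
    have h10 : |disc La N q (a q)| ≤ |disc f0 N q (a q)| + |disc f1 N q (a q)| +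
        |disc f2 N q (a q)| + (|∑ i ∈ range I, disc (bl i) N q (a q)| + |disc g N q (a q)|) := by
      rw [h8]
      refine (abs_sub _ _).trans (add_le_add ((abs_sub _ _).trans (add_le_add (abs_add_le _ _)
        le_rfl)) (abs_add_le _ _))
    have h11 : 2 * (V * lam) + V * lam + (V : ℝ) ^ 2 * lam ≤ 4 * (V : ℝ) ^ 2 * lam := by
      have h12 : (V : ℝ) ≤ (V : ℝ) ^ 2 := by nlinarith
      have h13 : (V : ℝ) * lam ≤ (V : ℝ) ^ 2 * lam := mul_le_mul_of_nonneg_right h12 (by linarith)
      linarith
    linarith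
  -- the blocks
  set Z : ℝ := C * lam ^ 2 *
          (D * (D * N * lam ^ 3 / Real.log V ^ B + N / V * lam ^ 5) +
            lam ^ 4 * √N * (Q + 2 * √(N / V) + √N / D)) with hZ
  have hZ0 : 0 ≤ Z := by positivity
  have hbl' : ∀ i ∈ range I, ∑ q ∈ Icc 1 Q, |disc (bl i) N q (a q)| ≤ Z := by
    intro i _
    by_cases hne : (blk V N E i).Nonempty ∧ V ≤ Lb N E i
    · obtain ⟨⟨k0, hk0⟩, hVL⟩ := hne
      set K := min N ⌊top E i⌋₊ with hK
      have htop : 0 < top E i := Real.exp_pos _
      have hKtop : (K : ℝ) ≤ top E i :=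
        (Nat.cast_le.mpr (min_le_right _ _)).trans (Nat.floor_le htop.le)
      have hmemK : ∀ k ∈ blk V N E i, k ∈ Icc 1 K := by
        intro k hk
        have h8 := mem_Ioc.mp (mem_filter.mp hk).1
        refine mem_Icc.mpr ⟨by omega, le_min h8.2 (Nat.le_floor (lt_top hE hk).le)⟩
      have hVK : V ≤ K := by
        have h8 := mem_Ioc.mp (mem_filter.mp hk0).1
        have h9 := (mem_Icc.mp (hmemK k0 hk0)).2
        omega
      have hLtop : (Lb N E i : ℝ) ≤ N / top E i := Nat.floor_le (by positivity)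
      have hKL : (K : ℝ) * Lb N E i ≤ N := by
        calc (K : ℝ) * Lb N E i ≤ top E i * (N / top E i) :=
              mul_le_mul hKtop hLtop (Nat.cast_nonneg _) htop.le
          _ = N := by field_simp
      have hKL' : K * Lb N E i ≤ N := by exact_mod_cast hKL
      have hLN : Lb N E i ≤ N := by
        have : 1 ≤ K := by omega
        nlinarith
      refine (hblock N V V K (Lb N E i) D Q (blk V N E i) a hV hVL hD hQ (by omega) hQN
        (min_le_left _ _) hLN hmemK (fun k hk l hl => mul_le_of hE hk (mem_Ioc.mp hl).2)).trans ?_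
      have hVK' : (V : ℝ) ≤ K := by exact_mod_cast hVK
      have hVL' : (V : ℝ) ≤ Lb N E i := by exact_mod_cast hVL
      have hKV : (K : ℝ) ≤ N / V := by
        rw [le_div_iff₀ hV0]
        exact (mul_le_mul_of_nonneg_left hVL' (Nat.cast_nonneg _)).trans hKL
      have hLV : (Lb N E i : ℝ) ≤ N / V := by
        rw [le_div_iff₀ hV0, mul_comm]
        exact (mul_le_mul_of_nonneg_right hVK' (Nat.cast_nonneg _)).trans hKL
      have h8 : √((K : ℝ) * Lb N E i) ≤ √N := Real.sqrt_le_sqrt hKL
      rw [hZ]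
      refine mul_le_mul_of_nonneg_left (add_le_add ?_ ?_) (by positivity)
      · refine mul_le_mul_of_nonneg_left ?_ hD0.le
        have h9 : (K : ℝ) * lam ^ 3 * (D * Lb N E i / Real.log V ^ B + lam ^ 2) =
            (K * Lb N E i) * (D * lam ^ 3 / Real.log V ^ B) + K * lam ^ 5 := by ring
        rw [h9]
        refine add_le_add ?_ (mul_le_mul_of_nonneg_right hKV (by positivity))
        refine (mul_le_mul_of_nonneg_right hKL (by positivity)).trans (le_of_eq ?_)
        ring
      · have h9 : (Q : ℝ) + √K + √(Lb N E i) + √(K * Lb N E i) / D ≤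
            Q + 2 * √(N / V) + √N / D := by
          have h10 := Real.sqrt_le_sqrt hKV
          have h11 := Real.sqrt_le_sqrt hLV
          have h12 := div_le_div_of_nonneg_right h8 hD0.le
          linarith
        calc lam * (Q + √K + √(Lb N E i) + √(K * Lb N E i) / D) *
              (√(K * Lb N E i) * lam ^ 3) ≤
              lam * (Q + 2 * √(N / V) + √N / D) * (√N * lam ^ 3) := by
                refine mul_le_mul (mul_le_mul_of_nonneg_left h9 (by linarith))
                  (mul_le_mul_of_nonneg_right h8 (by positivity)) (by positivity) (by positivity)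
          _ = _ := by ring
    · have h8 : ∀ q, disc (bl i) N q (a q) = 0 := by
        intro q
        refine disc_of_zero (fun n _ => ?_) q _
        rw [hbl]
        dsimp only
        rw [conv]
        refine sum_eq_zero fun p hp => ?_
        exfalso
        obtain ⟨_, h9, h10⟩ := mem_filter.mp hp
        refine hne ⟨⟨_, h9⟩, ?_⟩
        rw [mem_Ioc] at h10
        omega
      rw [sum_eq_zero fun q _ => by rw [h8 q, abs_zero]]
      exact hZ0
  -- the sum over q
  refine (sum_le_sum hdisc).trans ?_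
  rw [sum_add_distrib, sum_add_distrib, sum_comm (s := Icc 1 Q) (t := range I)]
  have hS1 : ∑ _q ∈ Icc 1 Q, 4 * (V : ℝ) ^ 2 * lam = 4 * Q * (V : ℝ) ^ 2 * lam := by
    rw [sum_const, nsmul_eq_mul, Nat.card_Icc, Nat.add_sub_cancel]
    ring
  have hS2 : ∑ q ∈ Icc 1 Q, 4 * lam * ((N / E + 1) * lam * (1 / (q : ℝ)) + √N) ≤
      4 * lam * ((N / E + 1) * lam ^ 2 + Q * √N) := by
    rw [← mul_sum, sum_add_distrib, ← mul_sum, sum_const, nsmul_eq_mul, Nat.card_Icc,
      Nat.add_sub_cancel]
    refine mul_le_mul_of_nonneg_left (add_le_add ?_ le_rfl) (by linarith)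
    have h8 : ∑ q ∈ Icc 1 Q, 1 / (q : ℝ) ≤ lam := by
      have h9 := harmonic_le_one_add_log Q
      have h10 : ((harmonic Q : ℚ) : ℝ) = ∑ q ∈ Icc 1 Q, 1 / (q : ℝ) := by
        rw [harmonic_eq_sum_Icc]
        push_cast
        exact sum_congr rfl fun q _ => by rw [one_div]
      rw [h10] at h9
      exact h9.trans (by have := hlog Q hQ hQN; linarith)
    calc (N / E + 1) * lam * ∑ q ∈ Icc 1 Q, 1 / (q : ℝ) ≤ (N / E + 1) * lam * lam :=
          mul_le_mul_of_nonneg_left h8 (by positivity)
      _ = _ := by ring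
  have hS3 : ∑ i ∈ range I, ∑ q ∈ Icc 1 Q, |disc (bl i) N q (a q)| ≤ E * lam * Z := by
    refine (sum_le_sum hbl').trans ?_
    rw [sum_const, card_range, nsmul_eq_mul]
    exact mul_le_mul_of_nonneg_right hIle hZ0
  rw [hS1]
  linarith

end Fermat.Agent.Cor.LS.BV
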