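import Fermat.Agent.Corollaries.LS.BVFinal
import Fermat.Agent.Corollaries.LS.BV0
import Fermat.Agent.Corollaries.LS.BV1
import Fermat.Agent.Corollaries.LS.BV2
import Fermat.Agent.Corollaries.LS.BV3
import Fermat.Agent.Corollaries.LS.BV4
import Fermat.Agent.Corollaries.LS.BV5
import Fermat.Agent.Corollaries.LS.BV6
import Fermat.Agent.Corollaries.LS.BV7
import Fermat.Agent.Corollaries.LS.BV9

/-!
# The theorem of Bombieri and Vinogradov
-/

set_option autoImplicit false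

open Finset

namespace Fermat.Agent.Cor.LS

/-- **The Bombieri - Vinogradov theorem.** For every `A` there are `B` and `C` such that for all
`N ≥ 2` and `Q ≤ √N (log N) ^ (-B)` and all choices of a residue class `a q` prime to `q` for every
`q`: `Σ_{q ≤ Q} |ψ(N; q, a q) - N / φ(q)| ≤ C N (log N) ^ (-A)`. -/
theorem bombieri_vinogradov (A : ℕ) : ∃ (B : ℕ) (C : ℝ), ∀ N : ℕ, 2 ≤ N → ∀ Q : ℕ,
    (Q : ℝ) ≤ √N / Real.log N ^ B → ∀ a : (q : ℕ) → (ZMod q)ˣ,
      ∑ q ∈ Icc 1 Q, |∑ n ∈ (Icc 1 N).filter (fun n : ℕ => (n : ZMod q) = a q),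
        ArithmeticFunction.vonMangoldt n - N / q.totient| ≤ C * N / Real.log N ^ A :=
  BV.bvStmt_of BV.vaughanStmt BV.typeIStmt BV.shortStmt BV.charStmt BV.primStmt BV.largeStmt
    BV.smallStmt BV.meanStmt BV.cop_le A

/-- **The Bombieri - Vinogradov theorem**, with the maximum over the residue classes prime to
`q`. -/
theorem bombieri_vinogradov_sup (A : ℕ) : ∃ (B : ℕ) (C : ℝ), ∀ N : ℕ, 2 ≤ N → ∀ Q : ℕ,
    (Q : ℝ) ≤ √N / Real.log N ^ B →
      ∑ q ∈ Icc 1 Q, (⨆ a : (ZMod q)ˣ,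
        |∑ n ∈ (Icc 1 N).filter (fun n : ℕ => (n : ZMod q) = a),
          ArithmeticFunction.vonMangoldt n - N / q.totient|) ≤ C * N / Real.log N ^ A := by
  obtain ⟨B, C, h⟩ := bombieri_vinogradov A
  refine ⟨B, C, fun N hN Q hQ => ?_⟩
  have h1 : ∀ q : ℕ, ∃ a : (ZMod q)ˣ, 1 ≤ q → (⨆ a : (ZMod q)ˣ,
      |∑ n ∈ (Icc 1 N).filter (fun n : ℕ => (n : ZMod q) = a),
        ArithmeticFunction.vonMangoldt n - N / q.totient|) =
      |∑ n ∈ (Icc 1 N).filter (fun n : ℕ => (n : ZMod q) = a),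
        ArithmeticFunction.vonMangoldt n - N / q.totient| := by
    intro q
    by_cases hq : 1 ≤ q
    · have : NeZero q := ⟨by omega⟩
      obtain ⟨a, ha⟩ := exists_eq_ciSup_of_finite (f := fun a : (ZMod q)ˣ =>
        |∑ n ∈ (Icc 1 N).filter (fun n : ℕ => (n : ZMod q) = a),
          ArithmeticFunction.vonMangoldt n - N / q.totient|)
      exact ⟨a, fun _ => ha.symm⟩
    · exact ⟨1, fun h => absurd h hq⟩
  choose a ha using h1
  refine le_trans (le_of_eq ?_) (h N hN Q hQ a)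
  exact sum_congr rfl fun q hq => ha q (mem_Icc.mp hq).1

end Fermat.Agent.Cor.LS
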