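import Mathlib

/-!
# The large sieve and Linnik's theorem on the least quadratic non-residue

The statements of the parts of the proof (Ju. V. Linnik 1941; the large sieve inequality in the
form of P. X. Gallagher).
-/

set_option autoImplicit false

open Finset Filter

namespace Fermat.Agent.Cor.LS

/-- `e(x) = exp (2 π i x)` -/
noncomputable def e (x : ℝ) : ℂ := Complex.exp (2 * Real.pi * Complex.I * x)

/-- (L1) **the large sieve inequality** -/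
def LargeSieveStmt : Prop := ∀ (a : ℕ → ℂ) (N Q : ℕ), 1 ≤ Q →
  ∑ q ∈ Icc 1 Q, ∑ b ∈ (Icc 1 q).filter (fun b => b.Coprime q),
    ‖∑ n ∈ range N, a n * e (n * (b / q))‖ ^ 2 ≤
      ((Q : ℝ) ^ 2 + Real.pi * N) * ∑ n ∈ range N, ‖a n‖ ^ 2

/-- (L2) a set which avoids `#R` classes modulo `p` -/
def PrimeStmt : Prop := ∀ (p : ℕ) [Fact p.Prime] (A : Finset ℕ) (R : Finset (ZMod p)),
  (∀ n ∈ A, (n : ZMod p) ∉ R) → #R < p →
    (#A : ℝ) ^ 2 * (#R / (p - #R)) ≤ ∑ b ∈ Icc 1 (p - 1), ‖∑ n ∈ A, e (n * (b / p))‖ ^ 2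

/-- (L3) **the arithmetical large sieve** for prime moduli -/
def SieveStmt : Prop := ∀ (N Q : ℕ) (A : Finset ℕ) (P : Finset ℕ) (R : ∀ p : ℕ, Finset (ZMod p)),
  A ⊆ range N → (∀ p ∈ P, p.Prime ∧ p ≤ Q) → (∀ p ∈ P, ∀ n ∈ A, (n : ZMod p) ∉ R p) →
  (∀ p ∈ P, #(R p) < p) →
    (#A : ℝ) * ∑ p ∈ P, ((#(R p) : ℝ) / (p - #(R p))) ≤ (Q : ℝ) ^ 2 + Real.pi * N

/-- (L4) the numbers without large prime factors have positive density -/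
def SmoothStmt : Prop := ∀ ε : ℝ, 0 < ε → ∃ c : ℝ, 0 < c ∧ ∀ᶠ N : ℕ in atTop,
  c * N ≤ (Nat.card {n : ℕ | 1 ≤ n ∧ n ≤ N ∧ ∀ p : ℕ, p.Prime → p ∣ n → (p : ℝ) ≤ (N : ℝ) ^ ε} : ℝ)

/-- (L5) **Linnik's theorem**: for every `ε > 0` there are boundedly many primes `p ≤ Q` modulo
which all `n ≤ Q ^ ε` are squares -/
def LinnikStmt : Prop := ∀ ε : ℝ, 0 < ε → ∃ C : ℕ, ∀ Q : ℕ,
  Nat.card {p : ℕ | 3 ≤ p ∧ p ≤ Q ∧ p.Prime ∧
    ∀ n : ℕ, 1 ≤ n → (n : ℝ) ≤ (Q : ℝ) ^ ε → IsSquare (n : ZMod p)} ≤ C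

end Fermat.Agent.Cor.LS
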