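import Fermat.Agent.Corollaries.LS.LeastRes
import Mathlib

/-!
# The least `k`-th power non-residue (Vinogradov)

For every `ε > 0`, every sufficiently large prime `p` and every proper subgroup `H` of the
multiplicative group modulo `p` there is an `n ≤ p ^ (1 / (2 √e) + ε)` which is not in `H`.
-/

set_option autoImplicit false

open Finset DirichletCharacter Filter Topology

namespace Fermat.Agent.Cor.LS.PV

section Char

variable {p : ℕ} [Fact p.Prime]

theorem isPrimitive_of_ne_one {χ : DirichletCharacter ℂ p} (hχ : χ ≠ 1) : χ.IsPrimitive := by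
  rw [isPrimitive_def]
  rcases (Nat.dvd_prime (Fact.out : p.Prime)).mp χ.conductor_dvd_level with h | h
  · exact absurd (χ.eq_one_iff_conductor_eq_one.mpr h) hχ
  · exact h

theorem apply_eq_one_of_factors (χ : DirichletCharacter ℂ p) {n : ℕ} (hn : n ≠ 0)
    (h : ∀ q : ℕ, q.Prime → q ∣ n → χ (q : ZMod p) = 1) : χ (n : ZMod p) = 1 := by
  have h1 : χ ((n.primeFactorsList.prod : ℕ) : ZMod p) = 1 := by
    refine List.prod_induction (fun m : ℕ => χ (m : ZMod p) = 1) ?_ ?_ ?_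
    · intro a b ha hb
      rw [Nat.cast_mul, map_mul, ha, hb, one_mul]
    · rw [Nat.cast_one, map_one]
    · intro q hq
      exact h q (Nat.prime_of_mem_primeFactorsList hq) (Nat.dvd_of_mem_primeFactorsList hq)
  rwa [Nat.prod_primeFactorsList hn] at h1

open Classical in
theorem sub_two_mul_card_ne_one_le {χ : DirichletCharacter ℂ p} (hχ : χ ≠ 1) (X : ℕ) :
    (X : ℝ) - 2 * #((Ioc 0 X).filter fun n : ℕ => χ (n : ZMod p) ≠ 1) ≤ √p * Real.log p := by
  have hp1 : 1 < p := (Fact.out : p.Prime).one_lt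
  have h1 := norm_sum_range_le (isPrimitive_of_ne_one hχ) hp1 1 X
  have h2 : ∑ n ∈ range X, χ ((1 + n : ℤ) : ZMod p) = ∑ n ∈ Ioc 0 X, χ (n : ZMod p) := by
    have h3 := Finset.sum_Ico_add' (fun n : ℕ => χ (n : ZMod p)) 0 X 1
    have h4 : Ico (0 + 1) (X + 1) = Ioc 0 X := by
      ext n
      rw [Finset.mem_Ico, Finset.mem_Ioc]
      omega
    rw [h4] at h3
    rw [← h3, Finset.range_eq_Ico]
    refine Finset.sum_congr rfl fun n _ => ?_
    congr 1
    push_cast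
    ring
  have h5 : ∀ n ∈ Ioc 0 X, (1 - 2 * (if χ (n : ZMod p) ≠ 1 then 1 else 0) : ℝ) ≤
      (χ (n : ZMod p)).re := by
    intro n _
    by_cases h : χ (n : ZMod p) = 1
    · rw [if_neg (not_not.mpr h), h, Complex.one_re]
      norm_num
    · rw [if_pos h]
      have h6 := (Complex.abs_re_le_norm (χ (n : ZMod p))).trans (χ.norm_le_one _)
      have h7 := (abs_le.mp h6).1
      linarith
  have h6 := Finset.sum_le_sum h5
  rw [Finset.sum_sub_distrib, ← Finset.mul_sum, Finset.sum_boole, Finset.sum_const, Nat.card_Ioc,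
    nsmul_eq_mul, mul_one, Nat.sub_zero] at h6
  rw [h2] at h1
  refine h6.trans (le_trans ?_ h1)
  rw [← Complex.re_sum]
  exact Complex.re_le_norm _

open Classical in
theorem card_ne_one_le (χ : DirichletCharacter ℂ p) {y : ℝ} {X : ℕ}
    (h : ∀ n : ℕ, 1 ≤ n → (n : ℝ) ≤ y → χ (n : ZMod p) = 1) :
    (#((Ioc 0 X).filter fun n : ℕ => χ (n : ZMod p) ≠ 1) : ℝ) ≤
      X * ∑ q ∈ (Icc 1 X).filter (fun q : ℕ => q.Prime ∧ y < q), (q : ℝ)⁻¹ := by
  set P := (Icc 1 X).filter (fun q : ℕ => q.Prime ∧ y < q) with hP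
  have h1 : ((Ioc 0 X).filter fun n : ℕ => χ (n : ZMod p) ≠ 1) ⊆
      P.biUnion fun q => (Ioc 0 X).filter fun n => q ∣ n := by
    intro n hn
    rw [Finset.mem_filter, Finset.mem_Ioc] at hn
    rw [Finset.mem_biUnion]
    by_contra hc
    push Not at hc
    refine hn.2 (apply_eq_one_of_factors χ (by omega) fun q hq hqn => ?_)
    refine h q hq.one_le ?_
    by_contra hy
    push Not at hy
    refine hc q ?_ ?_
    · rw [hP, Finset.mem_filter, Finset.mem_Icc]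
      exact ⟨⟨hq.one_le, (Nat.le_of_dvd (by omega) hqn).trans hn.1.2⟩, hq, hy⟩
    · rw [Finset.mem_filter, Finset.mem_Ioc]
      exact ⟨hn.1, hqn⟩
  have h2 : (#((Ioc 0 X).filter fun n : ℕ => χ (n : ZMod p) ≠ 1) : ℝ) ≤
      ∑ q ∈ P, (#((Ioc 0 X).filter fun n => q ∣ n) : ℝ) := by
    exact_mod_cast (Finset.card_le_card h1).trans Finset.card_biUnion_le
  refine h2.trans ?_
  rw [Finset.mul_sum]
  refine Finset.sum_le_sum fun q hq => ?_
  rw [Nat.Ioc_filter_dvd_card_eq_div, ← div_eq_mul_inv]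
  exact Nat.cast_div_le

end Char

/-- **Vinogradov**: for every `ε > 0`, every sufficiently large prime `p` and every character
`χ ≠ 1` modulo `p` there is a positive `n < p`, `n ≤ p ^ (1 / (2 √e) + ε)`, with `χ(n) ≠ 1`. -/
theorem exists_apply_ne_one_le {ε : ℝ} (hε : 0 < ε) :
    ∀ᶠ p : ℕ in atTop, p.Prime → ∀ χ : DirichletCharacter ℂ p, χ ≠ 1 → ∃ n : ℕ, 1 ≤ n ∧ n < p ∧
      (n : ℝ) ≤ (p : ℝ) ^ (1 / (2 * √(Real.exp 1)) + ε) ∧ χ (n : ZMod p) ≠ 1 := by
  have hM := Mert.tendsto_sum_inv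
  set s : ℝ := √(Real.exp 1) with hs
  have hss : s * s = Real.exp 1 := Real.mul_self_sqrt (Real.exp_pos 1).le
  have he : (2 : ℝ) ≤ Real.exp 1 := by
    have := Real.add_one_le_exp (1 : ℝ)
    linarith
  have hs0 : 0 < s := Real.sqrt_pos.mpr (Real.exp_pos 1)
  have hs1 : 5 / 4 < s := by nlinarith
  have hlogs : Real.log s = 1 / 2 := by
    rw [hs, Real.log_sqrt (Real.exp_pos 1).le, Real.log_exp]
  set ε' : ℝ := min ε (1 / 10) with hε'
  have hε'0 : 0 < ε' := lt_min hε (by norm_num)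
  have hε'1 : ε' ≤ 1 / 10 := min_le_right _ _
  set θ : ℝ := 1 / (2 * s) + ε' with hθ
  set a : ℝ := 1 / 2 + ε' / 2 with ha
  have ha0 : 0 < a := by positivity
  have hθ0 : 0 < θ := by positivity
  have h2s : 1 / (2 * s) < 2 / 5 := by
    rw [div_lt_div_iff₀ (by positivity) (by norm_num)]
    linarith
  have hθa : θ ≤ a := by
    rw [hθ, ha]
    linarith
  have ha1 : a < 1 := by
    rw [ha]
    linarith
  have hκ : Real.log (a / θ) < 1 / 2 := by
    rw [← hlogs]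
    refine Real.log_lt_log (by positivity) ?_
    rw [div_lt_iff₀ hθ0, hθ, ha, mul_add, mul_one_div, div_mul_cancel_right₀ hs0.ne']
    nlinarith
  set η : ℝ := 1 - 2 * Real.log (a / θ) with hη
  have hη0 : 0 < η := by
    rw [hη]
    linarith
  have h1 := tendsto_ps_sub hM ha0 hθ0
  have h2 : ∀ᶠ t : ℝ in atTop, ps (t ^ a) - ps (t ^ θ) < Real.log (a / θ) + η / 4 :=
    h1.eventually_lt_const (by linarith)
  have h3 : ∀ᶠ t : ℝ in atTop, Real.log t < η / 8 * t ^ (ε' / 2) := by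
    have h4 := (isLittleO_log_rpow_atTop (half_pos hε'0)).def (c := η / 8 / 2) (by positivity)
    filter_upwards [h4, eventually_gt_atTop 1] with t ht ht1
    have h5 : 0 < t ^ (ε' / 2) := Real.rpow_pos_of_pos (by linarith) _
    rw [Real.norm_of_nonneg (Real.log_pos ht1).le, Real.norm_of_nonneg h5.le] at ht
    nlinarith
  have h4 : ∀ᶠ t : ℝ in atTop, 2 ≤ t ^ a := (tendsto_rpow_atTop ha0).eventually_ge_atTop 2
  have h5 := (h2.and (h3.and (h4.and (eventually_gt_atTop (2 : ℝ)))))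
  filter_upwards [tendsto_natCast_atTop_atTop.eventually h5] with p ⟨hp1, hp2, hp3, hp4⟩ hp χ hχ
  have : Fact p.Prime := ⟨hp⟩
  have hp0 : (0 : ℝ) < p := by linarith
  have hp1' : (1 : ℝ) < p := by linarith
  have hXp : ∀ {t : ℝ} {n : ℕ}, t < 1 → (n : ℝ) ≤ (p : ℝ) ^ t → n < p := by
    intro t n ht h6
    have h7 : (p : ℝ) ^ t < (p : ℝ) ^ (1 : ℝ) := Real.rpow_lt_rpow_of_exponent_lt hp1' ht
    rw [Real.rpow_one] at h7
    exact_mod_cast h6.trans_lt h7
  by_contra hc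
  push Not at hc
  set X : ℕ := ⌊(p : ℝ) ^ a⌋₊ with hX
  have hsq : ∀ n : ℕ, 1 ≤ n → (n : ℝ) ≤ (p : ℝ) ^ θ → χ (n : ZMod p) = 1 := by
    intro n hn hnp
    refine hc n hn (hXp (by linarith) hnp) (hnp.trans ?_)
    refine Real.rpow_le_rpow_of_exponent_le hp1'.le ?_
    rw [hθ]
    have := min_le_left ε (1 / 10)
    linarith
  have h6 := sub_two_mul_card_ne_one_le hχ X
  have h7 := card_ne_one_le (X := X) χ hsq
  rw [hX, sum_Ioc_prime_eq (by positivity)
    (Real.rpow_le_rpow_of_exponent_le hp1'.le hθa), ← hX] at h7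
  have h8 : (X : ℝ) * (η / 2) ≤ √p * Real.log p := by
    have h9 : (X : ℝ) * (ps ((p : ℝ) ^ a) - ps ((p : ℝ) ^ θ)) ≤
        X * (Real.log (a / θ) + η / 4) := mul_le_mul_of_nonneg_left hp1.le (Nat.cast_nonneg _)
    have h10 : (X : ℝ) * (η / 2) = X - 2 * (X * (Real.log (a / θ) + η / 4)) := by
      rw [hη]
      ring
    rw [h10]
    linarith
  have h9 : (p : ℝ) ^ a / 2 ≤ X := by
    have h10 := Nat.lt_floor_add_one ((p : ℝ) ^ a)
    rw [← hX] at h10
    linarith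
  have h10 : (p : ℝ) ^ a = √p * (p : ℝ) ^ (ε' / 2) := by
    rw [Real.sqrt_eq_rpow, ← Real.rpow_add hp0]
  have h11 : 0 < √(p : ℝ) := Real.sqrt_pos.mpr hp0
  have h12 : √(p : ℝ) * Real.log p < √p * (η / 8 * (p : ℝ) ^ (ε' / 2)) :=
    mul_lt_mul_of_pos_left hp2 h11
  have h14 : (p : ℝ) ^ a / 2 * (η / 2) ≤ X * (η / 2) :=
    mul_le_mul_of_nonneg_right h9 (by positivity)
  rw [h10] at h14
  have h15 : 0 < √(p : ℝ) * (p : ℝ) ^ (ε' / 2) * η := by positivity
  nlinarith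

/-- **Vinogradov**: proper subgroups of the multiplicative group modulo `p`. -/
theorem exists_notMem_subgroup_le {ε : ℝ} (hε : 0 < ε) :
    ∀ᶠ p : ℕ in atTop, p.Prime → ∀ H : Subgroup (ZMod p)ˣ, H ≠ ⊤ → ∃ n : ℕ, 1 ≤ n ∧ n < p ∧
      (n : ℝ) ≤ (p : ℝ) ^ (1 / (2 * √(Real.exp 1)) + ε) ∧
        ∀ u : (ZMod p)ˣ, (u : ZMod p) = n → u ∉ H := by
  filter_upwards [exists_apply_ne_one_le hε] with p hp1 hp H hH
  have : Fact p.Prime := ⟨hp⟩
  obtain ⟨g, hg⟩ : ∃ g, g ∉ H := by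
    by_contra h
    push Not at h
    exact hH ((Subgroup.eq_top_iff' H).mpr h)
  have hg1 : (QuotientGroup.mk' H g) ≠ 1 := by
    rw [QuotientGroup.mk'_apply, ne_eq, QuotientGroup.eq_one_iff]
    exact hg
  obtain ⟨φ, hφ⟩ := CommGroup.exists_apply_ne_one_of_hasEnoughRootsOfUnity
    ((ZMod p)ˣ ⧸ H) ℂ hg1
  set χ : DirichletCharacter ℂ p := MulChar.ofUnitHom (φ.comp (QuotientGroup.mk' H)) with hχ
  have hχu : ∀ u : (ZMod p)ˣ, χ (u : ZMod p) = φ (QuotientGroup.mk' H u) := fun u => by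
    rw [hχ, MulChar.ofUnitHom_coe]
    rfl
  have hχ1 : χ ≠ 1 := by
    intro h
    have h2 := hχu g
    rw [h, MulChar.one_apply_coe] at h2
    exact hφ (Units.ext h2.symm)
  obtain ⟨n, hn1, hn2, hn3, hn4⟩ := hp1 hp χ hχ1
  refine ⟨n, hn1, hn2, hn3, fun u hu huH => hn4 ?_⟩
  rw [← hu, hχu]
  have h3 : (QuotientGroup.mk' H u) = 1 := by
    rw [QuotientGroup.mk'_apply, QuotientGroup.eq_one_iff]
    exact huH
  rw [h3, map_one, Units.val_one]

/-- **Vinogradov: the least `k`-th power non-residue.** For every `ε > 0`, every sufficiently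
large prime `p` and every `k` which is not prime to `p - 1` there is a positive `n < p`,
`n ≤ p ^ (1 / (2 √e) + ε)`, which is not a `k`-th power modulo `p`. -/
theorem exists_not_pow_le {ε : ℝ} (hε : 0 < ε) :
    ∀ᶠ p : ℕ in atTop, p.Prime → ∀ k : ℕ, ¬ k.Coprime (p - 1) → ∃ n : ℕ, 1 ≤ n ∧ n < p ∧
      (n : ℝ) ≤ (p : ℝ) ^ (1 / (2 * √(Real.exp 1)) + ε) ∧ ∀ m : ZMod p, m ^ k ≠ n := by
  filter_upwards [exists_notMem_subgroup_le hε] with p hp1 hp k hk
  have : Fact p.Prime := ⟨hp⟩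
  have hcard : Nat.card (ZMod p)ˣ = p - 1 := by
    rw [Nat.card_eq_fintype_card, ZMod.card_units_eq_totient, Nat.totient_prime hp]
  have hH : (powMonoidHom k : (ZMod p)ˣ →* (ZMod p)ˣ).range ≠ ⊤ := by
    intro h
    have hsurj : Function.Surjective (powMonoidHom k : (ZMod p)ˣ →* (ZMod p)ˣ) :=
      MonoidHom.range_eq_top.mp h
    have hinj : Function.Injective (powMonoidHom k : (ZMod p)ˣ →* (ZMod p)ˣ) :=
      Finite.injective_iff_surjective.mpr hsurj
    obtain ⟨ℓ, hℓ, hℓk, hℓp⟩ := Nat.Prime.not_coprime_iff_dvd.mp hk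
    obtain ⟨u, hu⟩ := exists_prime_orderOf_dvd_card' (G := (ZMod p)ˣ) ℓ (hp := ⟨hℓ⟩)
      (by rw [hcard]; exact hℓp)
    have h1 : u ^ k = 1 := by
      obtain ⟨c, rfl⟩ := hℓk
      rw [pow_mul, ← hu, pow_orderOf_eq_one, one_pow]
    have h2 : u = 1 := hinj (by rw [powMonoidHom_apply, powMonoidHom_apply, h1, one_pow])
    rw [h2, orderOf_one] at hu
    exact hℓ.one_lt.ne hu
  obtain ⟨n, hn1, hn2, hn3, hn4⟩ := hp1 hp _ hH
  refine ⟨n, hn1, hn2, hn3, fun m hm => ?_⟩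
  have hn0 : (n : ZMod p) ≠ 0 := by
    intro h
    rw [ZMod.natCast_eq_zero_iff] at h
    exact absurd (Nat.le_of_dvd (by omega) h) (by omega)
  by_cases hk0 : k = 0
  · subst hk0
    refine hn4 1 ?_ (one_mem _)
    rw [← hm, pow_zero, Units.val_one]
  · have hm0 : m ≠ 0 := by
      rintro rfl
      rw [zero_pow hk0] at hm
      exact hn0 hm.symm
    refine hn4 (Units.mk0 m hm0 ^ k) ?_ ⟨Units.mk0 m hm0, rfl⟩
    rw [Units.val_pow_eq_pow_val, Units.val_mk0, hm]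

end Fermat.Agent.Cor.LS.PV
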