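import Fermat.Agent.Corollaries.LS.PolyaVin
import Fermat.Agent.Corollaries.Mertens.Rat
import Mathlib

/-!
# Vinogradov's theorem on the least quadratic non-residue (1918)

For every `ε > 0` and every sufficiently large prime `p` there is a quadratic non-residue modulo
`p` which is at most `p ^ (1 / (2 √e) + ε)`.
-/

set_option autoImplicit false

open Finset DirichletCharacter Filter Topology

namespace Fermat.Agent.Cor.LS.PV

/-! ### The quadratic character -/

section Char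

variable {p : ℕ} [Fact p.Prime]

/-- the Legendre symbol as a complex Dirichlet character -/
noncomputable def leg (p : ℕ) [Fact p.Prime] : DirichletCharacter ℂ p :=
  (quadraticChar (ZMod p)).ringHomComp (Int.castRingHom ℂ)

theorem leg_apply (a : ZMod p) : leg p a = ((quadraticChar (ZMod p) a : ℤ) : ℂ) := rfl

theorem leg_of_isSquare {a : ZMod p} (ha : a ≠ 0) (h : IsSquare a) : leg p a = 1 := by
  rw [leg_apply, (quadraticChar_one_iff_isSquare ha).mpr h, Int.cast_one]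

theorem leg_of_not_isSquare (hp : p ≠ 2) {a : ZMod p} (h : ¬ IsSquare a) : leg p a = -1 := by
  have hF : ringChar (ZMod p) ≠ 2 := by rwa [ZMod.ringChar_zmod_n]
  rw [leg_apply, quadraticChar_neg_one_iff_not_isSquare.mpr h, Int.cast_neg, Int.cast_one]

theorem isPrimitive_leg (hp : p ≠ 2) : (leg p).IsPrimitive := by
  have hF : ringChar (ZMod p) ≠ 2 := by rwa [ZMod.ringChar_zmod_n]
  have hne : leg p ≠ 1 := by
    obtain ⟨a, ha⟩ := FiniteField.exists_nonsquare hF
    intro h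
    have ha0 : a ≠ 0 := by
      rintro rfl
      exact ha ⟨0, by rw [mul_zero]⟩
    have h1 := leg_of_not_isSquare hp ha
    rw [h, MulChar.one_apply (Ne.isUnit ha0)] at h1
    norm_num at h1
  rw [isPrimitive_def]
  rcases (Nat.dvd_prime (Fact.out : p.Prime)).mp (leg p).conductor_dvd_level with h | h
  · exact absurd ((leg p).eq_one_iff_conductor_eq_one.mpr h) hne
  · exact h

/-- a product of squares -/
theorem isSquare_of_factors {n : ℕ} (hn : n ≠ 0)
    (h : ∀ q : ℕ, q.Prime → q ∣ n → IsSquare (q : ZMod p)) : IsSquare (n : ZMod p) := by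
  have h1 : IsSquare ((n.primeFactorsList.prod : ℕ) : ZMod p) := by
    refine List.prod_induction (fun m : ℕ => IsSquare (m : ZMod p)) ?_ ?_ ?_
    · intro a b ha hb
      rw [Nat.cast_mul]
      exact ha.mul hb
    · rw [Nat.cast_one]
      exact IsSquare.one
    · intro q hq
      exact h q (Nat.prime_of_mem_primeFactorsList hq) (Nat.dvd_of_mem_primeFactorsList hq)
  rwa [Nat.prod_primeFactorsList hn] at h1

open Classical in
/-- the number of the non-residues `≤ X < p` -/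
theorem sub_two_mul_card_le (hp : p ≠ 2) {X : ℕ} (hX : X < p) :
    (X : ℝ) - 2 * #((Ioc 0 X).filter fun n : ℕ => ¬ IsSquare (n : ZMod p)) ≤
      √p * Real.log p := by
  have hp1 : 1 < p := (Fact.out : p.Prime).one_lt
  have h1 := norm_sum_range_le (isPrimitive_leg hp) hp1 1 X
  have h2 : ∑ n ∈ range X, leg p ((1 + n : ℤ) : ZMod p) = ∑ n ∈ Ioc 0 X, leg p (n : ZMod p) := by
    have h3 := Finset.sum_Ico_add' (fun n : ℕ => leg p (n : ZMod p)) 0 X 1
    have h4 : Ico (0 + 1) (X + 1) = Ioc 0 X := by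
      ext n
      rw [Finset.mem_Ico, Finset.mem_Ioc]
      omega
    rw [h4] at h3
    rw [← h3, Finset.range_eq_Ico]
    refine Finset.sum_congr rfl fun n _ => ?_
    congr 1
    push_cast
    ring
  have h5 : ∀ n ∈ Ioc 0 X, leg p (n : ZMod p) =
      ((1 - 2 * (if ¬ IsSquare (n : ZMod p) then 1 else 0) : ℝ) : ℂ) := by
    intro n hn
    rw [Finset.mem_Ioc] at hn
    by_cases h : IsSquare (n : ZMod p)
    · rw [if_neg (not_not.mpr h), leg_of_isSquare ?_ h]
      · norm_num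
      · intro h0
        rw [ZMod.natCast_eq_zero_iff] at h0
        exact absurd (Nat.le_of_dvd hn.1 h0) (by omega)
    · rw [if_pos h, leg_of_not_isSquare hp h]
      norm_num
  rw [h2, Finset.sum_congr rfl h5, ← Complex.ofReal_sum, Complex.norm_real, Finset.sum_sub_distrib,
    ← Finset.mul_sum, Finset.sum_boole, Finset.sum_const, Nat.card_Ioc, nsmul_eq_mul, mul_one,
    Nat.sub_zero] at h1
  exact (Real.le_norm_self _).trans h1

open Classical in
/-- if all `n ≤ y` are squares, the non-residues `≤ X` have a prime factor `> y` -/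
theorem card_nonsquare_le {y : ℝ} {X : ℕ}
    (h : ∀ n : ℕ, 1 ≤ n → (n : ℝ) ≤ y → IsSquare (n : ZMod p)) :
    (#((Ioc 0 X).filter fun n : ℕ => ¬ IsSquare (n : ZMod p)) : ℝ) ≤
      X * ∑ q ∈ (Icc 1 X).filter (fun q : ℕ => q.Prime ∧ y < q), (q : ℝ)⁻¹ := by
  set P := (Icc 1 X).filter (fun q : ℕ => q.Prime ∧ y < q) with hP
  have h1 : ((Ioc 0 X).filter fun n : ℕ => ¬ IsSquare (n : ZMod p)) ⊆
      P.biUnion fun q => (Ioc 0 X).filter fun n => q ∣ n := by
    intro n hn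
    rw [Finset.mem_filter, Finset.mem_Ioc] at hn
    rw [Finset.mem_biUnion]
    by_contra hc
    push Not at hc
    refine hn.2 (isSquare_of_factors (by omega) fun q hq hqn => ?_)
    refine h q hq.one_le ?_
    by_contra hy
    push Not at hy
    refine hc q ?_ ?_
    · rw [hP, Finset.mem_filter, Finset.mem_Icc]
      exact ⟨⟨hq.one_le, (Nat.le_of_dvd (by omega) hqn).trans hn.1.2⟩, hq, hy⟩
    · rw [Finset.mem_filter, Finset.mem_Ioc]
      exact ⟨hn.1, hqn⟩
  have h2 : (#((Ioc 0 X).filter fun n : ℕ => ¬ IsSquare (n : ZMod p)) : ℝ) ≤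
      ∑ q ∈ P, (#((Ioc 0 X).filter fun n => q ∣ n) : ℝ) := by
    exact_mod_cast (Finset.card_le_card h1).trans Finset.card_biUnion_le
  refine h2.trans ?_
  rw [Finset.mul_sum]
  refine Finset.sum_le_sum fun q hq => ?_
  rw [Nat.Ioc_filter_dvd_card_eq_div, ← div_eq_mul_inv]
  exact Nat.cast_div_le

end Char

/-! ### The sums of `1 / q` -/

/-- `∑_{q ≤ t, q prime} 1 / q` -/
noncomputable def ps (t : ℝ) : ℝ := ∑ q ∈ (Icc 1 ⌊t⌋₊).filter Nat.Prime, (q : ℝ)⁻¹

theorem sum_Ioc_prime_eq {x y : ℝ} (hy : 0 ≤ y) (hxy : y ≤ x) :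
    ∑ q ∈ (Icc 1 ⌊x⌋₊).filter (fun q : ℕ => q.Prime ∧ y < q), (q : ℝ)⁻¹ = ps x - ps y := by
  have h1 : (Icc 1 ⌊x⌋₊).filter Nat.Prime =
      (Icc 1 ⌊x⌋₊).filter (fun q : ℕ => q.Prime ∧ y < q) ∪ (Icc 1 ⌊y⌋₊).filter Nat.Prime := by
    ext q
    have h2 : ⌊y⌋₊ ≤ ⌊x⌋₊ := Nat.floor_le_floor hxy
    have h3 : y < q ↔ ⌊y⌋₊ < q := (Nat.floor_lt hy).symm
    rw [Finset.mem_union, Finset.mem_filter, Finset.mem_filter, Finset.mem_filter, Finset.mem_Icc,
      Finset.mem_Icc, h3]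
    constructor
    · rintro ⟨⟨h4, h5⟩, h6⟩
      by_cases h7 : ⌊y⌋₊ < q
      · exact Or.inl ⟨⟨h4, h5⟩, h6, h7⟩
      · exact Or.inr ⟨⟨h4, by omega⟩, h6⟩
    · rintro (⟨h4, h5, _⟩ | ⟨⟨h4, h5⟩, h6⟩)
      · exact ⟨h4, h5⟩
      · exact ⟨⟨h4, by omega⟩, h6⟩
  have h2 : Disjoint ((Icc 1 ⌊x⌋₊).filter (fun q : ℕ => q.Prime ∧ y < q))
      ((Icc 1 ⌊y⌋₊).filter Nat.Prime) := by
    rw [Finset.disjoint_left]
    intro q hq hq'
    rw [Finset.mem_filter] at hq hq'
    rw [Finset.mem_Icc] at hq'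
    exact absurd ((Nat.floor_lt hy).mpr hq.2.2) (by omega)
  rw [ps, ps, h1, Finset.sum_union h2]
  ring

/-- the sum over `t^θ < q ≤ t^a` tends to `log (a / θ)` -/
theorem tendsto_ps_sub {M : ℝ} (hM : Tendsto (fun x : ℝ => ps x - Real.log (Real.log x)) atTop (𝓝 M))
    {a θ : ℝ} (ha : 0 < a) (hθ : 0 < θ) :
    Tendsto (fun t : ℝ => ps (t ^ a) - ps (t ^ θ)) atTop (𝓝 (Real.log (a / θ))) := by
  have h1 := (hM.comp (tendsto_rpow_atTop ha)).sub (hM.comp (tendsto_rpow_atTop hθ))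
  rw [sub_self] at h1
  have h2 := h1.add (tendsto_const_nhds (x := Real.log (a / θ)))
  rw [zero_add] at h2
  refine h2.congr' ?_
  filter_upwards [eventually_gt_atTop 1] with t ht
  have ht0 : 0 < t := by linarith
  have hl : 0 < Real.log t := Real.log_pos ht
  simp only [Function.comp_apply]
  rw [Real.log_rpow ht0, Real.log_rpow ht0, Real.log_mul ha.ne' hl.ne', Real.log_mul hθ.ne' hl.ne',
    Real.log_div ha.ne' hθ.ne']
  ring

/-- the theorem, from Mertens' theorem -/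
theorem exists_nonresidue_of {M : ℝ}
    (hM : Tendsto (fun x : ℝ => ps x - Real.log (Real.log x)) atTop (𝓝 M)) {ε : ℝ} (hε : 0 < ε) :
    ∀ᶠ p : ℕ in atTop, p.Prime → ∃ n : ℕ, 1 ≤ n ∧
      (n : ℝ) ≤ (p : ℝ) ^ (1 / (2 * √(Real.exp 1)) + ε) ∧ ¬ IsSquare (n : ZMod p) := by
  set s : ℝ := √(Real.exp 1) with hs
  have hss : s * s = Real.exp 1 := Real.mul_self_sqrt (Real.exp_pos 1).le
  have he : (2 : ℝ) ≤ Real.exp 1 := by
    have := Real.add_one_le_exp (1 : ℝ)
    linarith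
  have hs0 : 0 < s := Real.sqrt_pos.mpr (Real.exp_pos 1)
  have hs1 : 5 / 4 < s := by nlinarith
  have hlogs : Real.log s = 1 / 2 := by
    rw [hs, Real.log_sqrt (Real.exp_pos 1).le, Real.log_exp]
  set ε' : ℝ := min ε (1 / 10) with hε'
  have hε'0 : 0 < ε' := lt_min hε (by norm_num)
  have hε'1 : ε' ≤ 1 / 10 := min_le_right _ _
  set θ : ℝ := 1 / (2 * s) + ε' with hθ
  set a : ℝ := 1 / 2 + ε' / 2 with ha
  have ha0 : 0 < a := by positivity
  have hθ0 : 0 < θ := by positivity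
  have h2s : 1 / (2 * s) < 2 / 5 := by
    rw [div_lt_div_iff₀ (by positivity) (by norm_num)]
    linarith
  have hθa : θ ≤ a := by
    rw [hθ, ha]
    linarith
  have ha1 : a < 1 := by
    rw [ha]
    linarith
  have hκ : Real.log (a / θ) < 1 / 2 := by
    rw [← hlogs]
    refine Real.log_lt_log (by positivity) ?_
    rw [div_lt_iff₀ hθ0, hθ, ha, mul_add, mul_one_div, div_mul_cancel_right₀ hs0.ne']
    nlinarith
  set η : ℝ := 1 - 2 * Real.log (a / θ) with hη
  have hη0 : 0 < η := by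
    rw [hη]
    linarith
  have h1 := tendsto_ps_sub hM ha0 hθ0
  have h2 : ∀ᶠ t : ℝ in atTop, ps (t ^ a) - ps (t ^ θ) < Real.log (a / θ) + η / 4 :=
    h1.eventually_lt_const (by linarith)
  have h3 : ∀ᶠ t : ℝ in atTop, Real.log t < η / 8 * t ^ (ε' / 2) := by
    have h4 := (isLittleO_log_rpow_atTop (half_pos hε'0)).def (c := η / 8 / 2) (by positivity)
    filter_upwards [h4, eventually_gt_atTop 1] with t ht ht1
    have h5 : 0 < t ^ (ε' / 2) := Real.rpow_pos_of_pos (by linarith) _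
    rw [Real.norm_of_nonneg (Real.log_pos ht1).le, Real.norm_of_nonneg h5.le] at ht
    nlinarith
  have h4 : ∀ᶠ t : ℝ in atTop, 2 ≤ t ^ a := (tendsto_rpow_atTop ha0).eventually_ge_atTop 2
  have h5 := (h2.and (h3.and (h4.and (eventually_gt_atTop (2 : ℝ)))))
  filter_upwards [tendsto_natCast_atTop_atTop.eventually h5] with p ⟨hp1, hp2, hp3, hp4⟩ hp
  by_contra hc
  push Not at hc
  have : Fact p.Prime := ⟨hp⟩
  have hp2' : p ≠ 2 := by
    rintro rfl
    norm_num at hp4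
  have hp0 : (0 : ℝ) < p := by linarith
  have hp1' : (1 : ℝ) < p := by linarith
  set X : ℕ := ⌊(p : ℝ) ^ a⌋₊ with hX
  have hXp : X < p := by
    have h6 : (X : ℝ) ≤ (p : ℝ) ^ a := Nat.floor_le (by positivity)
    have h7 : (p : ℝ) ^ a < (p : ℝ) ^ (1 : ℝ) := Real.rpow_lt_rpow_of_exponent_lt hp1' ha1
    rw [Real.rpow_one] at h7
    exact_mod_cast h6.trans_lt h7
  have hsq : ∀ n : ℕ, 1 ≤ n → (n : ℝ) ≤ (p : ℝ) ^ θ → IsSquare (n : ZMod p) := by
    intro n hn hnp
    refine hc n hn (hnp.trans ?_)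
    refine Real.rpow_le_rpow_of_exponent_le hp1'.le ?_
    rw [hθ]
    have := min_le_left ε (1 / 10)
    linarith
  have h6 := sub_two_mul_card_le hp2' hXp
  have h7 := card_nonsquare_le (X := X) hsq
  rw [hX, sum_Ioc_prime_eq (by positivity)
    (Real.rpow_le_rpow_of_exponent_le hp1'.le hθa), ← hX] at h7
  have hX0 : (1 : ℝ) ≤ X := by
    have : 1 ≤ X := Nat.le_floor (by push_cast; linarith)
    exact_mod_cast this
  have h8 : (X : ℝ) * (η / 2) ≤ √p * Real.log p := by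
    have h9 : (X : ℝ) * (ps ((p : ℝ) ^ a) - ps ((p : ℝ) ^ θ)) ≤
        X * (Real.log (a / θ) + η / 4) := mul_le_mul_of_nonneg_left hp1.le (by linarith)
    have h10 : (X : ℝ) * (η / 2) = X - 2 * (X * (Real.log (a / θ) + η / 4)) := by
      rw [hη]
      ring
    rw [h10]
    linarith
  have h9 : (p : ℝ) ^ a / 2 ≤ X := by
    have h10 := Nat.lt_floor_add_one ((p : ℝ) ^ a)
    rw [← hX] at h10
    linarith
  have h10 : (p : ℝ) ^ a = √p * (p : ℝ) ^ (ε' / 2) := by
    rw [Real.sqrt_eq_rpow, ← Real.rpow_add hp0]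
  have h11 : 0 < √(p : ℝ) := Real.sqrt_pos.mpr hp0
  have h12 : √(p : ℝ) * Real.log p < √p * (η / 8 * (p : ℝ) ^ (ε' / 2)) :=
    mul_lt_mul_of_pos_left hp2 h11
  have h13 : 0 < (p : ℝ) ^ (ε' / 2) := Real.rpow_pos_of_pos hp0 _
  have h14 : (p : ℝ) ^ a / 2 * (η / 2) ≤ X * (η / 2) :=
    mul_le_mul_of_nonneg_right h9 (by positivity)
  rw [h10] at h14
  have h15 : 0 < √(p : ℝ) * (p : ℝ) ^ (ε' / 2) * η := by positivity
  nlinarith

/-- **Vinogradov (1918): the least quadratic non-residue.** For every `ε > 0` and every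
sufficiently large prime `p` there is a quadratic non-residue `n ≤ p ^ (1 / (2 √e) + ε)`. -/
theorem exists_nonresidue_le {ε : ℝ} (hε : 0 < ε) :
    ∀ᶠ p : ℕ in atTop, p.Prime → ∃ n : ℕ, 1 ≤ n ∧
      (n : ℝ) ≤ (p : ℝ) ^ (1 / (2 * √(Real.exp 1)) + ε) ∧ ¬ IsSquare (n : ZMod p) :=
  exists_nonresidue_of Mert.tendsto_sum_inv hε

end Fermat.Agent.Cor.LS.PV
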