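import Fermat.Agent.Corollaries.LS.Defs

/-!
# Linnik's theorem on the least quadratic non-residue, from the large sieve
-/

set_option autoImplicit false

open Finset Filter

noncomputable section

namespace Fermat.Agent.Cor.LS

open Classical in
/-- the non-squares modulo `p` -/
def nsq (p : ℕ) : Finset (ZMod p) :=
  if h : p = 0 then ∅ else
    haveI : NeZero p := ⟨h⟩
    (univ : Finset (ZMod p)).filter fun x => ¬ IsSquare x

theorem mem_nsq {p : ℕ} (hp : p ≠ 0) (x : ZMod p) : x ∈ nsq p ↔ ¬ IsSquare x := by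
  unfold nsq
  rw [dif_neg hp]
  have : NeZero p := ⟨hp⟩
  rw [mem_filter]
  exact ⟨fun h => h.2, fun h => ⟨mem_univ _, h⟩⟩

theorem card_nsq {p : ℕ} (hp : p.Prime) (h3 : 3 ≤ p) : 2 * #(nsq p) + 1 = p := by
  classical
  have : Fact p.Prime := ⟨hp⟩
  have hr : ringChar (ZMod p) ≠ 2 := by
    rw [ZMod.ringChar_zmod_n]
    omega
  have h1 := quadraticChar_sum_zero hr
  have h2 : ∀ a : ZMod p, quadraticChar (ZMod p) a =
      1 - (if a = 0 then 1 else 0) - 2 * (if a ∈ nsq p then 1 else 0) := by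
    intro a
    by_cases h0 : a = 0
    · rw [h0, MulChar.map_zero, if_pos rfl, if_neg]
      · norm_num
      · rw [mem_nsq hp.ne_zero]
        exact fun h => h (IsSquare.zero)
    · rw [if_neg h0]
      by_cases hs : IsSquare a
      · rw [(quadraticChar_one_iff_isSquare h0).mpr hs, if_neg]
        · norm_num
        · rw [mem_nsq hp.ne_zero]
          exact fun h => h hs
      · rw [quadraticChar_neg_one_iff_not_isSquare.mpr hs, if_pos]
        · norm_num
        · rw [mem_nsq hp.ne_zero]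
          exact hs
  simp only [h2] at h1
  rw [sum_sub_distrib, sum_sub_distrib, ← mul_sum, Finset.sum_boole, Finset.sum_boole, sum_const,
    card_univ, ZMod.card, filter_mem_eq_inter, univ_inter, Finset.filter_eq', if_pos (mem_univ _),
    card_singleton] at h1
  simp only [nsmul_eq_mul, mul_one, Nat.cast_one] at h1
  have h4 : (2 * #(nsq p) + 1 : ℤ) = p := by linarith
  exact_mod_cast h4

theorem isSquare_of_primes {R : Type*} [CommSemiring R] (n : ℕ) :
    (∀ l : ℕ, l.Prime → l ∣ n → IsSquare (l : R)) → IsSquare (n : R) := by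
  induction n using Nat.recOnMul with
  | zero =>
    intro _
    rw [Nat.cast_zero]
    exact IsSquare.zero
  | one =>
    intro _
    rw [Nat.cast_one]
    exact IsSquare.one
  | prime p hp => exact fun h => h p hp dvd_rfl
  | mul a b ha hb =>
    intro h
    rw [Nat.cast_mul]
    exact (ha fun l hl hla => h l hl (hla.mul_right b)).mul
      (hb fun l hl hlb => h l hl (hlb.mul_left a))

/-- (L5) -/
theorem linnikStmt (h3 : SieveStmt) (h4 : SmoothStmt) : LinnikStmt := by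
  classical
  intro ε hε
  obtain ⟨c, hc, h5⟩ := h4 (ε / 2) (by positivity)
  have hQ : Tendsto (fun Q : ℕ => Q ^ 2) atTop atTop := tendsto_pow_atTop two_ne_zero
  obtain ⟨Q₀, hQ₀⟩ := eventually_atTop.mp (hQ.eventually h5)
  refine ⟨max Q₀ ⌈2 * (1 + 2 * Real.pi) / c⌉₊, fun Q => ?_⟩
  set P : Finset ℕ := (Icc 3 Q).filter fun p => p.Prime ∧
    ∀ n : ℕ, 1 ≤ n → (n : ℝ) ≤ (Q : ℝ) ^ ε → IsSquare (n : ZMod p) with hP
  have hcard : Nat.card {p : ℕ | 3 ≤ p ∧ p ≤ Q ∧ p.Prime ∧
      ∀ n : ℕ, 1 ≤ n → (n : ℝ) ≤ (Q : ℝ) ^ ε → IsSquare (n : ZMod p)} = #P := by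
    rw [Nat.card_coe_set_eq, ← Set.ncard_coe_finset P]
    congr 1
    ext p
    rw [hP, Finset.mem_coe, mem_filter, mem_Icc, Set.mem_ofPred_eq, and_assoc]
  rw [hcard]
  rcases lt_or_ge Q Q₀ with hlt | hge
  · have h6 : #P ≤ Q := by
      refine (card_le_card (filter_subset _ _)).trans ?_
      rw [Nat.card_Icc]
      omega
    omega
  · rcases Nat.eq_zero_or_pos Q with h0 | hQ0
    · have h6 : #P ≤ Q := by
        refine (card_le_card (filter_subset _ _)).trans ?_
        rw [Nat.card_Icc]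
        omega
      omega
    have h6 := hQ₀ Q hge
    have hQR : (1 : ℝ) ≤ Q := by exact_mod_cast hQ0
    set A : Finset ℕ := (Icc 1 (Q ^ 2)).filter fun n => ∀ p : ℕ, p.Prime → p ∣ n →
      (p : ℝ) ≤ ((Q ^ 2 : ℕ) : ℝ) ^ (ε / 2) with hA
    have hAcard : Nat.card {n : ℕ | 1 ≤ n ∧ n ≤ Q ^ 2 ∧ ∀ p : ℕ, p.Prime → p ∣ n →
        (p : ℝ) ≤ ((Q ^ 2 : ℕ) : ℝ) ^ (ε / 2)} = #A := by
      rw [Nat.card_coe_set_eq, ← Set.ncard_coe_finset A]
      congr 1
      ext n
      rw [hA, Finset.mem_coe, mem_filter, mem_Icc, Set.mem_ofPred_eq, and_assoc]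
    rw [hAcard] at h6
    have hpow : ((Q ^ 2 : ℕ) : ℝ) ^ (ε / 2) = (Q : ℝ) ^ ε := by
      push_cast
      rw [← Real.rpow_natCast, ← Real.rpow_mul (by positivity)]
      congr 1
      push_cast
      ring
    have h7 := h3 (Q ^ 2 + 1) Q A P nsq (fun n hn => by
      rw [hA, mem_filter, mem_Icc] at hn
      rw [mem_range]
      omega) (fun p hp => by
      rw [hP, mem_filter, mem_Icc] at hp
      exact ⟨hp.2.1, hp.1.2⟩) (fun p hp n hn => by
      rw [hP, mem_filter, mem_Icc] at hp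
      rw [hA, mem_filter, mem_Icc] at hn
      rw [mem_nsq hp.2.1.ne_zero, not_not]
      refine isSquare_of_primes n fun l hl hln => ?_
      exact hp.2.2 l hl.one_lt.le ((hn.2 l hl hln).trans_eq hpow)) (fun p hp => by
      rw [hP, mem_filter, mem_Icc] at hp
      have := card_nsq hp.2.1 hp.1.1
      omega)
    have h8 : (#P : ℝ) / 2 ≤ ∑ p ∈ P, ((#(nsq p) : ℝ) / (p - #(nsq p))) := by
      have h9 : ∀ p ∈ P, (1 / 2 : ℝ) ≤ (#(nsq p) : ℝ) / (p - #(nsq p)) := by
        intro p hp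
        rw [hP, mem_filter, mem_Icc] at hp
        have h10 := card_nsq hp.2.1 hp.1.1
        have h11 : (p : ℝ) = 2 * #(nsq p) + 1 := by exact_mod_cast h10.symm
        have h12 : (1 : ℝ) ≤ #(nsq p) := by
          have : 1 ≤ #(nsq p) := by
            have := hp.1.1
            omega
          exact_mod_cast this
        rw [h11, div_le_div_iff₀ two_pos (by linarith)]
        linarith
      have := card_nsmul_le_sum P _ _ h9
      rw [nsmul_eq_mul] at this
      linarith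
    have hcast : ((Q ^ 2 + 1 : ℕ) : ℝ) = (Q : ℝ) ^ 2 + 1 := by push_cast; ring
    rw [hcast] at h7
    have h6' : c * (Q : ℝ) ^ 2 ≤ #A := by
      have : ((Q ^ 2 : ℕ) : ℝ) = (Q : ℝ) ^ 2 := by push_cast; ring
      rw [this] at h6
      exact h6
    have hQ2 : (1 : ℝ) ≤ (Q : ℝ) ^ 2 := one_le_pow₀ hQR
    have h10 : c * (Q : ℝ) ^ 2 * ((#P : ℝ) / 2) ≤ (1 + 2 * Real.pi) * (Q : ℝ) ^ 2 := by
      calc c * (Q : ℝ) ^ 2 * ((#P : ℝ) / 2) ≤ #A * ((#P : ℝ) / 2) :=
            mul_le_mul_of_nonneg_right h6' (by positivity)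
        _ ≤ #A * ∑ p ∈ P, ((#(nsq p) : ℝ) / (p - #(nsq p))) :=
            mul_le_mul_of_nonneg_left h8 (Nat.cast_nonneg _)
        _ ≤ (Q : ℝ) ^ 2 + Real.pi * ((Q : ℝ) ^ 2 + 1) := h7
        _ ≤ _ := by nlinarith [Real.pi_pos]
    have h11 : (#P : ℝ) ≤ 2 * (1 + 2 * Real.pi) / c := by
      rw [le_div_iff₀ hc]
      have h12 : c * ((#P : ℝ) / 2) * (Q : ℝ) ^ 2 ≤ (1 + 2 * Real.pi) * (Q : ℝ) ^ 2 := by
        linarith
      have h13 := le_of_mul_le_mul_right h12 (by linarith)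
      linarith
    refine le_max_of_le_right ?_
    exact_mod_cast h11.trans (Nat.le_ceil _)

end Fermat.Agent.Cor.LS
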