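import Fermat.Agent.Corollaries.LS.Defs

/-!
# The large sieve: one prime modulus
-/

set_option autoImplicit false

open Finset

noncomputable section

namespace Fermat.Agent.Cor.LS

open scoped ComplexConjugate

theorem e_eq_stdAddChar (p : ℕ) [hp : Fact p.Prime] (n b : ℕ) :
    e (n * (b / p)) = ZMod.stdAddChar ((n : ZMod p) * (b : ZMod p)) := by
  have h : ((n : ZMod p) * (b : ZMod p)) = (((n * b : ℕ) : ℤ) : ZMod p) := by push_cast; rfl
  rw [h, ZMod.stdAddChar_coe]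
  unfold e
  congr 1
  push_cast
  ring

theorem sum_zmod (p : ℕ) [hp : Fact p.Prime] (f : ZMod p → ℝ) :
    ∑ x : ZMod p, f x = f 0 + ∑ b ∈ Icc 1 (p - 1), f (b : ZMod p) := by
  have h1 : ∑ x : ZMod p, f x = ∑ b ∈ range p, f (b : ZMod p) := by
    refine sum_nbij' (fun x => x.val) (fun b => (b : ZMod p)) ?_ ?_ ?_ ?_ ?_
    · intro x _
      exact mem_range.mpr (ZMod.val_lt x)
    · intro b _
      exact mem_univ _
    · intro x _
      exact ZMod.natCast_zmod_val x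
    · intro b hb
      exact ZMod.val_cast_of_lt (mem_range.mp hb)
    · intro x _
      rw [ZMod.natCast_zmod_val]
  have h2 : range p = insert 0 (Icc 1 (p - 1)) := by
    have := hp.out.pos
    ext b
    simp only [mem_range, mem_insert, mem_Icc]
    omega
  rw [h1, h2, sum_insert (by simp), Nat.cast_zero]

theorem parseval_zmod (p : ℕ) [hp : Fact p.Prime] (Z : ZMod p → ℝ) :
    ∑ x : ZMod p, ‖∑ c : ZMod p, (Z c : ℂ) * ZMod.stdAddChar (c * x)‖ ^ 2 =
      p * ∑ c, Z c ^ 2 := by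
  have hprim := ZMod.isPrimitive_stdAddChar p
  have h : ((∑ x : ZMod p, ‖∑ c : ZMod p, (Z c : ℂ) * ZMod.stdAddChar (c * x)‖ ^ 2 : ℝ) : ℂ) =
      ((p * ∑ c, Z c ^ 2 : ℝ) : ℂ) := by
    push_cast
    have h1 : ∀ x : ZMod p, ((‖∑ c : ZMod p, (Z c : ℂ) * ZMod.stdAddChar (c * x)‖ : ℝ) : ℂ) ^ 2 =
        ∑ c : ZMod p, ∑ d : ZMod p, (Z c : ℂ) * Z d * ZMod.stdAddChar (x * (c - d)) := by
      intro x
      rw [← Complex.mul_conj', map_sum, Finset.sum_mul_sum]
      refine sum_congr rfl fun c _ => sum_congr rfl fun d _ => ?_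
      rw [map_mul (starRingEnd ℂ), Complex.conj_ofReal, ← AddChar.map_neg_eq_conj]
      have h2 : ZMod.stdAddChar (x * (c - d)) =
          ZMod.stdAddChar (c * x) * ZMod.stdAddChar (-(d * x)) := by
        rw [← AddChar.map_add_eq_mul]
        congr 1
        ring
      rw [h2]
      ring
    simp only [h1]
    rw [Finset.sum_comm]
    have h3 : ∀ c : ZMod p, ∑ x : ZMod p, ∑ d : ZMod p,
        (Z c : ℂ) * Z d * ZMod.stdAddChar (x * (c - d)) = p * (Z c : ℂ) ^ 2 := by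
      intro c
      rw [Finset.sum_comm]
      rw [Finset.sum_eq_single_of_mem c (mem_univ c)]
      · rw [← Finset.mul_sum, sub_self]
        simp only [mul_zero, AddChar.map_zero_eq_one, sum_const, card_univ, ZMod.card, nsmul_eq_mul,
          mul_one]
        ring
      · intro d _ hd
        rw [← Finset.mul_sum, AddChar.sum_mulShift _ hprim, if_neg (sub_ne_zero.mpr hd.symm)]
        simp
    rw [Finset.sum_congr rfl fun c _ => h3 c, Finset.mul_sum]
  exact_mod_cast h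

/-- (L2) -/
theorem primeStmt : PrimeStmt := by
  intro p hp A R hA hR
  have hp0 : (0 : ℝ) < p := by exact_mod_cast hp.out.pos
  have hd : (0 : ℝ) < p - #R := by
    have : (#R : ℝ) < p := by exact_mod_cast hR
    linarith
  set Z : ZMod p → ℝ := fun c => (#{n ∈ A | ((n : ℕ) : ZMod p) = c} : ℝ) with hZ
  -- the exponential sum in terms of `Z`
  have h1 : ∀ x : ZMod p, ∑ n ∈ A, ZMod.stdAddChar ((n : ZMod p) * x) =
      ∑ c : ZMod p, (Z c : ℂ) * ZMod.stdAddChar (c * x) := by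
    intro x
    rw [← Finset.sum_fiberwise_of_maps_to (g := fun n : ℕ => (n : ZMod p))
      (t := univ) (fun n _ => mem_univ _)]
    refine sum_congr rfl fun c _ => ?_
    rw [Finset.sum_congr rfl (g := fun _ => ZMod.stdAddChar (c * x)) (fun n hn => by
      rw [(mem_filter.mp hn).2]), sum_const, nsmul_eq_mul, hZ]
    push_cast
    rfl
  -- Cauchy - Schwarz
  have h2 : (#A : ℝ) = ∑ c ∈ univ \ R, Z c := by
    rw [hZ]
    have := card_eq_sum_card_fiberwise (s := A) (t := univ \ R) (f := fun n : ℕ => (n : ZMod p))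
      (fun n hn => by
        rw [mem_coe, mem_sdiff]
        exact ⟨mem_univ _, hA n hn⟩)
    simp only
    exact_mod_cast this
  have h3 : (#A : ℝ) ^ 2 ≤ (p - #R) * ∑ c, Z c ^ 2 := by
    rw [h2]
    have h4 := sq_sum_le_card_mul_sum_sq (s := univ \ R) (f := Z)
    have h5 : (#(univ \ R) : ℝ) = p - #R := by
      rw [card_sdiff_of_subset (subset_univ R), card_univ, ZMod.card, Nat.cast_sub hR.le]
    rw [h5] at h4
    refine h4.trans (mul_le_mul_of_nonneg_left ?_ hd.le)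
    exact sum_le_sum_of_subset_of_nonneg (subset_univ _) fun _ _ _ => sq_nonneg _
  have h6 := sum_zmod p (fun x => ‖∑ c : ZMod p, (Z c : ℂ) * ZMod.stdAddChar (c * x)‖ ^ 2)
  rw [parseval_zmod] at h6
  have h7 : ‖∑ c : ZMod p, (Z c : ℂ) * ZMod.stdAddChar (c * 0)‖ ^ 2 = (#A : ℝ) ^ 2 := by
    rw [← h1 0]
    simp
  rw [h7] at h6
  have h8 : ∑ b ∈ Icc 1 (p - 1), ‖∑ n ∈ A, e (n * (b / p))‖ ^ 2 =
      ∑ b ∈ Icc 1 (p - 1), ‖∑ c : ZMod p, (Z c : ℂ) * ZMod.stdAddChar (c * (b : ZMod p))‖ ^ 2 := by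
    refine sum_congr rfl fun b _ => ?_
    rw [← h1]
    congr 2
    exact sum_congr rfl fun n _ => e_eq_stdAddChar p n b
  rw [h8]
  have h9 : ∑ b ∈ Icc 1 (p - 1), ‖∑ c : ZMod p, (Z c : ℂ) *
      ZMod.stdAddChar (c * (b : ZMod p))‖ ^ 2 = p * ∑ c, Z c ^ 2 - (#A : ℝ) ^ 2 := by linarith
  rw [h9]
  have h10 : (#A : ℝ) ^ 2 / (p - #R) ≤ ∑ c, Z c ^ 2 := by
    rw [div_le_iff₀ hd]
    linarith
  have h11 : (#A : ℝ) ^ 2 * (#R / (p - #R)) = p * ((#A : ℝ) ^ 2 / (p - #R)) - (#A : ℝ) ^ 2 := by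
    have h12 : (#R : ℝ) / (p - #R) = p / (p - #R) - 1 := by
      rw [div_sub_one hd.ne', sub_sub_cancel]
    rw [h12]
    ring
  rw [h11]
  have := mul_le_mul_of_nonneg_left h10 hp0.le
  linarith

end Fermat.Agent.Cor.LS
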