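import Fermat.Agent.Corollaries.LS.Defs

/-!
# The arithmetical large sieve for prime moduli
-/

set_option autoImplicit false

open Finset

namespace Fermat.Agent.Cor.LS

/-- (L3) -/
theorem sieveStmt (h1 : LargeSieveStmt) (h2 : PrimeStmt) : SieveStmt := by
  intro N Q A P R hA hP hR hR'
  classical
  rcases P.eq_empty_or_nonempty with rfl | ⟨p0, hp0⟩
  · rw [sum_empty, mul_zero]
    positivity
  have hQ : 1 ≤ Q := ((hP p0 hp0).1.one_le).trans (hP p0 hp0).2
  have h3 := h1 (fun n => if n ∈ A then 1 else 0) N Q hQ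
  have ha : ∀ x : ℕ → ℂ, ∑ n ∈ range N, (if n ∈ A then (1 : ℂ) else 0) * x n =
      ∑ n ∈ A, x n := by
    intro x
    simp only [ite_mul, one_mul, zero_mul, sum_ite_mem, inter_eq_right.mpr hA]
  have hb : ∑ n ∈ range N, ‖if n ∈ A then (1 : ℂ) else 0‖ ^ 2 = #A := by
    have h4 : ∀ n ∈ range N, ‖if n ∈ A then (1 : ℂ) else 0‖ ^ 2 = if n ∈ A then (1 : ℝ) else 0 := by
      intro n _
      split_ifs <;> simp
    rw [sum_congr rfl h4, sum_ite_mem, inter_eq_right.mpr hA, sum_const, nsmul_eq_mul, mul_one]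
  rw [hb] at h3
  simp only [ha] at h3
  have h5 : ∑ p ∈ P, (#A : ℝ) ^ 2 * (#(R p) / (p - #(R p))) ≤
      ((Q : ℝ) ^ 2 + Real.pi * N) * #A := by
    refine le_trans ?_ h3
    have h6 : ∀ p ∈ P, (#A : ℝ) ^ 2 * (#(R p) / (p - #(R p))) ≤
        ∑ b ∈ (Icc 1 p).filter (fun b => b.Coprime p), ‖∑ n ∈ A, e (n * (b / p))‖ ^ 2 := by
      intro p hp
      have hp' := (hP p hp).1
      have : Fact p.Prime := ⟨hp'⟩
      refine (h2 p A (R p) (hR p hp) (hR' p hp)).trans
        (sum_le_sum_of_subset_of_nonneg (fun b hb => ?_) fun _ _ _ => by positivity)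
      rw [mem_Icc] at hb
      have hp2 := hp'.two_le
      rw [mem_filter, mem_Icc]
      refine ⟨by omega, ((hp'.coprime_iff_not_dvd).mpr fun h => ?_).symm⟩
      have := Nat.le_of_dvd (by omega) h
      omega
    refine (sum_le_sum h6).trans (sum_le_sum_of_subset_of_nonneg (fun p hp => ?_) fun _ _ _ =>
      sum_nonneg fun _ _ => by positivity)
    exact mem_Icc.mpr ⟨(hP p hp).1.one_le, (hP p hp).2⟩
  rcases Nat.eq_zero_or_pos #A with h0 | h0
  · rw [h0, Nat.cast_zero, zero_mul]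
    positivity
  · have h7 : (0 : ℝ) < #A := by exact_mod_cast h0
    rw [← mul_sum] at h5
    have h8 : ((#A : ℝ) * ∑ p ∈ P, ((#(R p) : ℝ) / (p - #(R p)))) * #A ≤
        ((Q : ℝ) ^ 2 + Real.pi * N) * #A := by
      calc _ = (#A : ℝ) ^ 2 * ∑ p ∈ P, ((#(R p) : ℝ) / (p - #(R p))) := by ring
        _ ≤ _ := h5
    exact le_of_mul_le_mul_right h8 h7

end Fermat.Agent.Cor.LS
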