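import Fermat.Agent.Corollaries.LS.SmoothIn
import Fermat.Agent.Corollaries.Mertens.Rat

/-!
# The integers without large prime factors have positive density
-/

set_option autoImplicit false

namespace Fermat.Agent.Cor.LS

/-- (L4) for every `ε > 0` a positive proportion of the `n ≤ N` have all prime factors
`≤ N ^ ε` -/
theorem smoothStmt : SmoothStmt := smoothStmt_of Mert.tendsto_sum_inv

end Fermat.Agent.Cor.LS
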