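import Fermat.Agent.Corollaries.LS.Linnik
import Fermat.Agent.Corollaries.LS.Sieve
import Fermat.Agent.Corollaries.LS.Smooth
import Fermat.Agent.Corollaries.LS.Prime
import Fermat.Agent.Corollaries.LS.Ineq

/-!
# Linnik's theorem on the least quadratic non-residue
-/

set_option autoImplicit false

namespace Fermat.Agent.Cor.LS

/-- **Linnik's theorem** (1941): for every `ε > 0` there is a constant `C` such that for every `Q`
there are at most `C` primes `3 ≤ p ≤ Q` modulo which all natural numbers `1 ≤ n ≤ Q ^ ε` are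
squares. -/
theorem linnik_nonresidue {ε : ℝ} (hε : 0 < ε) : ∃ C : ℕ, ∀ Q : ℕ,
    Nat.card {p : ℕ | 3 ≤ p ∧ p ≤ Q ∧ p.Prime ∧
      ∀ n : ℕ, 1 ≤ n → (n : ℝ) ≤ (Q : ℝ) ^ ε → IsSquare (n : ZMod p)} ≤ C :=
  linnikStmt (sieveStmt largeSieveStmt primeStmt) smoothStmt ε hε

end Fermat.Agent.Cor.LS
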