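import Fermat.Agent.Corollaries.LS.Ineq
import Fermat.Agent.Corollaries.LS.Char

/-!
# The large sieve inequality
-/

set_option autoImplicit false

open Finset

namespace Fermat.Agent.Cor.LS

/-- **The large sieve inequality**: for complex numbers `a n`, `M < n ≤ M + N`, and `Q ≥ 1`. -/
theorem large_sieve (a : ℕ → ℂ) (M N Q : ℕ) (hQ : 1 ≤ Q) :
    ∑ q ∈ Icc 1 Q, ∑ b ∈ (Icc 1 q).filter (fun b => b.Coprime q),
      ‖∑ n ∈ Ioc M (M + N), a n * Complex.exp (2 * Real.pi * Complex.I * (n * b / q))‖ ^ 2 ≤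
        ((Q : ℝ) ^ 2 + Real.pi * N) * ∑ n ∈ Ioc M (M + N), ‖a n‖ ^ 2 := by
  have h1 := largeSieveStmt (fun k => a (M + 1 + k)) N Q hQ
  have hIoc : Ioc M (M + N) = (range N).image (fun k => M + 1 + k) := by
    ext n
    simp only [mem_Ioc, mem_image, mem_range]
    constructor
    · rintro ⟨h2, h3⟩
      exact ⟨n - (M + 1), by omega, by omega⟩
    · rintro ⟨k, hk, rfl⟩
      omega
  have hinj : ∀ x ∈ range N, ∀ y ∈ range N, M + 1 + x = M + 1 + y → x = y := by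
    intro x _ y _ h
    omega
  have h2 : ∑ n ∈ Ioc M (M + N), ‖a n‖ ^ 2 = ∑ k ∈ range N, ‖a (M + 1 + k)‖ ^ 2 := by
    rw [hIoc, sum_image hinj]
  have h3 : ∀ q b : ℕ, ‖∑ n ∈ Ioc M (M + N),
      a n * Complex.exp (2 * Real.pi * Complex.I * (n * b / q))‖ =
      ‖∑ k ∈ range N, a (M + 1 + k) * e (k * (b / q))‖ := by
    intro q b
    rw [hIoc, sum_image hinj]
    have h4 : ∀ k ∈ range N, a (M + 1 + k) *
        Complex.exp (2 * Real.pi * Complex.I * (((M + 1 + k : ℕ) : ℂ) * b / q)) =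
        Complex.exp (((2 * Real.pi * ((M + 1 : ℕ) * b / q) : ℝ) : ℂ) * Complex.I) *
          (a (M + 1 + k) * e (k * (b / q))) := by
      intro k _
      rw [e, mul_left_comm, ← Complex.exp_add]
      congr 2
      push_cast
      ring
    rw [sum_congr rfl h4, ← mul_sum, norm_mul, Complex.norm_exp_ofReal_mul_I, one_mul]
  rw [h2]
  simp only [h3]
  exact h1

/-- **The large sieve inequality for separated points.** -/
theorem large_sieve_points {ι : Type*} (a : ℕ → ℂ) (N : ℕ) (S : Finset ι) (x : ι → ℝ) {δ : ℝ}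
    (hδ : 0 < δ) (α : ℝ) (hS : ∀ i ∈ S, α ≤ x i ∧ x i ≤ α + 1 - δ)
    (hsep : ∀ i ∈ S, ∀ j ∈ S, i ≠ j → δ ≤ |x i - x j|) :
    ∑ i ∈ S, ‖∑ n ∈ range N, a n * Complex.exp (2 * Real.pi * Complex.I * (n * x i))‖ ^ 2 ≤
      (δ⁻¹ + Real.pi * N) * ∑ n ∈ range N, ‖a n‖ ^ 2 := by
  refine le_trans (le_of_eq ?_) (points a N S x hδ α hS hsep)
  refine sum_congr rfl fun i _ => ?_
  congr 2
  refine sum_congr rfl fun n _ => ?_
  rw [e]
  push_cast
  rfl

open Classical in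
/-- **The large sieve inequality for characters.** -/
theorem large_sieve_characters (a : ℕ → ℂ) (N Q : ℕ) (hQ : 1 ≤ Q) :
    ∑ q ∈ Icc 1 Q, ((q : ℝ) / q.totient) *
        ∑ χ ∈ (univ : Finset (DirichletCharacter ℂ q)) with χ.IsPrimitive,
          ‖∑ n ∈ range N, a n * χ n‖ ^ 2 ≤
      ((Q : ℝ) ^ 2 + Real.pi * N) * ∑ n ∈ range N, ‖a n‖ ^ 2 :=
  char_of largeSieveStmt a N Q hQ

end Fermat.Agent.Cor.LS
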