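import Fermat.Agent.Corollaries.LS.Prime

/-!
# The arithmetical large sieve for squarefree moduli

* `mont`: Montgomery's inequality for squarefree moduli, arbitrary coefficients;
* `arith_large_sieve`: if `A ⊆ {0, ..., N - 1}` avoids `#(R p)` residue classes modulo every prime
  `p ≤ Q`, then `#A ∑_{q ≤ Q squarefree} ∏_{p ∣ q} #(R p) / (p - #(R p)) ≤ Q² + π N`.
-/

set_option autoImplicit false

open Finset

noncomputable section

namespace Fermat.Agent.Cor.LS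

namespace Mont

open scoped ComplexConjugate

theorem e_add (x y : ℝ) : e (x + y) = e x * e y := by
  unfold e
  rw [← Complex.exp_add]
  congr 1
  push_cast
  ring

theorem e_int (k : ℤ) : e k = 1 := by
  unfold e
  have h : 2 * Real.pi * Complex.I * ((k : ℝ) : ℂ) = k * (2 * Real.pi * Complex.I) := by
    push_cast
    ring
  rw [h, Complex.exp_int_mul_two_pi_mul_I]

/-- Parseval's formula with complex coefficients -/
theorem parseval_complex (p : ℕ) [hp : Fact p.Prime] (Z : ZMod p → ℂ) :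
    ∑ x : ZMod p, ‖∑ c : ZMod p, Z c * ZMod.stdAddChar (c * x)‖ ^ 2 = p * ∑ c, ‖Z c‖ ^ 2 := by
  have hprim := ZMod.isPrimitive_stdAddChar p
  have h : ((∑ x : ZMod p, ‖∑ c : ZMod p, Z c * ZMod.stdAddChar (c * x)‖ ^ 2 : ℝ) : ℂ) =
      ((p * ∑ c, ‖Z c‖ ^ 2 : ℝ) : ℂ) := by
    push_cast
    have h1 : ∀ x : ZMod p, ((‖∑ c : ZMod p, Z c * ZMod.stdAddChar (c * x)‖ : ℝ) : ℂ) ^ 2 =
        ∑ c : ZMod p, ∑ d : ZMod p, Z c * conj (Z d) * ZMod.stdAddChar (x * (c - d)) := by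
      intro x
      rw [← Complex.mul_conj', map_sum, Finset.sum_mul_sum]
      refine sum_congr rfl fun c _ => sum_congr rfl fun d _ => ?_
      rw [map_mul (starRingEnd ℂ), ← AddChar.map_neg_eq_conj]
      have h2 : ZMod.stdAddChar (x * (c - d)) =
          ZMod.stdAddChar (c * x) * ZMod.stdAddChar (-(d * x)) := by
        rw [← AddChar.map_add_eq_mul]
        congr 1
        ring
      rw [h2]
      ring
    simp only [h1]
    rw [Finset.sum_comm]
    have h3 : ∀ c : ZMod p, ∑ x : ZMod p, ∑ d : ZMod p,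
        Z c * conj (Z d) * ZMod.stdAddChar (x * (c - d)) = p * (‖Z c‖ : ℂ) ^ 2 := by
      intro c
      rw [Finset.sum_comm]
      rw [Finset.sum_eq_single_of_mem c (mem_univ c)]
      · rw [← Finset.mul_sum, sub_self, Complex.mul_conj']
        simp only [mul_zero, AddChar.map_zero_eq_one, sum_const, card_univ, ZMod.card, nsmul_eq_mul,
          mul_one]
        ring
      · intro d _ hd
        rw [← Finset.mul_sum, AddChar.sum_mulShift _ hprim, if_neg (sub_ne_zero.mpr hd.symm)]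
        simp
    rw [Finset.sum_congr rfl fun c _ => h3 c, Finset.mul_sum]
  exact_mod_cast h

/-- one prime modulus, arbitrary coefficients -/
theorem prime_coeff (p : ℕ) [hp : Fact p.Prime] (A : Finset ℕ) (R : Finset (ZMod p))
    (hA : ∀ n ∈ A, (n : ZMod p) ∉ R) (hR : #R < p) (a : ℕ → ℂ) :
    ‖∑ n ∈ A, a n‖ ^ 2 * (#R / (p - #R)) ≤
      ∑ b ∈ Icc 1 (p - 1), ‖∑ n ∈ A, a n * e (n * (b / p))‖ ^ 2 := by
  have hp0 : (0 : ℝ) < p := by exact_mod_cast hp.out.pos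
  have hd : (0 : ℝ) < p - #R := by
    have : (#R : ℝ) < p := by exact_mod_cast hR
    linarith
  set Z : ZMod p → ℂ := fun c => ∑ n ∈ A with ((n : ℕ) : ZMod p) = c, a n with hZ
  have h1 : ∀ x : ZMod p, ∑ n ∈ A, a n * ZMod.stdAddChar ((n : ZMod p) * x) =
      ∑ c : ZMod p, Z c * ZMod.stdAddChar (c * x) := by
    intro x
    rw [← Finset.sum_fiberwise_of_maps_to (g := fun n : ℕ => (n : ZMod p))
      (t := univ) (fun n _ => mem_univ _)]
    refine sum_congr rfl fun c _ => ?_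
    simp only [hZ]
    rw [Finset.sum_mul]
    refine sum_congr rfl fun n hn => ?_
    rw [(mem_filter.mp hn).2]
  have h2 : ∑ n ∈ A, a n = ∑ c ∈ univ \ R, Z c := by
    simp only [hZ]
    rw [Finset.sum_fiberwise_of_maps_to (g := fun n : ℕ => (n : ZMod p))]
    intro n hn
    rw [mem_sdiff]
    exact ⟨mem_univ _, hA n hn⟩
  have h3 : ‖∑ n ∈ A, a n‖ ^ 2 ≤ (p - #R) * ∑ c, ‖Z c‖ ^ 2 := by
    rw [h2]
    have h4 := sq_sum_le_card_mul_sum_sq (s := univ \ R) (f := fun c => ‖Z c‖)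
    have h5 : (#(univ \ R) : ℝ) = p - #R := by
      rw [card_sdiff_of_subset (subset_univ R), card_univ, ZMod.card, Nat.cast_sub hR.le]
    rw [h5] at h4
    calc ‖∑ c ∈ univ \ R, Z c‖ ^ 2 ≤ (∑ c ∈ univ \ R, ‖Z c‖) ^ 2 :=
          pow_le_pow_left₀ (norm_nonneg _) (norm_sum_le _ _) 2
      _ ≤ _ := h4
      _ ≤ _ := by
          refine mul_le_mul_of_nonneg_left ?_ hd.le
          exact sum_le_sum_of_subset_of_nonneg (subset_univ _) fun _ _ _ => sq_nonneg _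
  have h6 := sum_zmod p (fun x => ‖∑ c : ZMod p, Z c * ZMod.stdAddChar (c * x)‖ ^ 2)
  rw [parseval_complex] at h6
  have h7 : ‖∑ c : ZMod p, Z c * ZMod.stdAddChar (c * 0)‖ ^ 2 = ‖∑ n ∈ A, a n‖ ^ 2 := by
    rw [← h1 0]
    simp
  rw [h7] at h6
  have h8 : ∑ b ∈ Icc 1 (p - 1), ‖∑ n ∈ A, a n * e (n * (b / p))‖ ^ 2 =
      ∑ b ∈ Icc 1 (p - 1), ‖∑ c : ZMod p, Z c * ZMod.stdAddChar (c * (b : ZMod p))‖ ^ 2 := by
    refine sum_congr rfl fun b _ => ?_
    rw [← h1]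
    congr 2
    exact sum_congr rfl fun n _ => by rw [e_eq_stdAddChar p n b]
  rw [h8]
  have h9 : ∑ b ∈ Icc 1 (p - 1), ‖∑ c : ZMod p, Z c *
      ZMod.stdAddChar (c * (b : ZMod p))‖ ^ 2 = p * ∑ c, ‖Z c‖ ^ 2 - ‖∑ n ∈ A, a n‖ ^ 2 := by
    linarith
  rw [h9]
  have h10 : ‖∑ n ∈ A, a n‖ ^ 2 / (p - #R) ≤ ∑ c, ‖Z c‖ ^ 2 := by
    rw [div_le_iff₀ hd]
    linarith
  have h11 : ‖∑ n ∈ A, a n‖ ^ 2 * (#R / (p - #R)) =
      p * (‖∑ n ∈ A, a n‖ ^ 2 / (p - #R)) - ‖∑ n ∈ A, a n‖ ^ 2 := by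
    have h12 : (#R : ℝ) / (p - #R) = p / (p - #R) - 1 := by
      rw [div_sub_one hd.ne', sub_sub_cancel]
    rw [h12]
    ring
  rw [h11]
  have := mul_le_mul_of_nonneg_left h10 hp0.le
  linarith

/-- the reduced fractions with denominator `q` -/
def Fr (q : ℕ) : Finset ℕ := (Icc 1 q).filter (fun b => b.Coprime q)

/-- the numerator of `b / q + c / r` modulo one -/
def num (q r : ℕ) (x : ℕ × ℕ) : ℕ := (x.1 * r + x.2 * q - 1) % (q * r) + 1

theorem num_modEq {q r : ℕ} {x : ℕ × ℕ} (h : 1 ≤ x.1 * r + x.2 * q) :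
    num q r x ≡ x.1 * r + x.2 * q [MOD q * r] := by
  have h1 := (Nat.mod_modEq (x.1 * r + x.2 * q - 1) (q * r)).add_right 1
  rwa [Nat.sub_add_cancel h] at h1

theorem eq_of_modEq {q b b' : ℕ} (hb : b ∈ Fr q) (hb' : b' ∈ Fr q) (h : b ≡ b' [MOD q]) :
    b = b' := by
  unfold Fr at hb hb'
  rw [mem_filter, mem_Icc] at hb hb'
  rcases le_total b b' with h1 | h1
  · have h2 := (Nat.modEq_iff_dvd' h1).mp h
    have h3 := Nat.eq_zero_of_dvd_of_lt h2 (by omega)
    omega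
  · have h2 := (Nat.modEq_iff_dvd' h1).mp h.symm
    have h3 := Nat.eq_zero_of_dvd_of_lt h2 (by omega)
    omega

theorem sum_Fr_mul {q r : ℕ} (hq : 0 < q) (hr : 0 < r) (hqr : q.Coprime r) {G : ℝ → ℝ}
    (hG : ∀ x, 0 ≤ G x) (hper : ∀ (x : ℝ) (k : ℤ), G (x + k) = G x) :
    ∑ b ∈ Fr q, ∑ c ∈ Fr r, G ((b : ℝ) / q + (c : ℝ) / r) ≤
      ∑ b ∈ Fr (q * r), G ((b : ℝ) / ((q * r : ℕ) : ℝ)) := by
  have hpos : ∀ x ∈ Fr q ×ˢ Fr r, 1 ≤ x.1 * r + x.2 * q := by
    intro x hx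
    rw [mem_product] at hx
    unfold Fr at hx
    rw [mem_filter, mem_filter, mem_Icc, mem_Icc] at hx
    have := Nat.mul_pos hx.1.1.1 hr
    omega
  have hinj : Set.InjOn (num q r) (Fr q ×ˢ Fr r : Finset (ℕ × ℕ)) := by
    intro x hx y hy hxy
    have h1 : x.1 * r + x.2 * q ≡ y.1 * r + y.2 * q [MOD q * r] :=
      (num_modEq (hpos x hx)).symm.trans
        ((show num q r x ≡ num q r y [MOD q * r] from congrArg (· % (q * r)) hxy).trans
          (num_modEq (hpos y hy)))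
    rw [mem_coe, mem_product] at hx hy
    have h2 : x.1 * r + x.2 * q ≡ y.1 * r + y.2 * q [MOD q] := h1.of_mul_right r
    have h3 : x.1 * r + x.2 * q ≡ y.1 * r + y.2 * q [MOD r] := h1.of_mul_left q
    refine Prod.ext ?_ ?_
    · refine eq_of_modEq hx.1 hy.1 ?_
      have h4 : x.1 * r ≡ y.1 * r [MOD q] := by
        have e1 : x.1 * r + x.2 * q ≡ x.1 * r [MOD q] := by
          simp [Nat.ModEq]
        have e2 : y.1 * r + y.2 * q ≡ y.1 * r [MOD q] := by
          simp [Nat.ModEq]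
        exact e1.symm.trans (h2.trans e2)
      exact Nat.ModEq.cancel_right_of_coprime hqr h4
    · refine eq_of_modEq hx.2 hy.2 ?_
      have h4 : x.2 * q ≡ y.2 * q [MOD r] := by
        have e1 : x.1 * r + x.2 * q ≡ x.2 * q [MOD r] := by
          simp [Nat.ModEq]
        have e2 : y.1 * r + y.2 * q ≡ y.2 * q [MOD r] := by
          simp [Nat.ModEq]
        exact e1.symm.trans (h3.trans e2)
      exact Nat.ModEq.cancel_right_of_coprime hqr.symm h4
  have hmem : (Fr q ×ˢ Fr r).image (num q r) ⊆ Fr (q * r) := by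
    intro m hm
    obtain ⟨x, hx, rfl⟩ := mem_image.mp hm
    have h1 := num_modEq (hpos x hx)
    rw [mem_product] at hx
    unfold Fr at hx ⊢
    rw [mem_filter, mem_filter, mem_Icc, mem_Icc] at hx
    rw [mem_filter, mem_Icc]
    refine ⟨⟨Nat.succ_le_succ (Nat.zero_le _), Nat.mod_lt _ (Nat.mul_pos hq hr)⟩, ?_⟩
    have h2 : Nat.Coprime (x.1 * r + x.2 * q) (q * r) := by
      refine Nat.Coprime.mul_right ?_ ?_
      · rw [Nat.coprime_add_mul_right_left]
        exact hx.1.2.mul_left hqr.symm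
      · rw [add_comm, Nat.coprime_add_mul_right_left]
        exact hx.2.2.mul_left hqr
    have h3 := h1.gcd_eq
    rw [Nat.Coprime, h3]
    exact h2
  rw [← sum_product']
  have h4 : ∑ x ∈ Fr q ×ˢ Fr r, G ((x.1 : ℝ) / q + (x.2 : ℝ) / r) =
      ∑ m ∈ (Fr q ×ˢ Fr r).image (num q r), G ((m : ℝ) / ((q * r : ℕ) : ℝ)) := by
    rw [sum_image hinj]
    refine sum_congr rfl fun x hx => ?_
    have h5 := (num_modEq (hpos x hx)).symm
    rw [Nat.modEq_iff_dvd] at h5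
    obtain ⟨k, hk⟩ := h5
    have hq0 : (q : ℝ) ≠ 0 := by exact_mod_cast hq.ne'
    have hr0 : (r : ℝ) ≠ 0 := by exact_mod_cast hr.ne'
    have h6 : (num q r x : ℝ) = (x.1 : ℝ) * r + x.2 * q + (q * r) * k := by
      have h7 : ((num q r x : ℕ) : ℤ) = ((x.1 * r + x.2 * q : ℕ) : ℤ) + ((q * r : ℕ) : ℤ) * k := by
        linarith
      have h8 : (((num q r x : ℕ) : ℤ) : ℝ) =
          ((((x.1 * r + x.2 * q : ℕ) : ℤ) + ((q * r : ℕ) : ℤ) * k : ℤ) : ℝ) := by rw [h7]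
      push_cast at h8
      exact h8
    have h9 : (num q r x : ℝ) / ((q * r : ℕ) : ℝ) = (x.1 : ℝ) / q + (x.2 : ℝ) / r + k := by
      rw [h6]
      push_cast
      field_simp
    rw [h9, hper]
  rw [h4]
  exact sum_le_sum_of_subset_of_nonneg hmem fun _ _ _ => hG _

/-- the product over the primes dividing `q` -/
def g (R : ∀ p : ℕ, Finset (ZMod p)) (q : ℕ) : ℝ :=
  ∏ p ∈ q.primeFactors, ((#(R p) : ℝ) / (p - #(R p)))

/-- **Montgomery's inequality** for squarefree moduli. -/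
theorem mont_coeff (A : Finset ℕ) (R : ∀ p : ℕ, Finset (ZMod p)) (q : ℕ) : Squarefree q →
    (∀ p : ℕ, p.Prime → p ∣ q → (∀ n ∈ A, (n : ZMod p) ∉ R p) ∧ #(R p) < p) → ∀ a : ℕ → ℂ,
    ‖∑ n ∈ A, a n‖ ^ 2 * g R q ≤ ∑ b ∈ Fr q, ‖∑ n ∈ A, a n * e (n * (b / q))‖ ^ 2 := by
  induction q using Nat.recOnPosPrimePosCoprime with
  | prime_pow p n hp hn =>
    intro hsq h a
    have hn1 : n = 1 := ((Nat.squarefree_pow_iff hp.ne_one (by omega)).mp hsq).2
    subst hn1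
    rw [pow_one] at h ⊢
    have : Fact p.Prime := ⟨hp⟩
    obtain ⟨h1, h2⟩ := h p hp dvd_rfl
    have h3 := prime_coeff p A (R p) h1 h2 a
    have h4 : g R p = (#(R p) : ℝ) / (p - #(R p)) := by
      unfold g
      rw [hp.primeFactors, prod_singleton]
    have h5 : Icc 1 (p - 1) ⊆ Fr p := by
      intro b hb
      unfold Fr
      rw [mem_Icc] at hb
      rw [mem_filter, mem_Icc]
      refine ⟨by omega, ?_⟩
      exact (Nat.coprime_of_lt_prime (by omega) (by omega) hp).symm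
    rw [h4]
    exact h3.trans (sum_le_sum_of_subset_of_nonneg h5 fun _ _ _ => sq_nonneg _)
  | zero =>
    intro hsq
    exact absurd hsq not_squarefree_zero
  | one =>
    intro _ _ a
    have h1 : g R 1 = 1 := by
      unfold g
      rw [Nat.primeFactors_one, prod_empty]
    have h2 : Fr 1 = {1} := by decide
    rw [h1, h2, sum_singleton, mul_one]
    refine le_of_eq ?_
    congr 2
    refine sum_congr rfl fun n _ => ?_
    have h3 : (n : ℝ) * (((1 : ℕ) : ℝ) / ((1 : ℕ) : ℝ)) = ((n : ℤ) : ℝ) := by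
      push_cast
      ring
    rw [h3, e_int, mul_one]
  | coprime q r hq hr hqr ihq ihr =>
    intro hsq h a
    have hq0 : 0 < q := by omega
    have hr0 : 0 < r := by omega
    have h1 : g R (q * r) = g R q * g R r := by
      unfold g
      rw [Nat.primeFactors_mul hq0.ne' hr0.ne', prod_union hqr.disjoint_primeFactors]
    have hgq : 0 ≤ g R r := by
      unfold g
      refine prod_nonneg fun p hp => ?_
      have h2 := (h p (Nat.prime_of_mem_primeFactors hp)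
        ((Nat.dvd_of_mem_primeFactors hp).mul_left q)).2
      have h3 : (#(R p) : ℝ) < p := by exact_mod_cast h2
      exact div_nonneg (Nat.cast_nonneg _) (by linarith)
    have hsq' := (Nat.squarefree_mul_iff.mp hsq)
    have ih1 := ihq hsq'.2.1 (fun p hp hpq => h p hp (hpq.mul_right r)) a
    set G : ℝ → ℝ := fun x => ‖∑ n ∈ A, a n * e (n * x)‖ ^ 2 with hG
    have hper : ∀ (x : ℝ) (k : ℤ), G (x + k) = G x := by
      intro x k
      simp only [hG]
      congr 2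
      refine sum_congr rfl fun n _ => ?_
      have h2 : (n : ℝ) * (x + k) = n * x + (((n : ℤ) * k : ℤ) : ℝ) := by
        push_cast
        ring
      rw [h2, e_add, e_int, mul_one]
    have h2 := sum_Fr_mul hq0 hr0 hqr (G := G) (fun x => sq_nonneg _) hper
    refine le_trans ?_ h2
    have h3 : ∀ b ∈ Fr q, ‖∑ n ∈ A, a n * e (n * ((b : ℝ) / q))‖ ^ 2 * g R r ≤
        ∑ c ∈ Fr r, G ((b : ℝ) / q + (c : ℝ) / r) := by
      intro b _
      have h4 := ihr hsq'.2.2 (fun p hp hpr => h p hp (hpr.mul_left q))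
        (fun n => a n * e (n * ((b : ℝ) / q)))
      refine h4.trans (le_of_eq (sum_congr rfl fun c _ => ?_))
      simp only [hG]
      congr 2
      refine sum_congr rfl fun n _ => ?_
      rw [mul_add, e_add, mul_assoc]
    calc ‖∑ n ∈ A, a n‖ ^ 2 * g R (q * r) = (‖∑ n ∈ A, a n‖ ^ 2 * g R q) * g R r := by
          rw [h1, mul_assoc]
      _ ≤ (∑ b ∈ Fr q, ‖∑ n ∈ A, a n * e (n * (b / q))‖ ^ 2) * g R r :=
          mul_le_mul_of_nonneg_right ih1 hgq
      _ = ∑ b ∈ Fr q, ‖∑ n ∈ A, a n * e (n * (b / q))‖ ^ 2 * g R r := Finset.sum_mul _ _ _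
      _ ≤ _ := sum_le_sum h3

end Mont

/-- **Montgomery's inequality** for a squarefree modulus `q`. -/
theorem mont {A : Finset ℕ} {R : ∀ p : ℕ, Finset (ZMod p)} {q : ℕ} (hq : Squarefree q)
    (h : ∀ p : ℕ, p.Prime → p ∣ q → (∀ n ∈ A, (n : ZMod p) ∉ R p) ∧ #(R p) < p) :
    (#A : ℝ) ^ 2 * ∏ p ∈ q.primeFactors, ((#(R p) : ℝ) / (p - #(R p))) ≤
      ∑ b ∈ (Icc 1 q).filter (fun b => b.Coprime q), ‖∑ n ∈ A, e (n * (b / q))‖ ^ 2 := by
  have h1 := Mont.mont_coeff A R q hq h (fun _ => 1)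
  simpa [Mont.g, Mont.Fr] using h1

/-- **The arithmetical large sieve** (Linnik, Montgomery): `A ⊆ {0, ..., N - 1}` avoids `#(R p)`
classes modulo every prime `p ≤ Q`. -/
theorem arith_large_sieve (hL : LargeSieveStmt) {N Q : ℕ} (hQ : 1 ≤ Q) {A : Finset ℕ}
    {R : ∀ p : ℕ, Finset (ZMod p)} (hAN : A ⊆ range N)
    (h : ∀ p : ℕ, p.Prime → p ≤ Q → (∀ n ∈ A, (n : ZMod p) ∉ R p) ∧ #(R p) < p) :
    (#A : ℝ) * ∑ q ∈ (Icc 1 Q).filter Squarefree,
      ∏ p ∈ q.primeFactors, ((#(R p) : ℝ) / (p - #(R p))) ≤ (Q : ℝ) ^ 2 + Real.pi * N := by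
  rcases Finset.eq_empty_or_nonempty A with rfl | hA
  · rw [card_empty, Nat.cast_zero, zero_mul]
    positivity
  have hA0 : (0 : ℝ) < #A := by exact_mod_cast hA.card_pos
  have h1 := hL (fun n => if n ∈ A then 1 else 0) N Q hQ
  have h2 : ∑ n ∈ range N, ‖(if n ∈ A then (1 : ℂ) else 0)‖ ^ 2 = #A := by
    have h3 : ∀ n : ℕ, ‖(if n ∈ A then (1 : ℂ) else 0)‖ ^ 2 = if n ∈ A then (1 : ℝ) else 0 := by
      intro n
      split_ifs <;> simp
    rw [sum_congr rfl fun n _ => h3 n, Finset.sum_boole, filter_mem_eq_inter,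
      inter_eq_right.mpr hAN]
  have h4 : ∀ x : ℝ, ∑ n ∈ range N, (if n ∈ A then (1 : ℂ) else 0) * e (n * x) =
      ∑ n ∈ A, e (n * x) := by
    intro x
    simp only [ite_mul, one_mul, zero_mul]
    rw [← Finset.sum_filter, filter_mem_eq_inter, inter_eq_right.mpr hAN]
  rw [h2] at h1
  simp only [h4] at h1
  have h5 : (#A : ℝ) ^ 2 * ∑ q ∈ (Icc 1 Q).filter Squarefree,
      ∏ p ∈ q.primeFactors, ((#(R p) : ℝ) / (p - #(R p))) ≤
      ∑ q ∈ Icc 1 Q, ∑ b ∈ (Icc 1 q).filter (fun b => b.Coprime q),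
        ‖∑ n ∈ A, e (n * (b / q))‖ ^ 2 := by
    rw [Finset.mul_sum]
    calc _ ≤ ∑ q ∈ (Icc 1 Q).filter Squarefree, ∑ b ∈ (Icc 1 q).filter (fun b => b.Coprime q),
          ‖∑ n ∈ A, e (n * (b / q))‖ ^ 2 := by
          refine sum_le_sum fun q hq => ?_
          rw [mem_filter, mem_Icc] at hq
          exact mont hq.2 fun p hp hpq => h p hp ((Nat.le_of_dvd (by omega) hpq).trans hq.1.2)
      _ ≤ _ := sum_le_sum_of_subset_of_nonneg (filter_subset _ _) fun _ _ _ =>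
          sum_nonneg fun _ _ => sq_nonneg _
  have h6 := h5.trans h1
  have h7 : (#A : ℝ) * ((#A : ℝ) * ∑ q ∈ (Icc 1 Q).filter Squarefree,
      ∏ p ∈ q.primeFactors, ((#(R p) : ℝ) / (p - #(R p)))) ≤
      (#A : ℝ) * ((Q : ℝ) ^ 2 + Real.pi * N) := by
    calc _ = (#A : ℝ) ^ 2 * ∑ q ∈ (Icc 1 Q).filter Squarefree,
          ∏ p ∈ q.primeFactors, ((#(R p) : ℝ) / (p - #(R p))) := by ring
      _ ≤ _ := h6
      _ = _ := mul_comm _ _
  exact le_of_mul_le_mul_left h7 hA0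

end Fermat.Agent.Cor.LS
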