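import Fermat.Agent.Corollaries.LS.Mont
import Fermat.Agent.Corollaries.LS.Ineq

/-!
# The arithmetical large sieve

* `arithmetical_large_sieve`: the unconditional form of `arith_large_sieve`;
* `card_avoid_one_class`: a subset of `{0, ..., N - 1}` which avoids a residue class modulo every
  prime `p ≤ Q` has at most `(Q² + π N) / ∑_{q ≤ Q squarefree} 1 / φ(q)` elements.
-/

set_option autoImplicit false

open Finset

namespace Fermat.Agent.Cor.LS

/-- **The arithmetical large sieve** (Linnik, Rényi, Montgomery): if `A ⊆ {0, ..., N - 1}` avoids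
`#(R p)` residue classes modulo every prime `p ≤ Q`, then
`#A ∑_{q ≤ Q squarefree} ∏_{p ∣ q} #(R p) / (p - #(R p)) ≤ Q² + π N`. -/
theorem arithmetical_large_sieve {N Q : ℕ} (hQ : 1 ≤ Q) {A : Finset ℕ}
    {R : ∀ p : ℕ, Finset (ZMod p)} (hAN : A ⊆ range N)
    (h : ∀ p : ℕ, p.Prime → p ≤ Q → (∀ n ∈ A, (n : ZMod p) ∉ R p) ∧ #(R p) < p) :
    (#A : ℝ) * ∑ q ∈ (Icc 1 Q).filter Squarefree,
      ∏ p ∈ q.primeFactors, ((#(R p) : ℝ) / (p - #(R p))) ≤ (Q : ℝ) ^ 2 + Real.pi * N :=
  arith_large_sieve largeSieveStmt hQ hAN h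

theorem prod_sub_one {q : ℕ} (hq : Squarefree q) :
    ∏ p ∈ q.primeFactors, ((1 : ℝ) / (p - 1)) = 1 / q.totient := by
  have h1 : (q.totient : ℝ) = ∏ p ∈ q.primeFactors, ((p : ℝ) - 1) := by
    rw [Nat.totient_eq_prod_factorization hq.ne_zero, Finsupp.prod, Nat.support_factorization]
    push_cast
    refine prod_congr rfl fun p hp => ?_
    have hp' := Nat.prime_of_mem_primeFactors hp
    rw [(hq.natFactorization_le_one p).antisymm
      (hp'.factorization_pos_of_dvd hq.ne_zero (Nat.dvd_of_mem_primeFactors hp)), Nat.sub_self,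
      pow_zero, one_mul, Nat.cast_sub hp'.one_lt.le, Nat.cast_one]
  rw [h1, Finset.prod_div_distrib, Finset.prod_const_one]

/-- A set which avoids one residue class modulo every prime `p ≤ Q`. -/
theorem card_avoid_one_class {N Q : ℕ} (hQ : 1 ≤ Q) {A : Finset ℕ} (c : ℕ → ℤ)
    (hAN : A ⊆ range N)
    (h : ∀ p : ℕ, p.Prime → p ≤ Q → ∀ n ∈ A, (n : ZMod p) ≠ (c p : ZMod p)) :
    (#A : ℝ) * ∑ q ∈ (Icc 1 Q).filter Squarefree, 1 / (q.totient : ℝ) ≤
      (Q : ℝ) ^ 2 + Real.pi * N := by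
  have h1 := arithmetical_large_sieve hQ (A := A) (R := fun p => {(c p : ZMod p)}) hAN
    (fun p hp hpQ => ⟨fun n hn => by
      rw [mem_singleton]
      exact h p hp hpQ n hn, by
      rw [card_singleton]
      exact hp.one_lt⟩)
  have h2 : ∑ q ∈ (Icc 1 Q).filter Squarefree, 1 / (q.totient : ℝ) =
      ∑ q ∈ (Icc 1 Q).filter Squarefree,
        ∏ p ∈ q.primeFactors, ((#({(c p : ZMod p)} : Finset (ZMod p)) : ℝ) /
          (p - #({(c p : ZMod p)} : Finset (ZMod p)))) := by
    refine sum_congr rfl fun q hq => ?_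
    rw [← prod_sub_one (mem_filter.mp hq).2]
    exact prod_congr rfl fun p _ => by rw [card_singleton, Nat.cast_one]
  rw [h2]
  exact h1

end Fermat.Agent.Cor.LS
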