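import Fermat.Agent.Corollaries.LS.PolyaVin
import Fermat.Agent.Corollaries.LS.BV2
import Mathlib

/-!
# The inequality of Pólya and Vinogradov for all non-principal characters

For every Dirichlet character `χ ≠ 1` modulo `q` the sums over intervals are at most
`2 √q log q`.
-/

set_option autoImplicit false

open Finset DirichletCharacter

namespace Fermat.Agent.Cor.LS.PV

theorem sum_moebius_eq (m : ℕ) :
    ∑ d ∈ m.divisors, ((ArithmeticFunction.moebius d : ℤ) : ℂ) = if m = 1 then 1 else 0 := by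
  have h := congrArg (fun f : ArithmeticFunction ℤ => f m)
    ArithmeticFunction.moebius_mul_coe_zeta
  simp only [ArithmeticFunction.coe_mul_zeta_apply, ArithmeticFunction.one_apply] at h
  have h2 := congrArg (fun z : ℤ => (z : ℂ)) h
  simp only [Int.cast_sum, Int.cast_ite, Int.cast_one, Int.cast_zero] at h2
  exact h2

theorem sum_moebius_gcd {r : ℕ} (hr : r ≠ 0) (n : ℤ) :
    ∑ d ∈ r.divisors.filter (fun d : ℕ => (d : ℤ) ∣ n), ((ArithmeticFunction.moebius d : ℤ) : ℂ) =
      if Int.gcd n r = 1 then 1 else 0 := by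
  rw [← sum_moebius_eq (Int.gcd n r)]
  refine Finset.sum_congr ?_ fun _ _ => rfl
  ext d
  have hg : Int.gcd n r ≠ 0 := by
    intro h
    rw [Int.gcd_eq_zero_iff] at h
    exact hr (by exact_mod_cast h.2)
  rw [Finset.mem_filter, Nat.mem_divisors, Nat.mem_divisors]
  constructor
  · rintro ⟨⟨h1, _⟩, h2⟩
    exact ⟨Int.dvd_gcd h2 (by exact_mod_cast h1), hg⟩
  · rintro ⟨h1, _⟩
    have h3 : (d : ℤ) ∣ (Int.gcd n r : ℤ) := by exact_mod_cast h1
    refine ⟨⟨?_, hr⟩, h3.trans (Int.gcd_dvd_left _ _)⟩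
    exact_mod_cast h3.trans (Int.gcd_dvd_right _ _)

/-- multiples of `d` in an interval -/
theorem sum_filter_dvd {M : Type*} [AddCommMonoid M] (f : ℤ → M) {d : ℤ} (hd : 0 < d) (A B : ℤ) :
    ∑ n ∈ (Ioc A B).filter (fun n => d ∣ n), f n = ∑ m ∈ Ioc (A / d) (B / d), f (d * m) := by
  refine (Finset.sum_nbij' (fun m => d * m) (fun n => n / d) ?_ ?_ ?_ ?_ ?_).symm
  · intro m hm
    rw [Finset.mem_Ioc] at hm
    rw [Finset.mem_filter, Finset.mem_Ioc]
    refine ⟨⟨?_, ?_⟩, dvd_mul_right _ _⟩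
    · have := (Int.ediv_lt_iff_lt_mul hd).mp hm.1
      linarith [mul_comm m d]
    · have := (Int.le_ediv_iff_mul_le hd).mp hm.2
      linarith [mul_comm m d]
  · intro n hn
    rw [Finset.mem_filter, Finset.mem_Ioc] at hn
    obtain ⟨⟨h1, h2⟩, m, rfl⟩ := hn
    rw [Int.mul_ediv_cancel_left _ hd.ne', Finset.mem_Ioc]
    refine ⟨(Int.ediv_lt_iff_lt_mul hd).mpr ?_, (Int.le_ediv_iff_mul_le hd).mpr ?_⟩
    · linarith [mul_comm m d]
    · linarith [mul_comm m d]
  · intro m _
    exact Int.mul_ediv_cancel_left _ hd.ne'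
  · intro n hn
    rw [Finset.mem_filter] at hn
    exact Int.mul_ediv_cancel' hn.2
  · intro m _
    rfl

variable {q : ℕ} [NeZero q]

theorem apply_eq_sum (χ : DirichletCharacter ℂ q) {r : ℕ} (hr : q = χ.conductor * r) (n : ℤ) :
    χ (n : ZMod q) = ∑ d ∈ r.divisors.filter (fun d : ℕ => (d : ℤ) ∣ n),
      ((ArithmeticFunction.moebius d : ℤ) : ℂ) * χ.primitiveCharacter (n : ZMod χ.conductor) := by
  have hr0 : r ≠ 0 := by
    rintro rfl
    exact NeZero.ne q (by rw [hr, mul_zero])
  rw [← Finset.sum_mul, sum_moebius_gcd hr0]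
  have hq : (q : ℤ) = (χ.conductor : ℤ) * r := by exact_mod_cast hr
  by_cases h : IsCoprime n (q : ℤ)
  · have h1 : IsCoprime n (r : ℤ) := by
      rw [hq] at h
      exact h.of_mul_right_right
    rw [if_pos (Int.isCoprime_iff_gcd_eq_one.mp h1), one_mul,
      χ.primitiveCharacter_apply_of_isCoprime h]
  · have h0 : χ (n : ZMod q) = 0 := by
      refine χ.map_nonunit fun hu => h ?_
      exact ((ZMod.coe_int_isUnit_iff_isCoprime n q).mp hu).symm
    rw [h0]
    by_cases h1 : IsCoprime n (χ.conductor : ℤ)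
    · rw [if_neg, zero_mul]
      intro h2
      refine h ?_
      rw [hq]
      exact h1.mul_right (Int.isCoprime_iff_gcd_eq_one.mpr h2)
    · have h3 : χ.primitiveCharacter (n : ZMod χ.conductor) = 0 := by
        refine χ.primitiveCharacter.map_nonunit fun hu => h1 ?_
        exact ((ZMod.coe_int_isUnit_iff_isCoprime n χ.conductor).mp hu).symm
      rw [h3, mul_zero]

/-- **The inequality of Pólya and Vinogradov** for every non-principal character modulo `q`. -/
theorem polya_vinogradov_all {χ : DirichletCharacter ℂ q} (hχ : χ ≠ 1) (A B : ℤ) :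
    ‖∑ n ∈ Ioc A B, χ (n : ZMod q)‖ ≤ 2 * √q * Real.log q := by
  obtain ⟨r, hr⟩ := χ.conductor_dvd_level
  have hq0 : q ≠ 0 := NeZero.ne q
  have hr0 : r ≠ 0 := by
    rintro rfl
    exact hq0 (by rw [hr, mul_zero])
  have hf0 : χ.conductor ≠ 0 := by
    intro h
    exact hq0 (by rw [hr, h, zero_mul])
  have hf1 : 1 < χ.conductor := by
    have : χ.conductor ≠ 1 := fun h => hχ (χ.eq_one_iff_conductor_eq_one.mpr h)
    omega
  have : NeZero χ.conductor := ⟨hf0⟩
  have h1 : ∑ n ∈ Ioc A B, χ (n : ZMod q) = ∑ d ∈ r.divisors,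
      ((ArithmeticFunction.moebius d : ℤ) : ℂ) * (χ.primitiveCharacter (d : ZMod χ.conductor) *
        ∑ m ∈ Ioc (A / d) (B / d), χ.primitiveCharacter (m : ZMod χ.conductor)) := by
    rw [Finset.sum_congr rfl fun n _ => apply_eq_sum χ hr n]
    simp only [Finset.sum_filter]
    rw [Finset.sum_comm]
    refine Finset.sum_congr rfl fun d hd => ?_
    have hd0 : (0 : ℤ) < d := by
      exact_mod_cast Nat.pos_of_mem_divisors hd
    rw [← Finset.sum_filter, ← Finset.mul_sum]
    congr 1
    rw [sum_filter_dvd (fun n : ℤ => χ.primitiveCharacter (n : ZMod χ.conductor)) hd0,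
      Finset.mul_sum]
    refine Finset.sum_congr rfl fun m _ => ?_
    rw [Int.cast_mul, map_mul, Int.cast_natCast]
  have h2 : ∀ d ∈ r.divisors, ‖((ArithmeticFunction.moebius d : ℤ) : ℂ) *
      (χ.primitiveCharacter (d : ZMod χ.conductor) *
        ∑ m ∈ Ioc (A / d) (B / d), χ.primitiveCharacter (m : ZMod χ.conductor))‖ ≤
      √χ.conductor * Real.log χ.conductor := by
    intro d _
    have h3 := polya_vinogradov χ.primitiveCharacter_isPrimitive hf1 (A / d) (B / d)
    have h4 : ‖((ArithmeticFunction.moebius d : ℤ) : ℂ)‖ ≤ 1 := by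
      rw [Complex.norm_intCast]
      exact_mod_cast ArithmeticFunction.abs_moebius_le_one (n := d)
    have h5 := χ.primitiveCharacter.norm_le_one (d : ZMod χ.conductor)
    rw [norm_mul, norm_mul]
    refine (mul_le_of_le_one_left (by positivity) h4).trans ?_
    exact (mul_le_of_le_one_left (norm_nonneg _) h5).trans h3
  have h6 : (#r.divisors : ℝ) ≤ 2 * √r := by
    have h7 := BV.Short.card_divisors_le (n := r) (N := r) (by omega) le_rfl
    have h8 : #((Icc 1 (Nat.sqrt r)).filter fun d => d ∣ r) ≤ Nat.sqrt r := by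
      refine (Finset.card_filter_le _ _).trans ?_
      rw [Nat.card_Icc, Nat.add_sub_cancel]
    have h9 : (Nat.sqrt r : ℝ) ≤ √r := Real.nat_sqrt_le_real_sqrt
    have h10 : (#r.divisors : ℝ) ≤ 2 * Nat.sqrt r := by
      exact_mod_cast h7.trans (Nat.mul_le_mul_left 2 h8)
    linarith
  have hlog0 : 0 ≤ Real.log χ.conductor := Real.log_natCast_nonneg _
  have hlog : Real.log χ.conductor ≤ Real.log q :=
    Real.log_le_log (by exact_mod_cast (by omega : 0 < χ.conductor))
      (by exact_mod_cast Nat.le_of_dvd (by omega) χ.conductor_dvd_level)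
  have hsq : √(q : ℝ) = √χ.conductor * √r := by
    have : (q : ℝ) = χ.conductor * r := by exact_mod_cast hr
    rw [this, Real.sqrt_mul (Nat.cast_nonneg _)]
  rw [h1]
  refine (norm_sum_le _ _).trans ((Finset.sum_le_sum h2).trans ?_)
  rw [Finset.sum_const, nsmul_eq_mul, hsq]
  calc (#r.divisors : ℝ) * (√χ.conductor * Real.log χ.conductor) ≤
        (2 * √r) * (√χ.conductor * Real.log χ.conductor) :=
        mul_le_mul_of_nonneg_right h6 (by positivity)
    _ = 2 * (√χ.conductor * √r) * Real.log χ.conductor := by ring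
    _ ≤ 2 * (√χ.conductor * √r) * Real.log q := mul_le_mul_of_nonneg_left hlog (by positivity)

end Fermat.Agent.Cor.LS.PV
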