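import Fermat.Agent.Corollaries.KW.Gauss
import Mathlib

/-!
# The inequality of Pólya and Vinogradov (1918)

Let `χ` be a primitive Dirichlet character modulo `q > 1`. The sum of `χ` over any interval of
integers has absolute value at most `√q log q` (`polya_vinogradov`).
-/

set_option autoImplicit false

open Finset DirichletCharacter

namespace Fermat.Agent.Cor.LS.PV

/-! ### The sum of `1 / sin (π b / q)` -/

theorem sum_one_div_le (m : ℕ) :
    ∑ b ∈ Ico 1 (m + 1), (1 : ℝ) / b ≤ Real.log (2 * m + 1) := by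
  induction m with
  | zero => simp
  | succ m ih =>
    rw [Finset.sum_Ico_succ_top (by omega)]
    have h := Real.le_log_one_add_of_nonneg (x := 2 / (2 * (m : ℝ) + 1)) (by positivity)
    have h1 : 2 * (2 / (2 * (m : ℝ) + 1)) / (2 / (2 * m + 1) + 2) = 1 / ((m : ℝ) + 1) := by
      field_simp
      ring
    have h2 : Real.log (1 + 2 / (2 * (m : ℝ) + 1)) =
        Real.log (2 * m + 3) - Real.log (2 * m + 1) := by
      rw [← Real.log_div (by positivity) (by positivity)]
      congr 1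
      field_simp
      ring
    rw [h1, h2] at h
    push_cast
    have h3 : (2 : ℝ) * (m + 1) + 1 = 2 * m + 3 := by ring
    rw [h3]
    linarith

theorem one_div_sin_le {q b : ℕ} (hb : 0 < b) (h : 2 * b ≤ q) :
    1 / Real.sin (Real.pi * b / q) ≤ q / 2 * (1 / b) := by
  have hq : (0 : ℝ) < q := by exact_mod_cast (by omega : 0 < q)
  have hb' : (0 : ℝ) < b := by exact_mod_cast hb
  have h' : (2 : ℝ) * b ≤ q := by exact_mod_cast h
  have h1 := Real.mul_le_sin (x := Real.pi * b / q) (by positivity) (by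
    rw [div_le_div_iff₀ hq two_pos]
    nlinarith [Real.pi_pos])
  have h2 : 2 / Real.pi * (Real.pi * b / q) = 2 * b / q := by
    field_simp
  rw [h2] at h1
  calc 1 / Real.sin (Real.pi * b / q) ≤ 1 / (2 * b / q) :=
        one_div_le_one_div_of_le (by positivity) h1
    _ = q / 2 * (1 / b) := by field_simp

theorem sum_one_div_sin_le {q : ℕ} (hq : 0 < q) :
    ∑ b ∈ Ico 1 q, 1 / Real.sin (Real.pi * b / q) ≤ q * Real.log q := by
  have hq0 : (0 : ℝ) < q := by exact_mod_cast hq
  set f : ℕ → ℝ := fun b => 1 / Real.sin (Real.pi * b / q) with hf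
  have hsymm : ∀ b : ℕ, b ≤ q → f (q - b) = f b := by
    intro b hb
    simp only [hf]
    rw [Nat.cast_sub hb, show Real.pi * ((q : ℝ) - b) / q = Real.pi - Real.pi * b / q by
      field_simp, Real.sin_pi_sub]
  have hhalf : ∀ k : ℕ, 2 * k ≤ q → ∑ b ∈ Ico 1 (k + 1), f b ≤ q / 2 * Real.log (2 * k + 1) := by
    intro k hk
    calc ∑ b ∈ Ico 1 (k + 1), f b ≤ ∑ b ∈ Ico 1 (k + 1), (q : ℝ) / 2 * (1 / b) := by
          refine Finset.sum_le_sum fun b hb => ?_
          rw [Finset.mem_Ico] at hb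
          exact one_div_sin_le (by omega) (by omega)
      _ = q / 2 * ∑ b ∈ Ico 1 (k + 1), (1 : ℝ) / b := by rw [Finset.mul_sum]
      _ ≤ q / 2 * Real.log (2 * k + 1) :=
          mul_le_mul_of_nonneg_left (sum_one_div_le k) (by positivity)
  have hrefl : ∀ k : ℕ, k ≤ q → ∑ b ∈ Ico (q - k) q, f b = ∑ b ∈ Ico 1 (k + 1), f b := by
    intro k hk
    have h := Finset.sum_Ico_reflect f 1 (m := k + 1) (n := q) (by omega)
    rw [show q + 1 - (k + 1) = q - k by omega, show q + 1 - 1 = q by omega] at h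
    rw [← h]
    refine Finset.sum_congr rfl fun b hb => ?_
    rw [Finset.mem_Ico] at hb
    exact hsymm b (by omega)
  rcases Nat.even_or_odd' q with ⟨m, hm | hm⟩
  · obtain ⟨k, rfl⟩ : ∃ k, m = k + 1 := ⟨m - 1, by omega⟩
    have h1 : ∑ b ∈ Ico 1 q, f b =
        ∑ b ∈ Ico 1 (k + 1), f b + f (k + 1) + ∑ b ∈ Ico (k + 2) q, f b := by
      rw [← Finset.sum_Ico_succ_top (by omega), Finset.sum_Ico_consecutive _ (by omega) (by omega)]
    have h2 : ∑ b ∈ Ico (k + 2) q, f b = ∑ b ∈ Ico 1 (k + 1), f b := by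
      rw [← hrefl k (by omega)]
      congr 2
      omega
    have h3 : f (k + 1) ≤ 1 := by
      have h4 : Real.pi * ((k + 1 : ℕ) : ℝ) / q = Real.pi / 2 := by
        rw [hm]
        push_cast
        field_simp
      simp only [hf]
      rw [h4, Real.sin_pi_div_two, div_one]
    have h5 := hhalf k (by omega)
    have h6 : (1 : ℝ) / q ≤ Real.log q - Real.log (2 * k + 1) := by
      have h7 : (q : ℝ) = 2 * k + 2 := by
        rw [hm]
        push_cast
        ring
      have h8 := Real.one_sub_inv_le_log_of_pos (x := (2 * (k : ℝ) + 2) / (2 * k + 1))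
        (by positivity)
      rw [Real.log_div (by positivity) (by positivity)] at h8
      rw [h7]
      refine le_trans (le_of_eq ?_) h8
      field_simp
      ring
    rw [div_le_iff₀ hq0] at h6
    rw [h1, h2]
    nlinarith [h5, h3, h6]
  · have h1 : ∑ b ∈ Ico 1 q, f b =
        ∑ b ∈ Ico 1 (m + 1), f b + ∑ b ∈ Ico (m + 1) q, f b := by
      rw [Finset.sum_Ico_consecutive _ (by omega) (by omega)]
    have h2 : ∑ b ∈ Ico (m + 1) q, f b = ∑ b ∈ Ico 1 (m + 1), f b := by
      rw [← hrefl m (by omega)]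
      congr 2
      omega
    have h5 := hhalf m (by omega)
    have h7 : (q : ℝ) = 2 * m + 1 := by
      rw [hm]
      push_cast
      ring
    rw [h1, h2]
    rw [← h7] at h5
    linarith

/-! ### Geometric sums -/

variable {q : ℕ} [NeZero q]

theorem norm_stdAddChar_sub_one {b : ℕ} (hb : 0 < b) (hbq : b < q) :
    ‖(ZMod.stdAddChar (b : ZMod q) : ℂ) - 1‖ = 2 * Real.sin (Real.pi * b / q) ∧
      0 < Real.sin (Real.pi * b / q) := by
  have hq0 : (0 : ℝ) < q := by exact_mod_cast (by omega : 0 < q)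
  have hb0 : (0 : ℝ) < b := by exact_mod_cast hb
  have hbq' : (b : ℝ) < q := by exact_mod_cast hbq
  have h1 : (ZMod.stdAddChar (b : ZMod q) : ℂ) =
      Complex.exp (Complex.I * ((2 * (Real.pi * b / q) : ℝ) : ℂ)) := by
    have h2 := ZMod.stdAddChar_coe (N := q) (b : ℤ)
    rw [Int.cast_natCast] at h2
    rw [h2]
    congr 1
    push_cast
    ring
  have h3 : 0 < Real.sin (Real.pi * b / q) := by
    refine Real.sin_pos_of_pos_of_lt_pi (by positivity) ?_
    rw [div_lt_iff₀ hq0]
    exact mul_lt_mul_of_pos_left hbq' Real.pi_pos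
  refine ⟨?_, h3⟩
  rw [h1, Complex.norm_exp_I_mul_ofReal_sub_one, mul_div_cancel_left₀ _ two_ne_zero, norm_mul,
    Real.norm_of_nonneg h3.le, Real.norm_of_nonneg zero_le_two]

theorem norm_geom_le {b : ℕ} (hb : 0 < b) (hbq : b < q) (A : ℤ) (N : ℕ) :
    ‖∑ n ∈ range N, (ZMod.stdAddChar (((A + n : ℤ) : ZMod q) * (b : ZMod q)) : ℂ)‖ ≤
      1 / Real.sin (Real.pi * b / q) := by
  obtain ⟨h1, h2⟩ := norm_stdAddChar_sub_one (q := q) hb hbq
  set z : ℂ := ZMod.stdAddChar (b : ZMod q) with hz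
  have hz1 : z ≠ 1 := by
    intro h
    rw [h, sub_self, norm_zero] at h1
    linarith
  have h3 : ∀ n : ℕ, (ZMod.stdAddChar (((A + n : ℤ) : ZMod q) * (b : ZMod q)) : ℂ) =
      ZMod.stdAddChar ((A : ZMod q) * (b : ZMod q)) * z ^ n := by
    intro n
    rw [hz, ← AddChar.map_nsmul_eq_pow, ← AddChar.map_add_eq_mul]
    congr 1
    push_cast
    rw [nsmul_eq_mul]
    ring
  rw [Finset.sum_congr rfl fun n _ => h3 n, ← Finset.mul_sum, geom_sum_eq hz1, norm_mul, norm_div,
    AddChar.norm_apply, one_mul, h1]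
  have h4 : ‖z ^ N - 1‖ ≤ 2 := by
    refine (norm_sub_le _ _).trans ?_
    rw [norm_pow, hz, AddChar.norm_apply, one_pow, norm_one]
    norm_num
  rw [div_le_div_iff₀ (by positivity) h2]
  nlinarith

/-! ### The inequality of Pólya and Vinogradov -/

theorem norm_sum_range_le {χ : DirichletCharacter ℂ q} (hχ : χ.IsPrimitive) (hq : 1 < q) (A : ℤ)
    (N : ℕ) : ‖∑ n ∈ range N, χ ((A + n : ℤ) : ZMod q)‖ ≤ √q * Real.log q := by
  have hq0 : (0 : ℝ) < q := by exact_mod_cast (by omega : 0 < q)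
  set e : AddChar (ZMod q) ℂ := ZMod.stdAddChar with he
  set τ : ℂ := gaussSum χ e with hτ
  have h1 : ‖τ‖ = √q := KW.Gauss.norm_gaussSum hχ
  have h2 : τ * ∑ n ∈ range N, χ⁻¹ ((A + n : ℤ) : ZMod q) =
      ∑ b : ZMod q, χ b * ∑ n ∈ range N, e (((A + n : ℤ) : ZMod q) * b) := by
    rw [Finset.mul_sum]
    have h3 : ∀ n : ℕ, τ * χ⁻¹ ((A + n : ℤ) : ZMod q) =
        ∑ b : ZMod q, χ b * e (((A + n : ℤ) : ZMod q) * b) := by
      intro n
      rw [mul_comm, ← gaussSum_mulShift_of_isPrimitive e hχ]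
      rfl
    rw [Finset.sum_congr rfl fun n _ => h3 n, Finset.sum_comm]
    exact Finset.sum_congr rfl fun b _ => by rw [Finset.mul_sum]
  have h4 : ‖∑ n ∈ range N, χ ((A + n : ℤ) : ZMod q)‖ =
      ‖∑ n ∈ range N, χ⁻¹ ((A + n : ℤ) : ZMod q)‖ := by
    rw [← norm_star (∑ n ∈ range N, χ ((A + n : ℤ) : ZMod q)), star_sum]
    congr 1
    exact Finset.sum_congr rfl fun n _ => MulChar.star_apply' χ _
  have h5 : ‖τ * ∑ n ∈ range N, χ⁻¹ ((A + n : ℤ) : ZMod q)‖ ≤ q * Real.log q := by
    rw [h2]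
    refine (norm_sum_le _ _).trans ?_
    refine le_trans ?_ (sum_one_div_sin_le (q := q) (by omega))
    rw [← Finset.sum_erase_add _ _ (Finset.mem_univ (0 : ZMod q))]
    have h6 : χ (0 : ZMod q) = 0 := by
      have : Fact (1 < q) := ⟨hq⟩
      exact MulChar.map_nonunit χ not_isUnit_zero
    rw [h6, zero_mul, norm_zero, add_zero]
    refine le_of_le_of_eq (Finset.sum_le_sum (g := fun b : ZMod q =>
      1 / Real.sin (Real.pi * b.val / q)) fun b hb => ?_) ?_
    · have hb0 : 0 < b.val := Nat.pos_of_ne_zero fun h =>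
        (Finset.ne_of_mem_erase hb) ((ZMod.val_eq_zero b).mp h)
      have h7 := norm_geom_le (q := q) hb0 (ZMod.val_lt b) A N
      rw [ZMod.natCast_zmod_val] at h7
      rw [norm_mul]
      refine le_trans (mul_le_of_le_one_left (norm_nonneg _) (χ.norm_le_one b)) h7
    · refine Finset.sum_nbij' (fun b => b.val) (fun n => (n : ZMod q)) ?_ ?_ ?_ ?_ ?_
      · intro b hb
        rw [Finset.mem_Ico]
        exact ⟨Nat.pos_of_ne_zero fun h =>
          (Finset.ne_of_mem_erase hb) ((ZMod.val_eq_zero b).mp h), ZMod.val_lt b⟩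
      · intro n hn
        rw [Finset.mem_Ico] at hn
        refine Finset.mem_erase.mpr ⟨fun h => ?_, Finset.mem_univ _⟩
        have h8 := congrArg ZMod.val h
        rw [ZMod.val_natCast, Nat.mod_eq_of_lt hn.2, ZMod.val_zero] at h8
        omega
      · intro b _
        exact ZMod.natCast_zmod_val b
      · intro n hn
        rw [Finset.mem_Ico] at hn
        rw [ZMod.val_natCast, Nat.mod_eq_of_lt hn.2]
      · intro b _
        rfl
  rw [norm_mul, h1, ← h4] at h5
  have h9 : √(q : ℝ) * √q = q := Real.mul_self_sqrt hq0.le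
  have h10 : 0 < √(q : ℝ) := Real.sqrt_pos.mpr hq0
  refine le_of_mul_le_mul_left (h5.trans_eq ?_) h10
  rw [← mul_assoc, h9]

theorem sum_Ioc_eq {M : Type*} [AddCommMonoid M] (f : ℤ → M) (A B : ℤ) :
    ∑ n ∈ Ioc A B, f n = ∑ n ∈ range (B - A).toNat, f (A + 1 + n) := by
  refine Finset.sum_nbij' (fun n => (n - A - 1).toNat) (fun n => A + 1 + n) ?_ ?_ ?_ ?_ ?_
  · intro n hn
    rw [Finset.mem_Ioc] at hn
    rw [Finset.mem_range]
    omega
  · intro n hn
    rw [Finset.mem_range] at hn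
    rw [Finset.mem_Ioc]
    omega
  · intro n hn
    rw [Finset.mem_Ioc] at hn
    omega
  · intro n hn
    omega
  · intro n hn
    rw [Finset.mem_Ioc] at hn
    congr 1
    omega

/-- **The inequality of Pólya and Vinogradov (1918)**: the sum of a primitive character modulo
`q > 1` over an interval of integers is at most `√q log q`. -/
theorem polya_vinogradov {χ : DirichletCharacter ℂ q} (hχ : χ.IsPrimitive) (hq : 1 < q)
    (A B : ℤ) : ‖∑ n ∈ Ioc A B, χ (n : ZMod q)‖ ≤ √q * Real.log q := by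
  rw [sum_Ioc_eq]
  have h := norm_sum_range_le hχ hq (A + 1) (B - A).toNat
  exact h

end Fermat.Agent.Cor.LS.PV
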