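import Fermat.Agent.Corollaries.LS.Defs

/-!
# The integers without large prime factors have positive density (from Mertens' theorem)
-/

set_option autoImplicit false

open Finset Filter Topology

namespace Fermat.Agent.Cor.LS

namespace Smooth

/-- the integers `n ≤ N` all whose prime factors are `≤ N ^ ε` -/
noncomputable def S (ε : ℝ) (N : ℕ) : Finset ℕ :=
  open Classical in (Icc 1 N).filter fun n => ∀ p : ℕ, p.Prime → p ∣ n → (p : ℝ) ≤ (N : ℝ) ^ ε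

theorem card_eq (ε : ℝ) (N : ℕ) : Nat.card {n : ℕ | 1 ≤ n ∧ n ≤ N ∧
    ∀ p : ℕ, p.Prime → p ∣ n → (p : ℝ) ≤ (N : ℝ) ^ ε} = #(S ε N) := by
  classical
  have h : {n : ℕ | 1 ≤ n ∧ n ≤ N ∧ ∀ p : ℕ, p.Prime → p ∣ n → (p : ℝ) ≤ (N : ℝ) ^ ε} =
      (S ε N : Set ℕ) := by
    ext n
    rw [S, Set.mem_ofPred_eq, mem_coe, mem_filter, mem_Icc, and_assoc]
  rw [h, Nat.card_coe_set_eq, Set.ncard_coe_finset]

section

variable {ε : ℝ} {k N : ℕ} {I : Finset ℕ}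

/-- the number of large prime factors -/
theorem card_large (h1 : ε ≤ 1 / 2) (hk : 1 ≤ k) (hN : 2 ≤ N) {n : ℕ} (hn : 1 ≤ n) (hnN : n ≤ N) :
    #(n.primeFactors.filter fun p : ℕ => (N : ℝ) ^ ((1 - ε) / k) < (p : ℝ)) ≤ 2 * k := by
  set D := n.primeFactors.filter fun p : ℕ => (N : ℝ) ^ ((1 - ε) / k) < (p : ℝ) with hD
  have hk' : (0 : ℝ) < k := by exact_mod_cast hk
  have hN1 : (1 : ℝ) < N := by exact_mod_cast hN
  have hN0 : (0 : ℝ) ≤ N := by positivity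
  have h2 : ∏ p ∈ D, p ≤ N := by
    refine (Nat.le_of_dvd hn ?_).trans hnN
    exact (prod_dvd_prod_of_subset _ _ _ (filter_subset _ _)).trans (Nat.prod_primeFactors_dvd n)
  have h3 : ((N : ℝ) ^ ((1 - ε) / k)) ^ #D ≤ N := by
    calc ((N : ℝ) ^ ((1 - ε) / k)) ^ #D = ∏ _p ∈ D, (N : ℝ) ^ ((1 - ε) / k) := by
          rw [prod_const]
      _ ≤ ∏ p ∈ D, (p : ℝ) :=
          prod_le_prod (fun _ _ => Real.rpow_nonneg hN0 _) fun p hp => (mem_filter.mp hp).2.le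
      _ = ((∏ p ∈ D, p : ℕ) : ℝ) := by push_cast; rfl
      _ ≤ N := Nat.cast_le.mpr h2
  rw [← Real.rpow_natCast, ← Real.rpow_mul hN0] at h3
  have h4 : (1 - ε) / k * (#D : ℝ) ≤ 1 := by
    rw [← Real.rpow_le_rpow_left_iff hN1, Real.rpow_one]
    exact h3
  have h5 : (#D : ℝ) ≤ 2 * k := by
    rw [div_mul_eq_mul_div, div_le_one hk'] at h4
    have h6 : (0 : ℝ) ≤ #D := by positivity
    nlinarith
  exact_mod_cast h5

theorem key (h0 : 0 < ε) (h1 : ε ≤ 1 / 2) (hk : 1 ≤ k) (hkε : 1 / (k : ℝ) ≤ ε) (hN : 2 ≤ N)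
    (hI : ∀ p ∈ I, p.Prime ∧ (N : ℝ) ^ ((1 - ε) / k) < p ∧ (p : ℝ) ≤ (N : ℝ) ^ (1 / (k : ℝ))) :
    (N : ℝ) / 2 * (∑ p ∈ I, (p : ℝ)⁻¹) ^ k ≤ (2 * k) ^ k * #(S ε N) := by
  classical
  have hk' : (0 : ℝ) < k := by exact_mod_cast hk
  have hN1 : (1 : ℝ) < N := by exact_mod_cast hN
  have hN0 : (0 : ℝ) ≤ N := by positivity
  set Q : (Fin k → ℕ) → ℕ := fun s => ∏ i, s i with hQ
  set P := Fintype.piFinset fun _ : Fin k => I with hP
  set T : Finset (Σ _ : Fin k → ℕ, ℕ) := P.sigma fun s => Icc 1 (N / Q s) with hT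
  set f : (Σ _ : Fin k → ℕ, ℕ) → ℕ := fun x => x.2 * Q x.1 with hf
  have hmem : ∀ s ∈ P, ∀ i, s i ∈ I := fun s hs i => Fintype.mem_piFinset.mp hs i
  have hQpos : ∀ s ∈ P, 0 < Q s := fun s hs =>
    Finset.prod_pos fun i _ => (hI _ (hmem s hs i)).1.pos
  have hQle : ∀ s ∈ P, Q s ≤ N := by
    intro s hs
    have h2 : (Q s : ℝ) ≤ N := by
      calc (Q s : ℝ) = ∏ i, (s i : ℝ) := by rw [hQ]; push_cast; rfl
        _ ≤ ∏ _i : Fin k, (N : ℝ) ^ (1 / (k : ℝ)) :=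
            prod_le_prod (fun _ _ => by positivity) fun i _ => (hI _ (hmem s hs i)).2.2
        _ = N := by
            rw [prod_const, card_univ, Fintype.card_fin, ← Real.rpow_natCast,
              ← Real.rpow_mul hN0, div_mul_cancel₀ _ hk'.ne', Real.rpow_one]
    exact_mod_cast h2
  have hQge : ∀ s ∈ P, (N : ℝ) ^ (1 - ε) ≤ Q s := by
    intro s hs
    calc (N : ℝ) ^ (1 - ε) = ∏ _i : Fin k, (N : ℝ) ^ ((1 - ε) / k) := by
          rw [prod_const, card_univ, Fintype.card_fin, ← Real.rpow_natCast,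
            ← Real.rpow_mul hN0, div_mul_cancel₀ _ hk'.ne']
      _ ≤ ∏ i, (s i : ℝ) :=
          prod_le_prod (fun _ _ => Real.rpow_nonneg hN0 _) fun i _ => (hI _ (hmem s hs i)).2.1.le
      _ = Q s := by rw [hQ]; push_cast; rfl
  have himage : T.image f ⊆ S ε N := by
    intro n hn
    obtain ⟨⟨s, m⟩, hx, rfl⟩ := mem_image.mp hn
    obtain ⟨hs, hm⟩ := mem_sigma.mp hx
    obtain ⟨hm1, hm2⟩ := mem_Icc.mp hm
    have hm3 : m * Q s ≤ N := (Nat.le_div_iff_mul_le (hQpos s hs)).mp hm2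
    rw [S, mem_filter, mem_Icc]
    refine ⟨⟨Nat.mul_pos hm1 (hQpos s hs), hm3⟩, fun p hp hdvd => ?_⟩
    rcases (Nat.Prime.dvd_mul hp).mp hdvd with hpm | hpQ
    · have h2 : (m : ℝ) * (N : ℝ) ^ (1 - ε) ≤ (N : ℝ) ^ ε * (N : ℝ) ^ (1 - ε) := by
        rw [← Real.rpow_add (by linarith), add_sub_cancel, Real.rpow_one]
        have h3 : (m : ℝ) * (N : ℝ) ^ (1 - ε) ≤ m * Q s :=
          mul_le_mul_of_nonneg_left (hQge s hs) (by positivity)
        exact h3.trans (by exact_mod_cast hm3)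
      have h4 : (m : ℝ) ≤ (N : ℝ) ^ ε :=
        le_of_mul_le_mul_right h2 (Real.rpow_pos_of_pos (by linarith) _)
      refine le_trans ?_ h4
      exact_mod_cast Nat.le_of_dvd hm1 hpm
    · obtain ⟨i, _, hi⟩ := (Nat.Prime.prime hp).exists_mem_finset_dvd hpQ
      have h2 := hI _ (hmem s hs i)
      have h3 : p = s i := (Nat.prime_dvd_prime_iff_eq hp h2.1).mp hi
      rw [h3]
      exact h2.2.2.trans (Real.rpow_le_rpow_of_exponent_le hN1.le hkε)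
  have hfib : ∀ n ∈ T.image f, #(T.filter fun x => f x = n) ≤ (2 * k) ^ k := by
    intro n hn
    have hnS := himage hn
    rw [S, mem_filter, mem_Icc] at hnS
    have hD := card_large h1 hk hN hnS.1.1 hnS.1.2
    set D := n.primeFactors.filter fun p : ℕ => (N : ℝ) ^ ((1 - ε) / k) < (p : ℝ)
    have h2 : #(T.filter fun x => f x = n) ≤ #(Fintype.piFinset fun _ : Fin k => D) := by
      refine card_le_card_of_injOn (fun x => x.1) ?_ ?_
      · intro x hx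
        obtain ⟨hxT, hxn⟩ := mem_filter.mp hx
        obtain ⟨hs, hm⟩ := mem_sigma.mp hxT
        rw [mem_coe, Fintype.mem_piFinset]
        intro i
        have h3 := hI _ (hmem _ hs i)
        refine mem_filter.mpr ⟨Nat.mem_primeFactors.mpr ⟨h3.1, ?_, by omega⟩, h3.2.1⟩
        rw [← hxn]
        exact (dvd_prod_of_mem _ (mem_univ i)).trans (dvd_mul_left _ _)
      · rintro ⟨s, m⟩ hx ⟨s', m'⟩ hy hxy
        obtain ⟨hxT, hxn⟩ := mem_filter.mp hx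
        obtain ⟨hyT, hyn⟩ := mem_filter.mp hy
        obtain ⟨hs, hm⟩ := mem_sigma.mp hxT
        change s = s' at hxy
        subst hxy
        have h3 : m * Q s = m' * Q s := hxn.trans hyn.symm
        rw [Nat.eq_of_mul_eq_mul_right (hQpos s hs) h3]
    refine h2.trans ?_
    rw [Fintype.card_piFinset_const]
    exact Nat.pow_le_pow_left hD k
  have hcard := card_le_mul_card_image T ((2 * k) ^ k) hfib
  have hcard2 : (#T : ℝ) ≤ (2 * k) ^ k * #(S ε N) := by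
    have h2 : #T ≤ (2 * k) ^ k * #(S ε N) :=
      hcard.trans (Nat.mul_le_mul_left _ (card_le_card himage))
    exact_mod_cast h2
  refine le_trans ?_ hcard2
  rw [hT, card_sigma, Finset.sum_pow', mul_sum]
  push_cast
  refine sum_le_sum fun s hs => ?_
  rw [Nat.card_Icc, add_tsub_cancel_right, prod_inv_distrib]
  have hq : 1 ≤ N / Q s := Nat.div_pos (hQle s hs) (hQpos s hs)
  have h2 : N < Q s * (N / Q s + 1) := Nat.lt_mul_div_succ N (hQpos s hs)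
  have h3 : N ≤ 2 * (N / Q s) * Q s := by nlinarith
  have h4 : (N : ℝ) ≤ 2 * ((N / Q s : ℕ) : ℝ) * Q s := by exact_mod_cast h3
  have h5 : (0 : ℝ) < Q s := by exact_mod_cast hQpos s hs
  have h6 : (∏ i, (s i : ℝ)) = Q s := by rw [hQ]; push_cast; rfl
  rw [h6, ← div_eq_mul_inv, div_le_iff₀ h5]
  linarith

end

/-- `∑_{p ≤ x} 1 / p` -/
noncomputable def F (x : ℝ) : ℝ := ∑ p ∈ (Icc 1 ⌊x⌋₊).filter Nat.Prime, (p : ℝ)⁻¹

/-- the primes in the interval `(N ^ a, N ^ b]` -/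
noncomputable def J (a b : ℝ) (N : ℕ) : Finset ℕ :=
  (Icc 1 ⌊(N : ℝ) ^ b⌋₊).filter Nat.Prime \ (Icc 1 ⌊(N : ℝ) ^ a⌋₊).filter Nat.Prime

theorem mem_J {a b : ℝ} {N p : ℕ} (hp : p ∈ J a b N) :
    p.Prime ∧ (N : ℝ) ^ a < p ∧ (p : ℝ) ≤ (N : ℝ) ^ b := by
  rw [J, Finset.mem_sdiff, mem_filter, mem_filter, mem_Icc, mem_Icc] at hp
  obtain ⟨⟨⟨h1, h2⟩, h3⟩, h4⟩ := hp
  refine ⟨h3, ?_, ?_⟩
  · by_contra h5
    exact h4 ⟨⟨h1, Nat.le_floor (not_lt.mp h5)⟩, h3⟩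
  · exact (Nat.cast_le.mpr h2).trans (Nat.floor_le (by positivity))

theorem sum_J {a b : ℝ} (hab : a ≤ b) {N : ℕ} (hN : 1 ≤ N) :
    ∑ p ∈ J a b N, (p : ℝ)⁻¹ = F ((N : ℝ) ^ b) - F ((N : ℝ) ^ a) := by
  rw [J, sum_sdiff_eq_sub, F, F]
  refine filter_subset_filter _ (Icc_subset_Icc le_rfl (Nat.floor_le_floor ?_))
  exact Real.rpow_le_rpow_of_exponent_le (by exact_mod_cast hN) hab

theorem tendsto_J {M : ℝ} (hM : Tendsto (fun x => F x - Real.log (Real.log x)) atTop (𝓝 M))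
    {a b : ℝ} (ha : 0 < a) (hab : a ≤ b) :
    Tendsto (fun N : ℕ => ∑ p ∈ J a b N, (p : ℝ)⁻¹) atTop (𝓝 (Real.log b - Real.log a)) := by
  have hb : 0 < b := ha.trans_le hab
  have h1 : ∀ c : ℝ, 0 < c → Tendsto (fun N : ℕ => F ((N : ℝ) ^ c) -
      Real.log (Real.log ((N : ℝ) ^ c))) atTop (𝓝 M) := fun c hc =>
    hM.comp ((tendsto_rpow_atTop hc).comp tendsto_natCast_atTop_atTop)
  have h2 : Tendsto (fun N : ℕ => (F ((N : ℝ) ^ b) - Real.log (Real.log ((N : ℝ) ^ b))) -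
      (F ((N : ℝ) ^ a) - Real.log (Real.log ((N : ℝ) ^ a))) + (Real.log b - Real.log a)) atTop
      (𝓝 (M - M + (Real.log b - Real.log a))) :=
    ((h1 b hb).sub (h1 a ha)).add tendsto_const_nhds
  rw [sub_self, zero_add] at h2
  refine h2.congr' ?_
  filter_upwards [eventually_ge_atTop 2] with N hN
  have hN1 : (1 : ℝ) < N := by exact_mod_cast hN
  have hlog : 0 < Real.log N := Real.log_pos hN1
  rw [sum_J hab (by omega), Real.log_rpow (by linarith), Real.log_rpow (by linarith),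
    Real.log_mul hb.ne' hlog.ne', Real.log_mul ha.ne' hlog.ne']
  ring

end Smooth

open Smooth in
/-- (L4) from Mertens' second theorem -/
theorem smoothStmt_of {M : ℝ} (hM : Tendsto (fun x : ℝ =>
    (∑ p ∈ (Icc 1 ⌊x⌋₊).filter Nat.Prime, (p : ℝ)⁻¹) - Real.log (Real.log x)) atTop (𝓝 M)) :
    SmoothStmt := by
  classical
  intro ε' hε'
  obtain ⟨ε, h0, h1, hεε'⟩ : ∃ ε : ℝ, 0 < ε ∧ ε ≤ 1 / 2 ∧ ε ≤ ε' :=
    ⟨min ε' (1 / 2), lt_min hε' (by norm_num), min_le_right _ _, min_le_left _ _⟩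
  set k := ⌈1 / ε⌉₊ with hkdef
  have hkε0 : 1 / ε ≤ k := Nat.le_ceil _
  have hk0 : (0 : ℝ) < k := (by positivity : (0 : ℝ) < 1 / ε).trans_le hkε0
  have hk : 1 ≤ k := by exact_mod_cast hk0
  have hkε : 1 / (k : ℝ) ≤ ε := by
    rw [div_le_iff₀ hk0]
    rw [div_le_iff₀ h0] at hkε0
    linarith
  set a : ℝ := (1 - ε) / k with ha
  have ha0 : 0 < a := div_pos (by linarith) hk0
  have hab : a ≤ 1 / (k : ℝ) := div_le_div_of_nonneg_right (by linarith) hk0.le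
  have hlim := tendsto_J (M := M) hM ha0 hab
  set δ : ℝ := Real.log (1 / (k : ℝ)) - Real.log a with hδ
  have hδ0 : 0 < δ := by
    rw [hδ, sub_pos]
    refine Real.log_lt_log ha0 ?_
    rw [ha]
    exact div_lt_div_of_pos_right (by linarith) hk0
  refine ⟨(δ / 2) ^ k / (2 * (2 * k) ^ k), by positivity, ?_⟩
  filter_upwards [hlim.eventually (lt_mem_nhds (show δ / 2 < δ by linarith)),
    eventually_ge_atTop 2] with N hN1 hN2
  have h2 := key h0 h1 hk hkε hN2 (I := J a (1 / (k : ℝ)) N) fun p hp => mem_J hp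
  rw [card_eq]
  have h3 : S ε N ⊆ S ε' N := by
    intro n hn
    rw [S, mem_filter] at hn ⊢
    refine ⟨hn.1, fun p hp hdvd => (hn.2 p hp hdvd).trans ?_⟩
    exact Real.rpow_le_rpow_of_exponent_le (by exact_mod_cast (by omega : 1 ≤ N)) hεε'
  have h4 : (#(S ε N) : ℝ) ≤ #(S ε' N) := by exact_mod_cast card_le_card h3
  refine le_trans ?_ h4
  have h5 : (δ / 2) ^ k ≤ (∑ p ∈ J a (1 / (k : ℝ)) N, (p : ℝ)⁻¹) ^ k :=
    pow_le_pow_left₀ (by positivity) hN1.le k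
  have h6 : (N : ℝ) / 2 * (δ / 2) ^ k ≤ (2 * k) ^ k * #(S ε N) :=
    (mul_le_mul_of_nonneg_left h5 (by positivity)).trans h2
  rw [div_mul_eq_mul_div, div_le_iff₀ (by positivity)]
  linarith

end Fermat.Agent.Cor.LS
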